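/-
The subring spanned, over the image of a base ring, by a finite independent family that is
closed under multiplication with given structure constants.
-/
import Mathlib.LinearAlgebra.Basis.Basic
import Mathlib.Algebra.Algebra.Defs
import Mathlib.Algebra.Ring.Subring.Basic
import Mathlib.RingTheory.Trace.Basic

set_option autoImplicit false

namespace Fermat.Agent.S27

variable {S L : Type*} [CommRing S] [CommRing L] {n : ℕ}

/-- `e` is independent over the image of `ξ`, contains `1` and multiplies with constants `c` -/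
structure ChartHyp (ξ : S →+* L) (e : Fin n → L) (c : Fin n → Fin n → Fin n → S) (i₀ : Fin n) :
    Prop where
  indep : ∀ v : Fin n → S, ∑ i, ξ (v i) * e i = 0 → v = 0
  one : e i₀ = 1
  mul : ∀ i j, e i * e j = ∑ l, ξ (c i j l) * e l

namespace ChartHyp

variable {ξ : S →+* L} {e : Fin n → L} {c : Fin n → Fin n → Fin n → S} {i₀ : Fin n}
variable (h : ChartHyp ξ e c i₀)

theorem sum_single (s : S) (i : Fin n) :
    ∑ l, ξ ((Pi.single i s : Fin n → S) l) * e l = ξ s * e i := by
  classical
  rw [Finset.sum_eq_single i (fun l _ hl => by simp [Pi.single_eq_of_ne hl]) (fun h => absurd (Finset.mem_univ i) h)]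
  simp

/-- the subring of all combinations -/
def ring (h : ChartHyp ξ e c i₀) : Subring L where
  carrier := {z | ∃ v : Fin n → S, ∑ i, ξ (v i) * e i = z}
  zero_mem' := ⟨0, by simp⟩
  one_mem' := ⟨Pi.single i₀ 1, by rw [sum_single, map_one, one_mul, h.one]⟩
  add_mem' := by
    rintro _ _ ⟨v, rfl⟩ ⟨w, rfl⟩
    exact ⟨v + w, by simp [add_mul, Finset.sum_add_distrib]⟩
  neg_mem' := by
    rintro _ ⟨v, rfl⟩
    exact ⟨-v, by simp⟩
  mul_mem' := by
    rintro _ _ ⟨v, rfl⟩ ⟨w, rfl⟩
    refine ⟨fun l => ∑ i, ∑ j, v i * w j * c i j l, ?_⟩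
    rw [Finset.sum_mul_sum]
    simp only [Finset.sum_mul, map_sum, map_mul]
    rw [Finset.sum_comm]
    refine Finset.sum_congr rfl fun i _ => ?_
    rw [Finset.sum_comm]
    refine Finset.sum_congr rfl fun j _ => ?_
    rw [show ξ (v i) * e i * (ξ (w j) * e j) = ξ (v i) * ξ (w j) * (e i * e j) by ring, h.mul,
      Finset.mul_sum]
    exact Finset.sum_congr rfl fun l _ => by ring

theorem mem_ring {z : L} : z ∈ h.ring ↔ ∃ v : Fin n → S, ∑ i, ξ (v i) * e i = z := Iff.rfl

theorem mem_base (s : S) : ξ s ∈ h.ring :=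
  ⟨Pi.single i₀ s, by rw [sum_single, h.one, mul_one]⟩

instance instAlgebra : Algebra S h.ring := (ξ.codRestrict h.ring h.mem_base).toAlgebra

@[simp]
theorem coe_algebraMap (s : S) : ((algebraMap S h.ring s : h.ring) : L) = ξ s := rfl

/-- the member attached to a coordinate vector -/
def ofVec (v : Fin n → S) : h.ring := ⟨∑ i, ξ (v i) * e i, v, rfl⟩

theorem coe_smul (s : S) (z : h.ring) : ((s • z : h.ring) : L) = ξ s * z := by
  rw [Algebra.smul_def]; rfl

/-- coordinates -/
noncomputable def vecEquiv : (Fin n → S) ≃ₗ[S] h.ring :=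
  LinearEquiv.ofBijective
    { toFun := h.ofVec
      map_add' := fun v w => Subtype.ext (by simp [ofVec, add_mul, Finset.sum_add_distrib])
      map_smul' := fun s v => Subtype.ext (by
        simp [ofVec, h.coe_smul, Finset.mul_sum, mul_assoc]) }
    ⟨fun v w hvw => sub_eq_zero.1 (h.indep _ (by
        have := congrArg Subtype.val hvw
        simp only [LinearMap.coe_mk, AddHom.coe_mk, ofVec] at this
        simp [sub_mul, Finset.sum_sub_distrib, this])),
      fun z => by obtain ⟨v, hv⟩ := z.2; exact ⟨v, Subtype.ext hv⟩⟩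

/-- the basis -/
noncomputable def basis : Module.Basis (Fin n) S h.ring :=
  Module.Basis.ofEquivFun h.vecEquiv.symm

@[simp]
theorem coe_basis (i : Fin n) : ((h.basis i : h.ring) : L) = e i := by
  classical
  rw [basis, Module.Basis.coe_ofEquivFun]
  show ((h.ofVec (Pi.single i 1) : h.ring) : L) = e i
  simp [ofVec, sum_single]

theorem coe_eq_sum (z : h.ring) : (z : L) = ∑ i, ξ (h.basis.repr z i) * e i := by
  conv_lhs => rw [← h.basis.sum_repr z]
  rw [show ∀ w : h.ring, (w : L) = h.ring.subtype w from fun _ => rfl, map_sum]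
  exact Finset.sum_congr rfl fun i _ => by
    rw [Subring.subtype_apply, h.coe_smul, h.coe_basis]

theorem repr_ofVec (v : Fin n → S) (i : Fin n) : h.basis.repr (h.ofVec v) i = v i := by
  have h0 : (fun i => h.basis.repr (h.ofVec v) i - v i) = 0 := h.indep _ (by
    simp [sub_mul, Finset.sum_sub_distrib, ← h.coe_eq_sum]; simp [ofVec])
  exact sub_eq_zero.1 (congrFun h0 i)

theorem basis_mul (i j : Fin n) : h.basis i * h.basis j = ∑ l, c i j l • h.basis l :=
  Subtype.ext (by simp [h.coe_smul, h.mul])

theorem trace_basis (l : Fin n) : Algebra.trace S h.ring (h.basis l) = ∑ m, c l m m := by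
  classical
  rw [Algebra.trace_eq_matrix_trace h.basis, Matrix.trace]
  refine Finset.sum_congr rfl fun m _ => ?_
  rw [Matrix.diag_apply, Algebra.leftMulMatrix_eq_repr_mul, basis_mul, map_sum,
    Finset.sum_apply']
  simp [Finsupp.single_apply]

theorem traceMatrix_basis :
    Algebra.traceMatrix S h.basis
      = Matrix.of fun i j => ∑ l, c i j l * ∑ m, c l m m := by
  ext i j
  rw [Algebra.traceMatrix_apply, Algebra.traceForm_apply, basis_mul, map_sum, Matrix.of_apply]
  simp [h.trace_basis]

section Map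

variable {S' L' : Type*} [CommRing S'] [CommRing L'] {ξ' : S' →+* L'} {e' : Fin n → L'}
  {c' : Fin n → Fin n → Fin n → S'} (h' : ChartHyp ξ' e' c' i₀)

include h' in
theorem coordMap_mul_basis (φ : S →+* S') (hc : ∀ i j l, φ (c i j l) = c' i j l)
    (z : h.ring) (v w : Fin n → S)
    (hz : (z : L) = (∑ i, ξ (v i) * e i) * (∑ i, ξ (w i) * e i)) :
    ∑ i, ξ' (φ (h.basis.repr z i)) * e' i
      = (∑ i, ξ' (φ (v i)) * e' i) * (∑ i, ξ' (φ (w i)) * e' i) := by
  have hz' : z = h.ofVec (fun l => ∑ i, ∑ j, v i * w j * c i j l) := by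
    refine Subtype.ext ?_
    rw [hz]
    rw [Finset.sum_mul_sum]
    simp only [ofVec, Finset.sum_mul, map_sum, map_mul]
    symm
    rw [Finset.sum_comm]
    refine Finset.sum_congr rfl fun i _ => ?_
    rw [Finset.sum_comm]
    refine Finset.sum_congr rfl fun j _ => ?_
    rw [show ξ (v i) * e i * (ξ (w j) * e j) = ξ (v i) * ξ (w j) * (e i * e j) by ring, h.mul,
      Finset.mul_sum]
    exact Finset.sum_congr rfl fun l _ => by ring
  subst hz'
  rw [Finset.sum_mul_sum]
  simp only [repr_ofVec, Finset.sum_mul, map_sum, map_mul, hc]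
  rw [Finset.sum_comm]
  refine Finset.sum_congr rfl fun i _ => ?_
  rw [Finset.sum_comm]
  refine Finset.sum_congr rfl fun j _ => ?_
  rw [show ξ' (φ (v i)) * e' i * (ξ' (φ (w j)) * e' j)
      = ξ' (φ (v i)) * ξ' (φ (w j)) * (e' i * e' j) by ring, h'.mul, Finset.mul_sum]
  exact Finset.sum_congr rfl fun l _ => by ring

/-- change of coefficients -/
noncomputable def map (φ : S →+* S') (hc : ∀ i j l, φ (c i j l) = c' i j l) :
    h.ring →+* h'.ring where
  toFun z := h'.ofVec fun i => φ (h.basis.repr z i)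
  map_one' := Subtype.ext <| by
    have h1 : (1 : h.ring) = h.ofVec (Pi.single i₀ 1) :=
      Subtype.ext (by simp [ofVec, sum_single, h.one])
    have h2 : (fun i => φ ((Pi.single i₀ 1 : Fin n → S) i)) = Pi.single i₀ 1 := by
      funext i
      rcases eq_or_ne i i₀ with rfl | hne
      · simp
      · simp [Pi.single_eq_of_ne hne]
    rw [h1]
    simp only [repr_ofVec]
    rw [h2]
    simp [ofVec, sum_single, h'.one]
  map_zero' := Subtype.ext (by simp [ofVec])
  map_add' z w := Subtype.ext (by simp [ofVec, add_mul, Finset.sum_add_distrib])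
  map_mul' z w := Subtype.ext <| by
    simpa [ofVec] using coordMap_mul_basis h h' φ hc (z * w) (fun i => h.basis.repr z i)
      (fun i => h.basis.repr w i) (by rw [Subring.coe_mul, ← h.coe_eq_sum, ← h.coe_eq_sum])

theorem coe_map (φ : S →+* S') (hc : ∀ i j l, φ (c i j l) = c' i j l) (z : h.ring) :
    (h.map h' φ hc z : L') = ∑ i, ξ' (φ (h.basis.repr z i)) * e' i := rfl

theorem map_algebraMap (φ : S →+* S') (hc : ∀ i j l, φ (c i j l) = c' i j l) (s : S) :
    h.map h' φ hc (algebraMap S h.ring s) = algebraMap S' h'.ring (φ s) := by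
  classical
  refine Subtype.ext ?_
  have h1 : algebraMap S h.ring s = h.ofVec (Pi.single i₀ s) :=
    Subtype.ext (by simp [ofVec, sum_single, h.one])
  have h2 : (fun i => φ ((Pi.single i₀ s : Fin n → S) i)) = Pi.single i₀ (φ s) := by
    funext i
    rcases eq_or_ne i i₀ with rfl | hne
    · simp
    · simp [Pi.single_eq_of_ne hne]
  have h3 := congrArg (fun v : Fin n → S' => ∑ i, ξ' (v i) * e' i) h2
  rw [coe_map, h1]
  simp only [repr_ofVec]
  rw [h3, sum_single, h'.one, mul_one]; rfl

theorem map_basis (φ : S →+* S') (hc : ∀ i j l, φ (c i j l) = c' i j l) (i : Fin n) :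
    h.map h' φ hc (h.basis i) = h'.basis i := by
  classical
  refine Subtype.ext ?_
  rw [coe_map, coe_basis, Finset.sum_eq_single i]
  · simp
  · intro l _ hl; simp [hl.symm]
  · simp

end Map

end ChartHyp

end Fermat.Agent.S27
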