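/-
Regularity certificates for finite free algebras over a polynomial ring `k[X]`: they are
finitely many identities, hence survive any specialisation of the coefficients, and they
imply that the algebra is integrally closed.
-/
import Mathlib.FieldTheory.IsAlgClosed.Basic
import Mathlib.RingTheory.Localization.AtPrime.Basic
import Mathlib.RingTheory.Trace.Basic
import Mathlib.RingTheory.Discriminant
import Mathlib.LinearAlgebra.Matrix.Charpoly.Coeff

set_option autoImplicit false

namespace Fermat.Agent.S27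

open Polynomial
open scoped Polynomial

section Reg

variable {R R' B B' : Type*} [CommRing R] [CommRing R'] [CommRing B] [CommRing B'] {n : ℕ}

/-- `s` is a local chart near the locus `t = 0`: away from `s = 0` the points are rational and
their ideals are generated by one element `π`. -/
def RegElt (γ : R →+* B) (ω : Fin n → B) (t s : B) : Prop :=
  ∃ (π : B) (e : ℕ), (∀ j, ∃ r : R, π ∣ s * (ω j - γ r)) ∧ π ∣ s * t ∧ t ∣ s * π ^ e

/-- the charts cover the locus `t = 0` -/
def RegAt (γ : R →+* B) (ω : Fin n → B) (t : B) : Prop :=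
  (1 : B) ∈ Ideal.span (insert t {s | RegElt γ ω t s})

theorem RegElt.map {γ : R →+* B} {ω : Fin n → B} {t s : B} (hs : RegElt γ ω t s)
    (h : R →+* R') (γ' : R' →+* B') (f : B →+* B') (hc : ∀ r, f (γ r) = γ' (h r)) :
    RegElt γ' (f ∘ ω) (f t) (f s) := by
  obtain ⟨π, e, h1, h2, h3⟩ := hs
  refine ⟨f π, e, fun j => ?_, ?_, ?_⟩
  · obtain ⟨r, hr⟩ := h1 j
    refine ⟨h r, ?_⟩
    simpa [hc] using map_dvd f hr
  · simpa using map_dvd f h2
  · simpa using map_dvd f h3

theorem RegAt.map {γ : R →+* B} {ω : Fin n → B} {t : B} (hs : RegAt γ ω t)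
    (h : R →+* R') (γ' : R' →+* B') (f : B →+* B') (hc : ∀ r, f (γ r) = γ' (h r)) :
    RegAt γ' (f ∘ ω) (f t) := by
  have hh : f '' insert t {s | RegElt γ ω t s} ⊆
      insert (f t) {s | RegElt γ' (f ∘ ω) (f t) s} := by
    rintro _ ⟨s, hs', rfl⟩
    rcases Set.mem_insert_iff.1 hs' with rfl | hs''
    · exact Set.mem_insert _ _
    · exact Set.mem_insert_of_mem _ (RegElt.map hs'' h γ' f hc)
  have := Ideal.mem_map_of_mem f hs
  rw [Ideal.map_span, map_one] at this
  exact Ideal.span_mono hh this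

end Reg

section Local

theorem dvd_of_local_principal {R : Type*} [CommRing R] [IsLocalRing R] {π t y : R} {e : ℕ}
    (hm : ∀ z ∈ IsLocalRing.maximalIdeal R, π ∣ z) (he : t ∣ π ^ e) (ht : ¬ IsNilpotent t)
    (htm : t ∈ IsLocalRing.maximalIdeal R) (N : ℕ) (b : ℕ → R)
    (hy : y ^ N + ∑ j ∈ Finset.range N, b j * y ^ j * t ^ (N - j) = 0) : t ∣ y := by
  classical
  have hex : ∃ j, t ∣ π ^ j := ⟨e, he⟩
  set j₀ := Nat.find hex with hj₀
  have hj : t ∣ π ^ j₀ := Nat.find_spec hex
  have hunit : ∀ r : R, ¬ π ∣ r → IsUnit r := fun r hr =>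
    IsLocalRing.notMem_maximalIdeal.1 fun h => hr (hm r h)
  have hj0 : 0 < j₀ := by
    rcases Nat.eq_zero_or_pos j₀ with h | h
    · rw [h, pow_zero] at hj
      exact absurd (isUnit_of_dvd_one hj) htm
    · exact h
  have htj : π ^ j₀ ∣ t := by
    suffices H : ∀ i ≤ j₀, π ^ i ∣ t from H j₀ le_rfl
    intro i
    induction i with
    | zero => intro; simp
    | succ i ih =>
      intro hi
      obtain ⟨r, hr⟩ := ih (Nat.le_of_succ_le hi)
      by_cases hr' : π ∣ r
      · rw [hr, pow_succ]; exact mul_dvd_mul_left _ hr'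
      · refine absurd ?_ (Nat.find_min hex (m := i) (Nat.lt_of_succ_le hi))
        rw [hr, (hunit r hr').mul_right_dvd]
  refine dvd_trans hj ?_
  suffices H : ∀ i ≤ j₀, π ^ i ∣ y from H j₀ le_rfl
  intro i
  induction i with
  | zero => intro; simp
  | succ i ih =>
    intro hi
    obtain ⟨r, hr⟩ := ih (Nat.le_of_succ_le hi)
    by_cases hr' : π ∣ r
    · rw [hr, pow_succ]; exact mul_dvd_mul_left _ hr'
    · exfalso
      have hru : IsUnit r := hunit r hr'
      have hsum : π ^ (i * N + 1) ∣ y ^ N := by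
        have : π ^ (i * N + 1) ∣ ∑ j ∈ Finset.range N, b j * y ^ j * t ^ (N - j) := by
          refine Finset.dvd_sum fun j hjN => ?_
          have hjN' : j < N := Finset.mem_range.1 hjN
          have h1 : (π ^ i) ^ j ∣ y ^ j := pow_dvd_pow_of_dvd ⟨r, hr⟩ j
          have h2 : (π ^ j₀) ^ (N - j) ∣ t ^ (N - j) := pow_dvd_pow_of_dvd htj _
          have h3 := mul_dvd_mul h1 h2
          rw [← pow_mul, ← pow_mul, ← pow_add] at h3
          refine dvd_trans (pow_dvd_pow π ?_) ?_ (b := π ^ (i * j + j₀ * (N - j)))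
          · obtain ⟨d, rfl⟩ := Nat.exists_eq_add_of_lt hjN'
            have : j + d + 1 - j = d + 1 := by omega
            rw [this]
            nlinarith
          · exact dvd_trans h3 ⟨b j, by ring⟩
        rw [← neg_eq_iff_add_eq_zero.2 hy] at this
        exact dvd_neg.1 this
      obtain ⟨w, hw⟩ := hsum
      rw [hr, mul_pow, ← pow_mul, pow_succ] at hw
      have hzero : π ^ (i * N) * (r ^ N - π * w) = 0 := by linear_combination hw
      have hu : IsUnit (r ^ N - π * w) := by
        by_contra hu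
        by_cases hπ : IsUnit π
        · exact hr' (hπ.dvd)
        · have h1 : r ^ N - π * w ∈ IsLocalRing.maximalIdeal R := hu
          have h2 : π * w ∈ IsLocalRing.maximalIdeal R := Ideal.mul_mem_right _ _ hπ
          have h3 := Ideal.add_mem _ h1 h2
          rw [sub_add_cancel] at h3
          exact h3 (hru.pow N)
      rw [hu.mul_left_eq_zero] at hzero
      refine ht ⟨N, zero_dvd_iff.1 (hzero ▸ ?_)⟩
      calc π ^ (i * N) ∣ π ^ (j₀ * N) := pow_dvd_pow π (Nat.mul_le_mul_right _ (by omega))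
        _ = (π ^ j₀) ^ N := pow_mul π j₀ N
        _ ∣ t ^ N := pow_dvd_pow_of_dvd htj N

end Local

section Frame

/-- the equation of the fibre over `a` -/
noncomputable def pointEq {R B : Type*} [CommRing R] [CommRing B] [Algebra R[X] B] (a : R) : B :=
  algebraMap R[X] B (X - C a)

/-- the constants inside `B` -/
noncomputable def constHom {k B : Type*} [CommRing k] [CommRing B] [Algebra k[X] B] : k →+* B :=
  (algebraMap k[X] B).comp C

variable {k B L : Type*} [Field k] [CommRing B] [Algebra k[X] B] [CommRing L] {n : ℕ}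
variable (b : Module.Basis (Fin n) k[X] B)

theorem pointEq_dvd_iff (a : k) (z : B) :
    pointEq a ∣ z ↔ ∀ i, (b.repr z i).eval a = 0 := by
  constructor
  · rintro ⟨w, rfl⟩ i
    rw [pointEq, ← Algebra.smul_def, map_smul]
    simp
  · intro h
    choose q hq using fun i => dvd_iff_isRoot.2 (h i)
    refine ⟨∑ i, q i • b i, ?_⟩
    conv_lhs => rw [← b.sum_repr z]
    rw [pointEq, ← Algebra.smul_def, Finset.smul_sum]
    exact Finset.sum_congr rfl fun i _ => by rw [smul_smul, ← hq i]

theorem pointEq_dvd_sub (a : k) (p : k[X]) :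
    (pointEq a : B) ∣ algebraMap k[X] B p - constHom (p.eval a) := by
  rw [pointEq, constHom, RingHom.comp_apply, ← map_sub]
  exact map_dvd _ X_sub_C_dvd_sub_C_eval

/-- every element satisfies a monic equation over the constants modulo `X - a` -/
theorem exists_monic_pointEq_dvd (b : Module.Basis (Fin n) k[X] B) (a : k) (z : B) :
    ∃ g : k[X], g.Monic ∧ (pointEq a : B) ∣ g.eval₂ constHom z := by
  classical
  set P : k[X][X] := (Algebra.leftMulMatrix b z).charpoly with hP
  have h0 : aeval z P = 0 := by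
    apply Algebra.leftMulMatrix_injective b
    rw [map_zero, ← aeval_algHom_apply, hP, Matrix.aeval_self_charpoly]
  refine ⟨P.map (evalRingHom a), (Matrix.charpoly_monic _).map _, ?_⟩
  have h1 : (pointEq a : B) ∣ P.eval₂ (constHom.comp (evalRingHom a)) z - aeval z P := by
    rw [aeval_def, eval₂_eq_sum, eval₂_eq_sum, Polynomial.sum, Polynomial.sum,
      ← Finset.sum_sub_distrib]
    refine Finset.dvd_sum fun i _ => ?_
    rw [← sub_mul, RingHom.comp_apply, coe_evalRingHom]
    exact dvd_mul_of_dvd_left ((dvd_sub_comm).1 (pointEq_dvd_sub a _)) _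
  rw [h0, sub_zero] at h1
  rwa [eval₂_map]

theorem exists_sub_const_mem (b : Module.Basis (Fin n) k[X] B) [IsAlgClosed k] (a : k)
    {P : Ideal B} [P.IsPrime] (hP : pointEq a ∈ P) (z : B) :
    ∃ r : k, z - constHom r ∈ P := by
  obtain ⟨g, hg, hdvd⟩ := exists_monic_pointEq_dvd b a z
  have hmem : g.eval₂ constHom z ∈ P := by
    obtain ⟨w, hw⟩ := hdvd
    rw [hw]; exact Ideal.mul_mem_right _ _ hP
  rw [(IsAlgClosed.splits g).eq_prod_roots_of_monic hg, eval₂_multiset_prod,
    Multiset.map_map] at hmem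
  obtain ⟨q, hq, hq'⟩ := (‹P.IsPrime›.multiset_prod_mem_iff_exists_mem _).1 hmem
  obtain ⟨r, -, rfl⟩ := Multiset.mem_map.1 hq
  exact ⟨r, by simpa [eval₂_sub] using hq'⟩

theorem pointEq_dvd_of_pow_dvd (b : Module.Basis (Fin n) k[X] B) {a : k}
    (ha : (Algebra.traceMatrix k[X] b).det.eval a ≠ 0) {z : B} {m : ℕ}
    (h : (pointEq a : B) ∣ z ^ m) : (pointEq a : B) ∣ z := by
  classical
  have htr : ∀ w : B, (pointEq a : B) ∣ w ^ m → (Algebra.trace k[X] B w).eval a = 0 := by
    intro w hw
    have hnil : IsNilpotent ((Algebra.leftMulMatrix b w).map (evalRingHom a)) := by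
      refine ⟨m, ?_⟩
      rw [← RingHom.mapMatrix_apply, ← map_pow, ← map_pow]
      obtain ⟨c, hc⟩ := hw
      rw [hc, map_mul, map_mul, pointEq, AlgHom.commutes]
      refine mul_eq_zero_of_left ?_ _
      ext i j
      simp [Matrix.algebraMap_matrix_apply, apply_ite (fun p : k[X] => p.eval a)]
    have := (Matrix.isNilpotent_trace_of_isNilpotent hnil).eq_zero
    rw [Algebra.trace_eq_matrix_trace b]
    simpa [Matrix.trace, Polynomial.eval_finsetSum] using this
  have hv : Matrix.mulVec ((Algebra.traceMatrix k[X] b).map (evalRingHom a))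
      (fun i => (b.repr z i).eval a) = 0 := by
    funext i
    have h1 : Algebra.trace k[X] B (b i * z)
        = ∑ j, Algebra.traceMatrix k[X] b i j * b.repr z j := by
      conv_lhs => rw [← b.sum_repr z]
      rw [Finset.mul_sum, map_sum]
      refine Finset.sum_congr rfl fun j _ => ?_
      rw [mul_smul_comm, map_smul, Algebra.traceMatrix_apply, Algebra.traceForm_apply,
        smul_eq_mul, mul_comm]
    have h2 := htr (b i * z) (by rw [mul_pow]; exact dvd_mul_of_dvd_right h _)
    rw [h1, Polynomial.eval_finsetSum] at h2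
    simpa [Matrix.mulVec, dotProduct] using h2
  rw [pointEq_dvd_iff b]
  have hdet : ((Algebra.traceMatrix k[X] b).map (evalRingHom a)).det ≠ 0 := by
    rw [← RingHom.mapMatrix_apply, ← RingHom.map_det]; exact ha
  exact fun i => congrFun (Matrix.eq_zero_of_mulVec_eq_zero hdet hv) i

/-- outside the discriminant every point is regular -/
theorem regAt_of_discr_eval_ne_zero [IsAlgClosed k] {a : k}
    (ha : (Algebra.traceMatrix k[X] b).det.eval a ≠ 0) :
    RegAt (constHom (k := k) (B := B)) b (pointEq a : B) := by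
  by_contra hne
  obtain ⟨P, hPmax, hP⟩ := Ideal.exists_le_maximal _ ((Ideal.ne_top_iff_one _).2 hne)
  have htP : pointEq a ∈ P := hP (Ideal.subset_span (Set.mem_insert _ _))
  have key : ∀ j, ∃ u ∉ P, ∃ r : k, (pointEq a : B) ∣ u * (b j - constHom r) := by
    intro j
    obtain ⟨r, hr⟩ := exists_sub_const_mem b a htP (b j)
    obtain ⟨g, hg, hdvd⟩ := exists_monic_pointEq_dvd b a (b j - constHom r)
    obtain ⟨h, hgh, hh⟩ := exists_eq_pow_rootMultiplicity_mul_and_not_dvd g hg.ne_zero 0
    simp only [map_zero, sub_zero] at hgh hh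
    rw [hgh, eval₂_mul, eval₂_pow, eval₂_X] at hdvd
    set u := h.eval₂ constHom (b j - constHom r) with hu
    refine ⟨u, ?_, r, ?_⟩
    · intro huP
      obtain ⟨q, hq⟩ : X ∣ h - C (h.eval 0) := by simpa using X_sub_C_dvd_sub_C_eval (a := (0 : k)) (p := h)
      have hh0 : h.eval 0 ≠ 0 := fun h0 => hh (by rw [h0, map_zero, sub_zero] at hq; exact ⟨q, hq⟩)
      have hdecomp : h = C (h.eval 0) + X * q := by rw [← hq]; ring
      rw [hu, hdecomp, eval₂_add, eval₂_C, eval₂_mul, eval₂_X] at huP
      have hc : constHom (h.eval 0) ∈ P :=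
        (Ideal.add_mem_iff_left _ (Ideal.mul_mem_right _ _ hr)).1 huP
      exact hPmax.ne_top (Ideal.eq_top_of_isUnit_mem _ hc ((IsUnit.mk0 _ hh0).map constHom))
    · refine pointEq_dvd_of_pow_dvd b ha (m := g.rootMultiplicity 0 + 1) ?_
      refine dvd_trans hdvd ⟨u ^ g.rootMultiplicity 0 * (b j - constHom r), ?_⟩
      rw [mul_pow, pow_succ, pow_succ]; ring
  choose u hu r hr using key
  have hs : RegElt (constHom (k := k) (B := B)) b (pointEq a : B) (∏ j, u j) := by
    refine ⟨pointEq a, 1, fun j => ⟨r j, ?_⟩, dvd_mul_left _ _, ?_⟩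
    · exact (hr j).trans (mul_dvd_mul_right (Finset.dvd_prod_of_mem _ (Finset.mem_univ j)) _)
    · rw [pow_one]; exact dvd_mul_left _ _
  have hprod := hP (Ideal.subset_span (Set.mem_insert_of_mem _ hs))
  obtain ⟨j, -, hj⟩ := (Ideal.IsPrime.prod_mem_iff (p := P)).1 hprod
  exact hu j hj

variable (f : B →+* L)

/-- a regular fibre: an integral quotient by `X - a` is in the algebra -/
theorem pointEq_dvd_of_isIntegralElem [IsAlgClosed k] (hf : Function.Injective f) {a : k}
    (hreg : RegAt (constHom (k := k) (B := B)) b (pointEq a : B)) {y : B} {w : L}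
    (hw : (f.comp (algebraMap k[X] B)).IsIntegralElem w) (hyw : f (pointEq a) * w = f y) :
    (pointEq a : B) ∣ y := by
  classical
  obtain ⟨Q, hQ, hQw⟩ := hw
  set t : B := pointEq a with ht
  have hrel : y ^ Q.natDegree + ∑ j ∈ Finset.range Q.natDegree,
      algebraMap k[X] B (Q.coeff j) * y ^ j * t ^ (Q.natDegree - j) = 0 := by
    apply hf
    have hexp := hQw
    rw [eval₂_eq_sum_range, Finset.sum_range_succ, hQ.coeff_natDegree, map_one, one_mul] at hexp
    rw [map_zero, map_add, map_pow, ← hyw, map_sum]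
    calc (f t * w) ^ Q.natDegree + ∑ j ∈ Finset.range Q.natDegree,
          f (algebraMap k[X] B (Q.coeff j) * y ^ j * t ^ (Q.natDegree - j))
        = f t ^ Q.natDegree * (∑ j ∈ Finset.range Q.natDegree,
            f.comp (algebraMap k[X] B) (Q.coeff j) * w ^ j + w ^ Q.natDegree) := by
          rw [mul_pow, mul_add, Finset.mul_sum, add_comm]
          congr 1
          refine Finset.sum_congr rfl fun j hj => ?_
          rw [map_mul, map_mul, map_pow, map_pow, ← hyw, mul_pow, RingHom.comp_apply]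
          have : f t ^ Q.natDegree = f t ^ j * f t ^ (Q.natDegree - j) := by
            rw [← pow_add, Nat.add_sub_cancel' (Finset.mem_range.1 hj).le]
          rw [this]; ring
      _ = 0 := by rw [hexp, mul_zero]
  let J : Ideal B :=
    { carrier := {s | t ∣ s * y}
      add_mem' := fun {u v} hu hv => by
        simp only [Set.mem_ofPred_eq, add_mul] at *; exact dvd_add hu hv
      zero_mem' := by simp
      smul_mem' := fun c u hu => by
        simp only [Set.mem_ofPred_eq, smul_eq_mul, mul_assoc] at *; exact dvd_mul_of_dvd_right hu c }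
  have hJ : ∀ u, u ∈ J ↔ t ∣ u * y := fun u => Iff.rfl
  suffices h1 : (1 : B) ∈ J by simpa [hJ] using h1
  by_contra hne
  obtain ⟨P, hPmax, hP⟩ := Ideal.exists_le_maximal J ((Ideal.ne_top_iff_one _).2 hne)
  have htP : t ∈ P := hP ((hJ t).2 (dvd_mul_right t y))
  obtain ⟨s, hs, hsP⟩ : ∃ s, RegElt (constHom (k := k) (B := B)) b t s ∧ s ∉ P := by
    by_contra hall
    push Not at hall
    refine hPmax.ne_top ((Ideal.eq_top_iff_one _).2 (Ideal.span_le.2 ?_ hreg))
    rintro s (rfl | hs)
    · exact htP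
    · exact hall s hs
  obtain ⟨π, e, hloc, hlocX, hpow⟩ := hs
  have hmem_of_dvd : ∀ {u v : B}, u ∣ v → u ∈ P → v ∈ P := by
    rintro u _ ⟨c, rfl⟩ hu; exact Ideal.mul_mem_right _ _ hu
  have hπP : π ∈ P :=
    Ideal.IsPrime.mem_of_pow_mem inferInstance e
      (((inferInstance : P.IsPrime).mem_or_mem (hmem_of_dvd hpow htP)).resolve_left hsP)
  choose r hr using hloc
  have hzs : ∀ z ∈ P, π ∣ s * z := by
    intro z hz
    have h1 : π ∣ s * (z - constHom (∑ i, (b.repr z i).eval a * r i)) := by
      conv_rhs => arg 2; arg 1; rw [← b.sum_repr z]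
      rw [map_sum, ← Finset.sum_sub_distrib, Finset.mul_sum]
      refine Finset.dvd_sum fun i _ => ?_
      obtain ⟨c, hc⟩ := pointEq_dvd_sub (B := B) a (b.repr z i)
      have hsplit : s * (b.repr z i • b i - constHom ((b.repr z i).eval a * r i))
          = s * t * (c * b i) + constHom ((b.repr z i).eval a) * (s * (b i - constHom (r i))) := by
        rw [Algebra.smul_def, map_mul, sub_eq_iff_eq_add.1 hc, ht]; ring
      rw [hsplit]
      exact dvd_add (dvd_mul_of_dvd_left hlocX _) (dvd_mul_of_dvd_right (hr i) _)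
    by_cases hc0 : ∑ i, (b.repr z i).eval a * r i = 0
    · rwa [hc0, map_zero, sub_zero] at h1
    · exfalso
      have h2 : constHom (∑ i, (b.repr z i).eval a * r i) ∈ P := by
        have h3 := ((inferInstance : P.IsPrime).mem_or_mem (hmem_of_dvd h1 hπP)).resolve_left hsP
        simpa using Ideal.sub_mem _ hz h3
      exact hPmax.ne_top (Ideal.eq_top_of_isUnit_mem _ h2 ((IsUnit.mk0 _ hc0).map constHom))
  -- pass to the local ring at `P`
  let Q' := Localization.AtPrime P
  let g : B →+* Q' := algebraMap B Q'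
  have hsu : IsUnit (g s) := IsLocalization.map_units Q' (⟨s, hsP⟩ : P.primeCompl)
  have hm : ∀ z ∈ IsLocalRing.maximalIdeal Q', g π ∣ z := by
    intro z hz
    obtain ⟨z₀, u, rfl⟩ := IsLocalization.exists_mk'_eq P.primeCompl z
    have hz₀ : z₀ ∈ P := (IsLocalization.AtPrime.mk'_mem_maximal_iff Q' P z₀ u).1 hz
    refine dvd_trans ?_ ((IsLocalization.mk'_spec Q' z₀ u) ▸ dvd_refl (g z₀) :
      g z₀ ∣ IsLocalization.mk' Q' z₀ u * algebraMap B Q' (u : B)) |>.trans ?_
    · have := map_dvd g (hzs z₀ hz₀)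
      rw [map_mul, hsu.dvd_mul_left] at this
      exact this
    · rw [(IsLocalization.map_units Q' u).mul_right_dvd]
  have hte : g t ∣ g π ^ e := by
    have := map_dvd g hpow
    rwa [map_mul, map_pow, hsu.dvd_mul_left] at this
  have htm : g t ∈ IsLocalRing.maximalIdeal Q' :=
    (IsLocalization.AtPrime.to_map_mem_maximal_iff Q' P t).2 htP
  have htn : ¬ IsNilpotent (g t) := by
    rintro ⟨m, hm0⟩
    rw [← map_pow, IsLocalization.map_eq_zero_iff P.primeCompl] at hm0
    obtain ⟨⟨v, hv⟩, hv0⟩ := hm0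
    apply hv
    suffices v = 0 by rw [this]; exact P.zero_mem
    have hz : ((X - C a) ^ m) • v = 0 := by
      rw [Algebra.smul_def, map_pow, mul_comm]; exact hv0
    have hfree : Module.Free k[X] B := Module.Free.of_basis b
    exact (smul_eq_zero.1 hz).resolve_left (pow_ne_zero _ (X_sub_C_ne_zero a))
  have hy : g t ∣ g y := by
    refine dvd_of_local_principal hm hte htn htm Q.natDegree
      (fun j => g (algebraMap k[X] B (Q.coeff j))) ?_
    simpa [map_sum] using congrArg g hrel
  obtain ⟨c, hc⟩ := hy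
  obtain ⟨c₀, u, rfl⟩ := IsLocalization.exists_mk'_eq P.primeCompl c
  rw [IsLocalization.mul_mk'_eq_mk'_of_mul, ← IsLocalization.mk'_one (M := P.primeCompl) Q' y,
    IsLocalization.mk'_eq_iff_eq', IsLocalization.eq_iff_exists P.primeCompl] at hc
  obtain ⟨⟨v, hv⟩, hvc⟩ := hc
  have : (v * u : B) ∈ J := by
    rw [hJ]
    refine ⟨v * c₀, ?_⟩
    simp only [OneMemClass.coe_one, mul_one] at hvc
    linear_combination hvc
  exact ((inferInstance : P.IsPrime).mem_or_mem (hP this)).elim hv u.2

/-- an integral element whose denominator only has regular roots is in the algebra -/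
theorem mem_range_of_isIntegralElem [IsAlgClosed k] (hf : Function.Injective f)
    (hu : ∀ p : k[X], p ≠ 0 → IsUnit (f (algebraMap k[X] B p))) {p : k[X]} (hp : p ≠ 0)
    (hreg : ∀ a, p.IsRoot a → RegAt (constHom (k := k) (B := B)) b (pointEq a : B)) {w : L}
    (hw : (f.comp (algebraMap k[X] B)).IsIntegralElem w)
    (hmem : f (algebraMap k[X] B p) * w ∈ f.range) : w ∈ f.range := by
  induction hd : p.natDegree generalizing p with
  | zero =>
    obtain ⟨y, hy⟩ := hmem
    rw [eq_C_of_natDegree_eq_zero hd] at hp hy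
    refine ⟨algebraMap k[X] B (C (p.coeff 0)⁻¹) * y, ?_⟩
    rw [map_mul, hy, ← mul_assoc, ← map_mul, ← map_mul, ← map_mul,
      inv_mul_cancel₀ (fun h => hp (by rw [h, map_zero])), map_one, map_one, map_one, one_mul]
  | succ d ih =>
    obtain ⟨a, ha⟩ := IsAlgClosed.exists_root p (by
      rw [degree_eq_natDegree hp, hd]; exact_mod_cast Nat.succ_ne_zero d)
    obtain ⟨q, hq⟩ := dvd_iff_isRoot.2 ha
    have hq0 : q ≠ 0 := fun h => hp (by rw [hq, h, mul_zero])
    obtain ⟨y, hy⟩ := hmem
    have hyw : f (pointEq a) * (f (algebraMap k[X] B q) * w) = f y := by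
      rw [hy, hq, map_mul, map_mul, mul_assoc]; rfl
    have hint : (f.comp (algebraMap k[X] B)).IsIntegralElem (f (algebraMap k[X] B q) * w) :=
      (f.comp (algebraMap k[X] B)).isIntegralElem_map.mul _ hw
    obtain ⟨c, hc⟩ := pointEq_dvd_of_isIntegralElem b f hf (hreg a ha) hint hyw
    refine ih hq0 (fun a' ha' => hreg a' (ha'.dvd ⟨_, hq.trans (mul_comm _ _)⟩)) ⟨c, ?_⟩ ?_
    · rw [hc, map_mul] at hyw
      exact ((hu _ (X_sub_C_ne_zero a)).mul_left_cancel hyw).symm
    · have := natDegree_mul (X_sub_C_ne_zero a) hq0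
      rw [← hq, hd, natDegree_X_sub_C] at this
      omega

theorem isReduced_of_discr_ne_zero (hf : Function.Injective f)
    (hu : ∀ p : k[X], p ≠ 0 → IsUnit (f (algebraMap k[X] B p)))
    (hgen : ∀ z : L, ∃ p : k[X], p ≠ 0 ∧ f (algebraMap k[X] B p) * z ∈ f.range)
    (hD : (Algebra.traceMatrix k[X] b).det ≠ 0) : IsReduced L := by
  classical
  constructor
  rintro z ⟨m, hm⟩
  obtain ⟨p, hp, y, hy⟩ := hgen z
  have hy0 : y ^ m = 0 := hf (by rw [map_pow, hy, mul_pow, hm, mul_zero, map_zero])
  have hv : Matrix.mulVec (Algebra.traceMatrix k[X] b) (fun i => b.repr y i) = 0 := by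
    funext i
    have h1 : Algebra.trace k[X] B (b i * y)
        = ∑ j, Algebra.traceMatrix k[X] b i j * b.repr y j := by
      conv_lhs => rw [← b.sum_repr y]
      rw [Finset.mul_sum, map_sum]
      refine Finset.sum_congr rfl fun j _ => ?_
      rw [mul_smul_comm, map_smul, Algebra.traceMatrix_apply, Algebra.traceForm_apply,
        smul_eq_mul, mul_comm]
    have h2 : Algebra.trace k[X] B (b i * y) = 0 :=
      (Algebra.isNilpotent_trace_of_isNilpotent ⟨m, by rw [mul_pow, hy0, mul_zero]⟩).eq_zero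
    rw [h1] at h2
    simpa [Matrix.mulVec, dotProduct] using h2
  have hy' : y = 0 := by
    rw [← b.sum_repr y]
    refine Finset.sum_eq_zero fun i _ => ?_
    rw [show b.repr y i = 0 from congrFun (Matrix.eq_zero_of_mulVec_eq_zero hD hv) i, zero_smul]
  rw [hy', map_zero] at hy
  exact (hu p hp).mul_right_eq_zero.1 hy.symm

theorem isField_of_idempotents [Nontrivial L]
    (hu : ∀ p : k[X], p ≠ 0 → IsUnit (f (algebraMap k[X] B p)))
    (hgen : ∀ z : L, ∃ p : k[X], p ≠ 0 ∧ f (algebraMap k[X] B p) * z ∈ f.range)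
    (hred : IsReduced L) (hidem : ∀ e : L, e * e = e → e = 0 ∨ e = 1)
    (b : Module.Basis (Fin n) k[X] B) : IsField L := by
  classical
  refine ⟨exists_pair_ne L, mul_comm, fun {z} hz => ?_⟩
  obtain ⟨p, hp, y, hy⟩ := hgen z
  set P : k[X][X] := (Algebra.leftMulMatrix b y).charpoly with hP
  have h0 : aeval y P = 0 := by
    apply Algebra.leftMulMatrix_injective b
    rw [map_zero, ← aeval_algHom_apply, hP, Matrix.aeval_self_charpoly]
  obtain ⟨g, hPg, hg⟩ := exists_eq_pow_rootMultiplicity_mul_and_not_dvd P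
    (Matrix.charpoly_monic _).ne_zero 0
  simp only [map_zero, sub_zero] at hPg hg
  rw [hPg, map_mul, map_pow, aeval_X] at h0
  have h1 : f y * f (aeval y g) = 0 := by
    refine IsReduced.eq_zero _ ⟨P.rootMultiplicity 0 + 1, ?_⟩
    rw [← map_mul, ← map_pow]
    have : (y * aeval y g) ^ (P.rootMultiplicity 0 + 1)
        = (y ^ P.rootMultiplicity 0 * aeval y g) * (y * aeval y g ^ P.rootMultiplicity 0) := by
      ring
    rw [this, h0, zero_mul, map_zero]
  obtain ⟨h, hh⟩ : X ∣ g - C (g.eval 0) := by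
    simpa using X_sub_C_dvd_sub_C_eval (a := (0 : k[X])) (p := g)
  have hg0 : g.eval 0 ≠ 0 := fun h0' => hg (by rw [h0', map_zero, sub_zero] at hh; exact ⟨h, hh⟩)
  have hgdec : g = C (g.eval 0) + X * h := by rw [← hh]; ring
  obtain ⟨v, hv⟩ := hu _ hg0
  rw [hgdec, map_add, map_mul, aeval_C, aeval_X, map_add, map_mul, ← hv] at h1
  set e : L := -(↑v⁻¹ * (f y * f (aeval y h))) with he
  have hye : f y * e = f y := by
    rw [he]
    linear_combination (-(↑v⁻¹ : L)) * h1 + f y * (v.inv_mul)
  have hee : e * e = e := by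
    calc e * e = -(↑v⁻¹ * ((f y * e) * f (aeval y h))) := by
          conv_lhs => arg 2; rw [he]
          ring
      _ = e := by rw [hye]
  rcases hidem e hee with h' | h'
  · exfalso
    rw [h', mul_zero] at hye
    rw [hy] at hye
    exact hz ((hu p hp).mul_right_eq_zero.1 hye.symm)
  · refine ⟨-(↑v⁻¹ * (f (algebraMap k[X] B p) * f (aeval y h))), ?_⟩
    rw [← h', he, hy]; ring

end Frame

end Fermat.Agent.S27
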