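/-
Two charts with a common basis up to powers of the parameter ("normal basis"): the whole
function field is encoded by finitely many coefficients.
-/
import Fermat.Agent.S27.Regular
import Fermat.Agent.S27.Chart
import Mathlib.Algebra.Polynomial.Reverse

set_option autoImplicit false

namespace Fermat.Agent.S27

open Polynomial
open scoped Polynomial

/-- structure constants of a normal basis in both charts -/
structure SpreadData (R : Type*) [CommRing R] (n : ℕ) where
  d : Fin n → ℕ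
  i₀ : Fin n
  d_zero : d i₀ = 0
  d_pos : ∀ i, i ≠ i₀ → 0 < d i
  c : Fin n → Fin n → Fin n → R[X]
  c' : Fin n → Fin n → Fin n → R[X]
  natDegree_le : ∀ i j l, (c' i j l).natDegree ≤ d i + d j
  reflect_eq : ∀ i j l, X ^ d l * c i j l = (c' i j l).reflect (d i + d j)

namespace SpreadData

variable {R R' : Type*} [CommRing R] [CommRing R'] {n : ℕ}

/-- specialisation of the coefficients -/
noncomputable def map (D : SpreadData R n) (h : R →+* R') : SpreadData R' n where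
  d := D.d
  i₀ := D.i₀
  d_zero := D.d_zero
  d_pos := D.d_pos
  c i j l := (D.c i j l).map h
  c' i j l := (D.c' i j l).map h
  natDegree_le i j l := natDegree_map_le.trans (D.natDegree_le i j l)
  reflect_eq i j l := by
    have := congrArg (Polynomial.map h) (D.reflect_eq i j l)
    rw [Polynomial.map_mul, Polynomial.map_pow, Polynomial.map_X] at this
    rw [this, reflect_map]

/-- the discriminant of the affine chart -/
noncomputable def disc (D : SpreadData R n) : R[X] :=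
  (Matrix.of fun i j => ∑ l, D.c i j l * ∑ m, D.c l m m).det

theorem disc_map (D : SpreadData R n) (h : R →+* R') : (D.map h).disc = D.disc.map h := by
  simp only [disc]
  rw [← coe_mapRingHom h, RingHom.map_det]
  congr 1
  refine Matrix.ext fun i j => ?_
  simp [map, Polynomial.map_sum]

end SpreadData

/-- evaluation at `x` turns reversal into evaluation at `xi` -/
theorem eval₂_reflect_mul {R L : Type*} [CommRing R] [CommRing L] (ι : R →+* L) {x xi : L}
    (hx : x * xi = 1) (N : ℕ) (p : R[X]) (hp : p.natDegree ≤ N) :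
    eval₂ ι x (p.reflect N) = x ^ N * eval₂ ι xi p := by
  let : Invertible xi := ⟨x, hx, by rw [mul_comm]; exact hx⟩
  have h := eval₂_reflect_mul_pow ι xi N p hp
  have hinv : (⅟xi : L) = x := rfl
  rw [hinv] at h
  rw [← h, mul_left_comm, ← mul_pow, hx, one_pow, mul_one]

/-- a ring containing a parameter with its inverse and a normal basis with given constants -/
structure Realization {R : Type*} [CommRing R] {n : ℕ} (D : SpreadData R n) (L : Type*)
    [CommRing L] where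
  ι : R →+* L
  x : L
  xi : L
  x_mul_xi : x * xi = 1
  ω : Fin n → L
  chart₀ : ChartHyp (eval₂RingHom ι x) ω D.c D.i₀

namespace Realization

variable {R : Type*} [CommRing R] {n : ℕ} {D : SpreadData R n} {L : Type*} [CommRing L]
variable (ρ : Realization D L)

/-- the basis at infinity -/
def e (i : Fin n) : L := ρ.xi ^ D.d i * ρ.ω i

/-- the coefficient map at infinity -/
noncomputable def ξ₁ : R[X] →+* L := eval₂RingHom ρ.ι ρ.xi

/-- the coefficient map on the affine chart -/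
noncomputable def ξ₀ : R[X] →+* L := eval₂RingHom ρ.ι ρ.x

theorem xi_pow_mul_x_pow (m : ℕ) : ρ.xi ^ m * ρ.x ^ m = 1 := by
  rw [← mul_pow, mul_comm, ρ.x_mul_xi, one_pow]

theorem ξ₀_reflect (N : ℕ) (p : R[X]) (hp : p.natDegree ≤ N) :
    ρ.ξ₀ (p.reflect N) = ρ.x ^ N * ρ.ξ₁ p :=
  eval₂_reflect_mul ρ.ι ρ.x_mul_xi N p hp

theorem ξ₁_reflect (N : ℕ) (p : R[X]) (hp : p.natDegree ≤ N) :
    ρ.ξ₁ (p.reflect N) = ρ.xi ^ N * ρ.ξ₀ p :=
  eval₂_reflect_mul ρ.ι (by rw [mul_comm]; exact ρ.x_mul_xi) N p hp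

theorem ξ₀_X_pow (m : ℕ) : ρ.ξ₀ (X ^ m) = ρ.x ^ m := by simp [ξ₀]

theorem ξ₁_X_pow (m : ℕ) : ρ.ξ₁ (X ^ m) = ρ.xi ^ m := by simp [ξ₁]

/-- a combination at infinity, after multiplication by a power of `x`, is affine -/
theorem pow_mul_sum_infty (w : Fin n → R[X]) {M : ℕ} (hM : ∀ i, (w i).natDegree + D.d i ≤ M) :
    ρ.x ^ M * ∑ i, ρ.ξ₁ (w i) * ρ.e i
      = ∑ i, ρ.ξ₀ ((w i).reflect (M - D.d i)) * ρ.ω i := by
  rw [Finset.mul_sum]
  refine Finset.sum_congr rfl fun i _ => ?_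
  rw [ρ.ξ₀_reflect _ _ (by have := hM i; omega), e]
  obtain ⟨r, hr⟩ := Nat.exists_eq_add_of_le' (show D.d i ≤ M by have := hM i; omega)
  rw [hr, Nat.add_sub_cancel, pow_add]
  calc ρ.x ^ r * ρ.x ^ D.d i * (ρ.ξ₁ (w i) * (ρ.xi ^ D.d i * ρ.ω i))
      = ρ.x ^ r * ρ.ξ₁ (w i) * (ρ.xi ^ D.d i * ρ.x ^ D.d i) * ρ.ω i := by ring
    _ = ρ.x ^ r * ρ.ξ₁ (w i) * ρ.ω i := by rw [xi_pow_mul_x_pow, mul_one]

theorem chart₁ : ChartHyp ρ.ξ₁ ρ.e D.c' D.i₀ where
  indep v hv := by
    classical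
    obtain ⟨M, hM⟩ : ∃ M, ∀ i, (v i).natDegree + D.d i ≤ M :=
      ⟨∑ i, ((v i).natDegree + D.d i),
        fun i => Finset.single_le_sum (f := fun i => (v i).natDegree + D.d i) (fun j _ => Nat.zero_le _) (Finset.mem_univ i)⟩
    have h := ρ.pow_mul_sum_infty v hM
    rw [hv, mul_zero] at h
    funext i
    have h0 := congrFun (ρ.chart₀.indep _ h.symm) i
    exact reflect_eq_zero_iff.1 h0
  one := by rw [e, D.d_zero, pow_zero, one_mul, ρ.chart₀.one]
  mul i j := by
    rw [e, e, mul_mul_mul_comm, ← pow_add, ρ.chart₀.mul, Finset.mul_sum]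
    refine Finset.sum_congr rfl fun l _ => ?_
    have h := congrArg ρ.ξ₀ (D.reflect_eq i j l)
    rw [map_mul, ξ₀_X_pow, ρ.ξ₀_reflect _ _ (D.natDegree_le i j l)] at h
    have h' : ρ.xi ^ (D.d i + D.d j) * ρ.ξ₀ (D.c i j l)
        = ρ.xi ^ D.d l * ρ.ξ₁ (D.c' i j l) := by
      calc ρ.xi ^ (D.d i + D.d j) * ρ.ξ₀ (D.c i j l)
          = ρ.xi ^ (D.d i + D.d j) * ρ.xi ^ D.d l * (ρ.x ^ D.d l * ρ.ξ₀ (D.c i j l)) := by
            rw [mul_assoc, ← mul_assoc (ρ.xi ^ D.d l), xi_pow_mul_x_pow, one_mul]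
        _ = ρ.xi ^ D.d l * (ρ.xi ^ (D.d i + D.d j) * ρ.x ^ (D.d i + D.d j))
              * ρ.ξ₁ (D.c' i j l) := by rw [h]; ring
        _ = _ := by rw [xi_pow_mul_x_pow, mul_one]
    rw [e]
    calc ρ.xi ^ (D.d i + D.d j) * (eval₂RingHom ρ.ι ρ.x (D.c i j l) * ρ.ω l)
        = ρ.xi ^ (D.d i + D.d j) * ρ.ξ₀ (D.c i j l) * ρ.ω l := by rw [ξ₀]; ring
      _ = ρ.ξ₁ (D.c' i j l) * (ρ.xi ^ D.d l * ρ.ω l) := by rw [h']; ring

/-- the affine chart -/
noncomputable abbrev B₀ : Subring L := ρ.chart₀.ring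

/-- the chart at infinity -/
noncomputable abbrev B₁ : Subring L := ρ.chart₁.ring

/-- the regularity certificates -/
structure Regular : Prop where
  disc : ∃ (u : Rˣ) (roots : Multiset R),
    D.disc = C (u : R) * (roots.map fun a => X - C a).prod ∧
      ∀ a ∈ roots, RegAt (constHom (k := R) (B := ρ.B₀)) ρ.chart₀.basis (pointEq a : ρ.B₀)
  infty : RegAt (constHom (k := R) (B := ρ.B₁)) ρ.chart₁.basis (pointEq (0 : R) : ρ.B₁)

theorem Regular.map {R' L' : Type*} [CommRing R'] [CommRing L'] {h : R →+* R'}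
    {ρ' : Realization (D.map h) L'} (H : ρ.Regular) : ρ'.Regular := by
  have hc₀ : ∀ i j l, mapRingHom h (D.c i j l) = (D.map h).c i j l := fun i j l => rfl
  have hc₁ : ∀ i j l, mapRingHom h (D.c' i j l) = (D.map h).c' i j l := fun i j l => rfl
  refine ⟨?_, ?_⟩
  · obtain ⟨u, roots, hD, hreg⟩ := H.disc
    refine ⟨Units.map (h : R →* R') u, roots.map h, ?_, fun a' ha' => ?_⟩
    · rw [SpreadData.disc_map, hD, Polynomial.map_mul, map_C, Polynomial.map_multiset_prod]
      simp [Multiset.map_map]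
    · obtain ⟨a, ha, rfl⟩ := Multiset.mem_map.1 ha'
      have := (hreg a ha).map h (constHom (k := R') (B := ρ'.B₀))
        (ρ.chart₀.map ρ'.chart₀ (mapRingHom h) hc₀)
        (fun r => (ρ.chart₀.map_algebraMap ρ'.chart₀ (mapRingHom h) hc₀ (C r)).trans
          (by simp [constHom]; rfl))
      convert this using 1
      · exact funext fun i => (ρ.chart₀.map_basis ρ'.chart₀ (mapRingHom h) hc₀ i).symm
      · exact ((ρ.chart₀.map_algebraMap ρ'.chart₀ (mapRingHom h) hc₀ (X - C a)).trans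
          (by simp [pointEq]; rfl)).symm
  · have := H.infty.map h (constHom (k := R') (B := ρ'.B₁))
      (ρ.chart₁.map ρ'.chart₁ (mapRingHom h) hc₁)
      (fun r => (ρ.chart₁.map_algebraMap ρ'.chart₁ (mapRingHom h) hc₁ (C r)).trans
        (by simp [constHom]; rfl))
    convert this using 1
    · exact funext fun i => (ρ.chart₁.map_basis ρ'.chart₁ (mapRingHom h) hc₁ i).symm
    · exact ((ρ.chart₁.map_algebraMap ρ'.chart₁ (mapRingHom h) hc₁ (X - C 0)).trans
        (by simp [pointEq]; rfl)).symm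

end Realization

section Field

variable {k : Type*} [Field k] [IsAlgClosed k] {n : ℕ} {D : SpreadData k n} {L : Type*}
  [CommRing L]

/-- a realization exhausting the whole ring -/
structure Realization.Generates (ρ : Realization D L) : Prop where
  unit : ∀ p : k[X], p ≠ 0 → IsUnit (ρ.ξ₀ p)
  gen : ∀ z : L, ∃ p : k[X], p ≠ 0 ∧ ρ.ξ₀ p * z ∈ ρ.B₀

namespace Realization

variable {ρ : Realization D L}

omit [IsAlgClosed k] in
theorem Regular.disc_ne_zero (H : ρ.Regular) : D.disc ≠ 0 := by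
  obtain ⟨u, roots, hD, -⟩ := H.disc
  rw [hD]
  exact mul_ne_zero (by simp) (monic_multiset_prod_of_monic _ _ fun a _ => monic_X_sub_C a).ne_zero

theorem Regular.regAt (H : ρ.Regular) (a : k) :
    RegAt (constHom (k := k) (B := ρ.B₀)) ρ.chart₀.basis (pointEq a : ρ.B₀) := by
  by_cases ha : D.disc.eval a = 0
  · obtain ⟨u, roots, hD, hreg⟩ := H.disc
    refine hreg a ?_
    rw [hD, eval_mul, eval_C, mul_eq_zero, or_iff_right u.ne_zero, eval_multiset_prod,
      Multiset.map_map, Multiset.prod_eq_zero_iff, Multiset.mem_map] at ha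
    obtain ⟨b, hb, hb'⟩ := ha
    simp only [Function.comp_apply, eval_sub, eval_X, eval_C, sub_eq_zero] at hb'
    rwa [hb']
  · exact regAt_of_discr_eval_ne_zero ρ.chart₀.basis (by
      rw [ChartHyp.traceMatrix_basis]; exact ha)

/-- the affine chart is the integral closure of `k[x]` -/
theorem mem_B₀_of_isIntegralElem (H : ρ.Regular) (hG : ρ.Generates) {z : L}
    (hz : ρ.ξ₀.IsIntegralElem z) : z ∈ ρ.B₀ := by
  obtain ⟨p, hp, hmem⟩ := hG.gen z
  obtain ⟨w, hw⟩ := mem_range_of_isIntegralElem (L := L) ρ.chart₀.basis ρ.B₀.subtype Subtype.val_injective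
    (fun q hq => hG.unit q hq) hp (fun a _ => H.regAt a) (w := z) hz ⟨⟨_, hmem⟩, rfl⟩
  exact hw ▸ w.2

omit [IsAlgClosed k] in
theorem Generates.unit₁ (hG : ρ.Generates) (p : k[X]) (hp : p ≠ 0) : IsUnit (ρ.ξ₁ p) := by
  have h := ρ.ξ₀_reflect p.natDegree p le_rfl
  have h0 : p.reflect p.natDegree ≠ 0 := fun h => hp (reflect_eq_zero_iff.1 h)
  exact isUnit_of_mul_isUnit_right (h ▸ hG.unit _ h0)

/-- the chart at infinity is the integral closure of `k[1/x]` -/
theorem mem_B₁_of_isIntegralElem (H : ρ.Regular) (hG : ρ.Generates) {z : L}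
    (hz : ρ.ξ₁.IsIntegralElem z) : z ∈ ρ.B₁ := by
  classical
  obtain ⟨Q, hQ, hQz⟩ := hz
  obtain ⟨s, hs⟩ : ∃ s, ∀ j, (Q.coeff j).natDegree ≤ s :=
    ⟨∑ j ∈ Q.support, (Q.coeff j).natDegree, fun j => by
      by_cases hj : j ∈ Q.support
      · exact Finset.single_le_sum (f := fun j => (Q.coeff j).natDegree)
          (fun i _ => Nat.zero_le _) hj
      · simp [notMem_support_iff.1 hj]⟩
  set w := ρ.x ^ s * z with hw
  set N := Q.natDegree with hN
  have hwint : ρ.ξ₀.IsIntegralElem w := by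
    set P : k[X][X] := X ^ N
      + ∑ j ∈ Finset.range N, C ((Q.coeff j).reflect (s * (N - j))) * X ^ j with hP
    refine ⟨P, monic_X_pow_add ?_, ?_⟩
    · refine (degree_sum_le _ _).trans_lt ((Finset.sup_lt_iff (by exact_mod_cast WithBot.bot_lt_coe N)).2 fun j hj => ?_)
      exact (degree_C_mul_X_pow_le _ _).trans_lt (by exact_mod_cast Finset.mem_range.1 hj)
    · rw [eval₂_eq_sum_range, Finset.sum_range_succ, hQ.coeff_natDegree, map_one, one_mul] at hQz
      rw [hP, eval₂_add, eval₂_X_pow, eval₂_finsetSum]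
      calc w ^ N + ∑ j ∈ Finset.range N,
            eval₂ ρ.ξ₀ w (C ((Q.coeff j).reflect (s * (N - j))) * X ^ j)
          = (ρ.x ^ s) ^ N * (∑ j ∈ Finset.range N, ρ.ξ₁ (Q.coeff j) * z ^ j + z ^ N) := by
            rw [mul_add, Finset.mul_sum, hw, mul_pow, add_comm]
            congr 1
            refine Finset.sum_congr rfl fun j hj => ?_
            have hjN := Finset.mem_range.1 hj
            rw [eval₂_mul, eval₂_C, eval₂_X_pow, ρ.ξ₀_reflect _ _ ((hs j).trans
              (Nat.le_mul_of_pos_right _ (by omega)))]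
            have : (ρ.x ^ s) ^ N = ρ.x ^ (s * (N - j)) * (ρ.x ^ s) ^ j := by
              rw [← pow_mul, ← pow_mul, ← pow_add, ← Nat.mul_add]
              congr 2; omega
            rw [this]; ring
        _ = 0 := by rw [hQz, mul_zero]
  obtain ⟨v, hv⟩ := ρ.chart₀.mem_ring.1 (mem_B₀_of_isIntegralElem H hG hwint)
  obtain ⟨M, hM⟩ : ∃ M, ∀ i, (v i).natDegree + D.d i ≤ M :=
    ⟨∑ i, ((v i).natDegree + D.d i),
      fun i => Finset.single_le_sum (f := fun i => (v i).natDegree + D.d i)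
        (fun j _ => Nat.zero_le _) (Finset.mem_univ i)⟩
  have hmem : ρ.ξ₁ (X ^ M) * z ∈ ρ.B₁ := by
    rw [show ρ.ξ₁ (X ^ M) * z
        = ρ.ξ₁ (X ^ s) * ∑ i, ρ.ξ₁ ((v i).reflect (M - D.d i)) * ρ.e i from ?_]
    · exact mul_mem (ρ.chart₁.mem_base _) (ρ.chart₁.mem_ring.2 ⟨_, rfl⟩)
    have hz' : z = ρ.xi ^ s * w := by
      rw [hw, ← mul_assoc, xi_pow_mul_x_pow, one_mul]
    rw [ξ₁_X_pow, ξ₁_X_pow, hz', ← hv, Finset.mul_sum, Finset.mul_sum, Finset.mul_sum]
    refine Finset.sum_congr rfl fun i _ => ?_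
    rw [ρ.ξ₁_reflect _ _ (by have := hM i; omega), e]
    obtain ⟨r, hr⟩ := Nat.exists_eq_add_of_le' (show D.d i ≤ M by have := hM i; omega)
    rw [hr, Nat.add_sub_cancel, pow_add]
    show _ * (_ * (ρ.ξ₀ (v i) * ρ.ω i)) = _
    ring
  obtain ⟨y, hy⟩ := mem_range_of_isIntegralElem (L := L) ρ.chart₁.basis ρ.B₁.subtype Subtype.val_injective
    (fun q hq => hG.unit₁ q hq) (pow_ne_zero M X_ne_zero)
    (fun a ha => by
      rw [IsRoot, eval_pow, eval_X] at ha
      rw [eq_zero_of_pow_eq_zero ha]; exact H.infty)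
    (w := z) ⟨Q, hQ, by rw [eval₂_eq_sum_range] at hQz ⊢; exact hQz⟩ ⟨⟨_, hmem⟩, rfl⟩
  exact hy ▸ y.2

omit [IsAlgClosed k] in
/-- functions with poles bounded by `m` at infinity -/
theorem natDegree_add_le_of_mem (ρ : Realization D L) (v : Fin n → k[X]) (m : ℕ)
    (h : ρ.xi ^ m * ∑ i, ρ.ξ₀ (v i) * ρ.ω i ∈ ρ.B₁) (i : Fin n) (hi : v i ≠ 0) :
    (v i).natDegree + D.d i ≤ m := by
  classical
  obtain ⟨w, hw⟩ := ρ.chart₁.mem_ring.1 h
  obtain ⟨M, hM⟩ : ∃ M, ∀ i, (w i).natDegree + D.d i ≤ M :=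
    ⟨∑ i, ((w i).natDegree + D.d i),
      fun i => Finset.single_le_sum (f := fun i => (w i).natDegree + D.d i)
        (fun j _ => Nat.zero_le _) (Finset.mem_univ i)⟩
  have h1 := ρ.pow_mul_sum_infty w hM
  rw [hw] at h1
  have h2 : ∑ l, ρ.ξ₀ (X ^ M * v l - X ^ m * (w l).reflect (M - D.d l)) * ρ.ω l = 0 := by
    simp only [map_sub, map_mul, sub_mul, Finset.sum_sub_distrib, mul_assoc, ← Finset.mul_sum,
      ξ₀_X_pow, ← h1]
    rw [sub_eq_zero, mul_left_comm (ρ.x ^ m), ← mul_assoc (ρ.x ^ m), mul_comm (ρ.x ^ m),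
      xi_pow_mul_x_pow, one_mul]
  have h3 := congrFun (ρ.chart₀.indep _ h2) i
  simp only [Pi.zero_apply, sub_eq_zero] at h3
  have h4 := congrArg natDegree h3
  rw [natDegree_X_pow_mul M hi] at h4
  have h5 : ((w i).reflect (M - D.d i)).natDegree ≤ M - D.d i :=
    (natDegree_reflect_le).trans (by have := hM i; omega)
  have h6 := h4.le.trans ((natDegree_mul_le).trans (add_le_add (natDegree_X_pow_le m) h5))
  have := hM i
  omega

theorem eq_zero_or_one_of_mul_self (H : ρ.Regular) (hG : ρ.Generates) (e : L) (he : e * e = e) :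
    e = 0 ∨ e = 1 := by
  classical
  have hint : ∀ ξ : k[X] →+* L, ξ.IsIntegralElem e := fun ξ =>
    ⟨X ^ 2 - X, monic_X_pow_sub (by simp), by simp [sq, he]⟩
  obtain ⟨v, hv⟩ := ρ.chart₀.mem_ring.1 (mem_B₀_of_isIntegralElem H hG (hint _))
  have hbound : ∀ i, v i ≠ 0 → (v i).natDegree + D.d i ≤ 0 := fun i hi =>
    natDegree_add_le_of_mem ρ v 0 (by
      show _ * ∑ i, eval₂RingHom ρ.ι ρ.x (v i) * ρ.ω i ∈ _
      rw [pow_zero, one_mul, hv]; exact mem_B₁_of_isIntegralElem H hG (hint _)) i hi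
  have hother : ∀ i, i ≠ D.i₀ → v i = 0 := fun i hi => by
    by_contra hne
    have := hbound i hne
    have := D.d_pos i hi
    omega
  have hconst : v D.i₀ = C ((v D.i₀).coeff 0) := by
    by_cases h0 : v D.i₀ = 0
    · simp [h0]
    · exact eq_C_of_natDegree_eq_zero (by have := hbound _ h0; omega)
  set c₀ := (v D.i₀).coeff 0
  have he' : e = ρ.ι c₀ := by
    rw [← hv, Finset.sum_eq_single D.i₀ (fun i _ hi => by simp [hother i hi]) (by simp), hconst,
      ρ.chart₀.one, mul_one]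
    simp
  have hinj : c₀ * c₀ = c₀ := by
    have h0 : ∑ i, eval₂RingHom ρ.ι ρ.x
        ((Pi.single D.i₀ (C (c₀ * c₀ - c₀)) : Fin n → k[X]) i) * ρ.ω i = 0 := by
      rw [ChartHyp.sum_single, ρ.chart₀.one, mul_one]
      simp [← he', he]
    have := congrFun (ρ.chart₀.indep _ h0) D.i₀
    rwa [Pi.single_eq_same, Pi.zero_apply, C_eq_zero, sub_eq_zero] at this
  rcases mul_eq_zero.1 (show c₀ * (c₀ - 1) = 0 by linear_combination hinj) with h | h
  · exact Or.inl (by rw [he', h, map_zero])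
  · exact Or.inr (by rw [he', sub_eq_zero.1 h, map_one])

/-- the ring of a regular realization is a field -/
theorem isField (H : ρ.Regular) (hG : ρ.Generates) [Nontrivial L] : IsField L := by
  have hgen : ∀ z : L, ∃ p : k[X], p ≠ 0 ∧
      ρ.B₀.subtype (algebraMap k[X] ρ.B₀ p) * z ∈ ρ.B₀.subtype.range := fun z => by
    obtain ⟨p, hp, hm⟩ := hG.gen z
    exact ⟨p, hp, ⟨_, hm⟩, rfl⟩
  refine isField_of_idempotents ρ.B₀.subtype (fun q hq => hG.unit q hq) hgen ?_
    (eq_zero_or_one_of_mul_self H hG) ρ.chart₀.basis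
  exact isReduced_of_discr_ne_zero ρ.chart₀.basis ρ.B₀.subtype Subtype.val_injective
    (fun q hq => hG.unit q hq) hgen (by rw [ChartHyp.traceMatrix_basis]; exact H.disc_ne_zero)

end Realization

end Field

end Fermat.Agent.S27
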