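/-
Descent of a regular realization to any subring of the constants containing finitely many
elements.
-/
import Fermat.Agent.S27.Glue
import Mathlib.Algebra.Polynomial.Lifts
import Mathlib.Algebra.Polynomial.Eval.Coeff

set_option autoImplicit false

namespace Fermat.Agent.S27

open Polynomial
open scoped Polynomial

variable {K F : Type*} [Field K] [CommRing F]

theorem exists_finset_forall_mem_coeffs {ι : Type*} [Finite ι] (p : ι → K[X]) :
    ∃ S : Finset K, ∀ R : Subring K, ↑S ⊆ (R : Set K) → ∀ i j, (p i).coeff j ∈ R := by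
  classical
  have := Fintype.ofFinite ι
  refine ⟨Finset.univ.biUnion fun i => (p i).support.image (p i).coeff, fun R hR i j => ?_⟩
  by_cases hj : j ∈ (p i).support
  · exact hR (by
      simp only [Finset.coe_biUnion, Finset.coe_image]
      exact Set.mem_iUnion₂.2 ⟨i, Finset.mem_coe.2 (Finset.mem_univ i), ⟨j, hj, rfl⟩⟩)
  · rw [notMem_support_iff.1 hj]; exact R.zero_mem

theorem exists_map_eq_of_coeff_mem {R : Subring K} {p : K[X]} (h : ∀ j, p.coeff j ∈ R) :
    ∃ q : R[X], q.map R.subtype = p :=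
  (mem_lifts p).1 ((lifts_iff_coeff_lifts p).2 fun j => ⟨⟨_, h j⟩, rfl⟩)

theorem regElt_descend {B : Subring F} {n : ℕ} {γ : K →+* B} {ω : Fin n → B} {t s : B}
    (h : RegElt γ ω t s) :
    ∃ (S : Finset K) (T : Finset F), (↑T : Set F) ⊆ B ∧
      ∀ (R : Subring K) (B' : Subring F) (γ' : R →+* B') (ω' : Fin n → B') (t' s' : B'),
        ↑S ⊆ (R : Set K) → (↑T : Set F) ⊆ B' → (∀ r, (γ' r : F) = γ r) →
        (∀ i, (ω' i : F) = ω i) → (t' : F) = t → (s' : F) = s → RegElt γ' ω' t' s' := by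
  classical
  obtain ⟨π, e, h1, ⟨qX, hqX⟩, ⟨qe, hqe⟩⟩ := h
  choose r hr using h1
  choose q hq using hr
  refine ⟨Finset.univ.image r,
    {(π : F), (qX : F), (qe : F)} ∪ Finset.univ.image (fun j => (q j : F)), ?_, ?_⟩
  · intro z hz
    simp only [Finset.coe_union, Finset.coe_insert, Finset.coe_singleton, Finset.coe_image,
      Set.mem_union, Set.mem_insert_iff, Set.mem_singleton_iff, Set.mem_image] at hz
    rcases hz with (rfl | rfl | rfl) | ⟨j, -, rfl⟩ <;> exact Subtype.coe_prop _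
  · intro R B' γ' ω' t' s' hR hT hγ hω ht hs
    have hπ : (π : F) ∈ B' := hT (by simp)
    have hqX' : (qX : F) ∈ B' := hT (by simp)
    have hqe' : (qe : F) ∈ B' := hT (by simp)
    have hq' : ∀ j, (q j : F) ∈ B' := fun j => hT (Finset.mem_coe.2
      (Finset.mem_union_right _ (Finset.mem_image_of_mem (fun j => (q j : F)) (Finset.mem_univ j))))
    refine ⟨⟨_, hπ⟩, e, fun j => ⟨⟨r j, hR (by simp)⟩, ⟨⟨_, hq' j⟩, ?_⟩⟩,
      ⟨⟨_, hqX'⟩, ?_⟩, ⟨⟨_, hqe'⟩, ?_⟩⟩
    · refine Subtype.ext ?_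
      simpa [hs, hω, hγ] using congrArg Subtype.val (hq j)
    · refine Subtype.ext ?_
      simpa [hs, ht] using congrArg Subtype.val hqX
    · refine Subtype.ext ?_
      simpa [hs, ht] using congrArg Subtype.val hqe

theorem regAt_descend {B : Subring F} {n : ℕ} {γ : K →+* B} {ω : Fin n → B} {t : B}
    (h : RegAt γ ω t) :
    ∃ (S : Finset K) (T : Finset F), (↑T : Set F) ⊆ B ∧
      ∀ (R : Subring K) (B' : Subring F) (γ' : R →+* B') (ω' : Fin n → B') (t' : B'),
        ↑S ⊆ (R : Set K) → (↑T : Set F) ⊆ B' → (∀ r, (γ' r : F) = γ r) →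
        (∀ i, (ω' i : F) = ω i) → (t' : F) = t → RegAt γ' ω' t' := by
  classical
  obtain ⟨m, f, g, hfg⟩ := Submodule.mem_span_set'.1 h
  have key : ∀ i, ∃ (S : Finset K) (T : Finset F), (↑T : Set F) ⊆ B ∧
      ∀ (R : Subring K) (B' : Subring F) (γ' : R →+* B') (ω' : Fin n → B') (t' s' : B'),
        ↑S ⊆ (R : Set K) → (↑T : Set F) ⊆ B' → (∀ r, (γ' r : F) = γ r) →
        (∀ i, (ω' i : F) = ω i) → (t' : F) = t → (s' : F) = ((g i : B) : F) →
        s' = t' ∨ RegElt γ' ω' t' s' := by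
    intro i
    rcases (g i).2 with hgt | hgs
    · refine ⟨∅, ∅, by simp, fun R B' γ' ω' t' s' _ _ _ _ ht hs => Or.inl (Subtype.ext ?_)⟩
      rw [ht, hs, hgt]
    · obtain ⟨S, T, hT, hST⟩ := regElt_descend hgs
      exact ⟨S, T, hT, fun R B' γ' ω' t' s' a b c d e f => Or.inr (hST R B' γ' ω' t' s' a b c d e f)⟩
  choose S T hT hST using key
  refine ⟨Finset.univ.biUnion S, Finset.univ.biUnion T
    ∪ (Finset.univ.image (fun i => (f i : F)) ∪ Finset.univ.image (fun i => ((g i : B) : F))),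
    ?_, ?_⟩
  · intro z hz
    simp only [Finset.coe_union, Finset.coe_biUnion, Finset.coe_image, Set.mem_union,
      Set.mem_iUnion, Set.mem_image] at hz
    rcases hz with ⟨i, -, hi⟩ | ⟨i, -, rfl⟩ | ⟨i, -, rfl⟩
    · exact hT i hi
    · exact Subtype.coe_prop _
    · exact Subtype.coe_prop _
  · intro R B' γ' ω' t' hR hB hγ hω ht
    have hf : ∀ i, (f i : F) ∈ B' := fun i => hB (Finset.mem_coe.2
      (Finset.mem_union_right _ (Finset.mem_union_left _
        (Finset.mem_image_of_mem _ (Finset.mem_univ i)))))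
    have hg : ∀ i, ((g i : B) : F) ∈ B' := fun i => hB (Finset.mem_coe.2
      (Finset.mem_union_right _ (Finset.mem_union_right _
        (Finset.mem_image_of_mem (fun i => ((g i : B) : F)) (Finset.mem_univ i)))))
    refine Submodule.mem_span_set'.2 ⟨m, fun i => ⟨_, hf i⟩, fun i => ⟨⟨_, hg i⟩, ?_⟩, ?_⟩
    · rcases hST i R B' γ' ω' t' ⟨_, hg i⟩
        (fun z hz => hR (Finset.mem_coe.2 (Finset.mem_biUnion.2 ⟨i, Finset.mem_univ i, hz⟩)))
        (fun z hz => hB (Finset.mem_coe.2 (Finset.mem_union_left _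
          (Finset.mem_biUnion.2 ⟨i, Finset.mem_univ i, hz⟩)))) hγ hω ht rfl with h' | h'
      · exact Or.inl h'
      · exact Or.inr h'
    · refine Subtype.ext ?_
      have := congrArg B.subtype hfg
      rw [map_sum] at this
      rw [show ∀ w : B', (w : F) = B'.subtype w from fun _ => rfl, map_sum]
      simpa using this

/-- a finite set of elements of a chart has coordinates in any large enough subring -/
theorem exists_finset_mem_chart {n : ℕ} {ι : K →+* F} {x : F} {ω : Fin n → F} {T : Finset F}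
    (hT : ∀ z ∈ T, ∃ v : Fin n → K[X], ∑ i, eval₂RingHom ι x (v i) * ω i = z) :
    ∃ S : Finset K, ∀ R : Subring K, ↑S ⊆ (R : Set K) → ∀ z ∈ T,
      ∃ w : Fin n → R[X], ∑ i, eval₂RingHom (ι.comp R.subtype) x (w i) * ω i = z := by
  classical
  choose v hv using hT
  obtain ⟨S, hS⟩ := exists_finset_forall_mem_coeffs (ι := T × Fin n) (fun p => v p.1 p.1.2 p.2)
  refine ⟨S, fun R hR z hz => ?_⟩
  choose w hw using fun i => exists_map_eq_of_coeff_mem (R := R) (hS R hR (⟨z, hz⟩, i))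
  refine ⟨w, (Finset.sum_congr rfl fun i _ => ?_).trans (hv z hz)⟩
  rw [← hw i, coe_eval₂RingHom, coe_eval₂RingHom, eval₂_map]

namespace Realization

variable {n : ℕ} {D : SpreadData K n}

/-- the realization with fewer constants -/
theorem Regular.descend {ρ : Realization D F} (H : ρ.Regular) :
    ∃ S : Finset K, ∀ R : Subring K, ↑S ⊆ (R : Set K) →
      ∃ (D' : SpreadData R n) (ρ' : Realization D' F), D'.map R.subtype = D ∧
        ρ'.ι = ρ.ι.comp R.subtype ∧ ρ'.x = ρ.x ∧ ρ'.ω = ρ.ω ∧ ρ'.Regular := by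
  classical
  obtain ⟨u, roots, hD, hreg⟩ := H.disc
  obtain ⟨S₁, hS₁⟩ := exists_finset_forall_mem_coeffs (ι := Fin n × Fin n × Fin n)
    (fun p => D.c p.1 p.2.1 p.2.2)
  obtain ⟨S₂, hS₂⟩ := exists_finset_forall_mem_coeffs (ι := Fin n × Fin n × Fin n)
    (fun p => D.c' p.1 p.2.1 p.2.2)
  choose Sa Ta hTa hSTa using fun a : roots.toFinset =>
    regAt_descend (hreg a (Multiset.mem_toFinset.1 a.2))
  obtain ⟨S₄, T₄, hT₄, hST₄⟩ := regAt_descend H.infty
  obtain ⟨S₅, hS₅⟩ := exists_finset_mem_chart (ι := ρ.ι) (x := ρ.x) (ω := ρ.ω)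
    (T := Finset.univ.biUnion Ta) (fun z hz => by
      obtain ⟨a, -, ha⟩ := Finset.mem_biUnion.1 hz
      exact hTa a ha)
  obtain ⟨S₆, hS₆⟩ := exists_finset_mem_chart (ι := ρ.ι) (x := ρ.xi) (ω := ρ.e) (T := T₄)
    (fun z hz => hT₄ hz)
  refine ⟨S₁ ∪ S₂ ∪ roots.toFinset ∪ {(u : K), ((u⁻¹ : Kˣ) : K)} ∪ Finset.univ.biUnion Sa
    ∪ S₄ ∪ S₅ ∪ S₆, fun R hR => ?_⟩
  simp only [Finset.coe_union, Set.union_subset_iff] at hR
  obtain ⟨⟨⟨⟨⟨⟨⟨h1, h2⟩, h3⟩, h4⟩, h5⟩, h6⟩, h7⟩, h8⟩ := hR
  choose c hc using fun i j l => exists_map_eq_of_coeff_mem (R := R) (hS₁ R h1 (i, j, l))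
  choose c' hc' using fun i j l => exists_map_eq_of_coeff_mem (R := R) (hS₂ R h2 (i, j, l))
  have hinj : Function.Injective R.subtype := Subtype.val_injective
  let D' : SpreadData R n :=
    { d := D.d
      i₀ := D.i₀
      d_zero := D.d_zero
      d_pos := D.d_pos
      c := c
      c' := c'
      natDegree_le := fun i j l => by
        rw [← natDegree_map_eq_of_injective hinj, hc']; exact D.natDegree_le i j l
      reflect_eq := fun i j l => by
        refine map_injective _ hinj ?_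
        rw [Polynomial.map_mul, Polynomial.map_pow, Polynomial.map_X, ← reflect_map, hc, hc']
        exact D.reflect_eq i j l }
  have hDmap : D'.map R.subtype = D := by
    cases D with
    | mk d i₀ hd0 hdp cc cc' hn hr =>
      simp only [SpreadData.map, D']
      congr
      · funext i j l; exact hc i j l
      · funext i j l; exact hc' i j l
  have hev : ∀ (q : R[X]) (y : F), eval₂ (ρ.ι.comp R.subtype) y q
      = eval₂ ρ.ι y (q.map R.subtype) := fun q y => by rw [eval₂_map]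
  let ρ' : Realization D' F :=
    { ι := ρ.ι.comp R.subtype
      x := ρ.x
      xi := ρ.xi
      x_mul_xi := ρ.x_mul_xi
      ω := ρ.ω
      chart₀ :=
        { indep := fun v hv => by
            simp only [coe_eval₂RingHom, hev] at hv
            funext i
            exact map_injective _ hinj (by
              rw [Pi.zero_apply, Polynomial.map_zero]
              exact congrFun (ρ.chart₀.indep (fun i => (v i).map R.subtype) hv) i)
          one := ρ.chart₀.one
          mul := fun i j => by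
            rw [ρ.chart₀.mul]
            refine Finset.sum_congr rfl fun l _ => ?_
            simp only [coe_eval₂RingHom, hev]
            rw [show (D'.c i j l).map R.subtype = D.c i j l from hc i j l] } }
  refine ⟨D', ρ', hDmap, rfl, rfl, rfl, ⟨?_, ?_⟩⟩
  · have hu : (u : K) ∈ R ∧ ((u⁻¹ : Kˣ) : K) ∈ R := by
      constructor <;> exact h4 (by simp)
    refine ⟨⟨⟨_, hu.1⟩, ⟨_, hu.2⟩, Subtype.ext u.mul_inv, Subtype.ext u.inv_mul⟩,
      roots.pmap (fun a ha => (⟨a, h3 (Multiset.mem_toFinset.2 ha)⟩ : R)) (fun a ha => ha), ?_, ?_⟩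
    · refine map_injective _ hinj ?_
      rw [← SpreadData.disc_map, hDmap, hD, Polynomial.map_mul, map_C,
        Polynomial.map_multiset_prod, Multiset.map_map, Multiset.map_pmap]
      simp [Multiset.pmap_eq_map]
    · intro a' ha'
      obtain ⟨a, ha, rfl⟩ := Multiset.mem_pmap.1 ha'
      refine hSTa ⟨a, Multiset.mem_toFinset.2 ha⟩ R ρ'.B₀ _ _ _
        (fun z hz => h5 (Finset.mem_coe.2 (Finset.mem_biUnion.2 ⟨_, Finset.mem_univ _, hz⟩)))
        (fun z hz => hS₅ R h7 z (Finset.mem_biUnion.2 ⟨_, Finset.mem_univ _, hz⟩)) ?_ ?_ ?_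
      · intro r; simp [constHom, ρ']
      · intro i; simp [ρ']
      · simp [pointEq, ρ']
  · refine hST₄ R ρ'.B₁ _ _ _ h6 (fun z hz => hS₆ R h8 z hz) ?_ ?_ ?_
    · intro r; simp [constHom, ρ', ξ₁]
    · intro i; simp [ρ', e, D']
    · simp [pointEq, ρ', ξ₁]

end Realization

end Fermat.Agent.S27
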