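/-
The integral closure of `K[x]` in a function field: a basis, and regularity at every point.
-/
import Fermat.Agent.S27.Regular
import Mathlib.RingTheory.DedekindDomain.IntegralClosure
import Mathlib.RingTheory.DedekindDomain.Ideal.Lemmas
import Mathlib.FieldTheory.IntermediateField.Adjoin.Algebra
import Mathlib.FieldTheory.IntermediateField.Adjoin.Basic
import Mathlib.RingTheory.Algebraic.Basic

set_option autoImplicit false

namespace Fermat.Agent.S27

open Polynomial
open scoped Polynomial

section Regular

variable {k B : Type*} [Field k] [IsAlgClosed k] [CommRing B] [IsDedekindDomain B]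
  [Algebra k[X] B] {n : ℕ}

/-- a Dedekind algebra is regular at every point -/
theorem regAt_of_isDedekindDomain (b : Module.Basis (Fin n) k[X] B) (a : k) :
    RegAt (constHom (k := k) (B := B)) b (pointEq a : B) := by
  classical
  by_contra hne
  obtain ⟨P, hPmax, hP⟩ := Ideal.exists_le_maximal _ ((Ideal.ne_top_iff_one _).2 hne)
  have htP : pointEq a ∈ P := hP (Ideal.subset_span (Set.mem_insert _ _))
  choose r hr using fun j => exists_sub_const_mem b a htP (b j)
  have ht0 : (pointEq a : B) ≠ 0 := by
    intro h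
    have : Module.Free k[X] B := Module.Free.of_basis b
    have h' : (X - C a : k[X]) • (1 : B) = 0 := by rw [Algebra.smul_def, mul_one]; exact h
    rcases smul_eq_zero.1 h' with h1 | h1
    · exact X_sub_C_ne_zero a h1
    · exact one_ne_zero h1
  have hP0 : P ≠ ⊥ := fun h => ht0 (by rw [h] at htP; exact htP)
  have : P.IsPrime := hPmax.isPrime
  obtain ⟨π, hπ, hπ2⟩ := SetLike.exists_of_lt (Ideal.pow_succ_lt_pow hP0 1)
  rw [pow_one] at hπ
  obtain ⟨I, hI⟩ : P ∣ Ideal.span {π} := Ideal.dvd_iff_le.2 ((Ideal.span_singleton_le_iff_mem _).2 hπ)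
  obtain ⟨s₁, hs₁, hs₁P⟩ : ∃ s ∈ I, s ∉ P := by
    by_contra hall
    push Not at hall
    apply hπ2
    rw [← Ideal.span_singleton_le_iff_mem, hI, pow_succ, pow_one]
    exact Ideal.mul_mono_right hall
  obtain ⟨e, J, hJ, hte⟩ := WfDvdMonoid.max_power_factor' (a₀ := Ideal.span {(pointEq a : B)})
    (by simpa [Ideal.span_singleton_eq_bot] using ht0)
    (show ¬ IsUnit P by rw [Ideal.isUnit_iff]; exact hPmax.ne_top)
  obtain ⟨s₂, hs₂, hs₂P⟩ : ∃ s ∈ J, s ∉ P := by
    by_contra hall
    push Not at hall
    exact hJ (Ideal.dvd_iff_le.2 hall)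
  have h1 : ∀ z ∈ P, π ∣ s₁ * z := fun z hz => by
    rw [← Ideal.mem_span_singleton, hI, mul_comm s₁]
    exact Ideal.mul_mem_mul hz hs₁
  have h2 : (pointEq a : B) ∣ s₂ * π ^ e := by
    rw [← Ideal.mem_span_singleton, hte, mul_comm s₂]
    exact Ideal.mul_mem_mul (Ideal.pow_mem_pow hπ e) hs₂
  have hs : RegElt (constHom (k := k) (B := B)) b (pointEq a : B) (s₁ * s₂) := by
    refine ⟨π, e, fun j => ⟨r j, ?_⟩, ?_, ?_⟩
    · rw [mul_right_comm]; exact dvd_mul_of_dvd_left (h1 _ (hr j)) _
    · rw [mul_right_comm]; exact dvd_mul_of_dvd_left (h1 _ htP) _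
    · rw [mul_assoc]; exact dvd_mul_of_dvd_right h2 _
  have := hP (Ideal.subset_span (Set.mem_insert_of_mem _ hs))
  exact (hPmax.isPrime.mem_or_mem this).elim hs₁P hs₂P

end Regular

section Basis

variable {K F : Type*} [Field K] [Field F] [Algebra K F]

theorem isUnit_aeval_of_transcendental {x : F} (hx : Transcendental K x) {p : K[X]} (hp : p ≠ 0) :
    IsUnit ((aeval x).toRingHom p) :=
  isUnit_iff_ne_zero.2 fun h => hp (transcendental_iff.1 hx p h)

/-- `B` is the integral closure of `K[x]`, as a set -/
def IsChartBasis (x : F) {n : ℕ} (ω : Fin n → F) : Prop :=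
  (∀ v : Fin n → K[X], ∑ i, aeval x (v i) * ω i = 0 → v = 0) ∧
    ∀ z : F, ((aeval x).toRingHom : K[X] →+* F).IsIntegralElem z ↔
      ∃ v : Fin n → K[X], ∑ i, aeval x (v i) * ω i = z

/-- facts about the integral closure of `K[x]` -/
theorem exists_isChartBasis [CharZero K] {x : F} (hx : Transcendental K x)
    [Module.Finite (IntermediateField.adjoin K {x}) F] :
    ∃ (n : ℕ) (ω : Fin n → F),
      IsChartBasis (K := K) x ω ∧
      (∀ R : Subring F,
        (∀ z, z ∈ R ↔ ((aeval x).toRingHom : K[X] →+* F).IsIntegralElem z) → IsDedekindDomain R) ∧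
      ∀ z : F, ∃ p : K[X], p ≠ 0 ∧
        ((aeval x).toRingHom : K[X] →+* F).IsIntegralElem (aeval x p * z) := by
  classical
  open scoped IntermediateField.algebraAdjoinAdjoin in
  let A := Algebra.adjoin K ({x} : Set F)
  open scoped IntermediateField.algebraAdjoinAdjoin in
  let K' := IntermediateField.adjoin K ({x} : Set F)
  let ψ : K[X] →ₐ[K] A := (aeval x).codRestrict A fun p => aeval_mem_adjoin_singleton K x
  have hψ : Function.Surjective ψ := by
    rintro ⟨a, ha⟩
    rw [show A = Algebra.adjoin K ({x} : Set F) from rfl, Algebra.adjoin_singleton_eq_range_aeval] at ha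
    obtain ⟨p, rfl⟩ := ha
    exact ⟨p, rfl⟩
  have hψinj : Function.Injective ψ := fun p q h =>
    transcendental_iff_injective.1 hx (congrArg Subtype.val h)
  have : IsPrincipalIdealRing A := IsPrincipalIdealRing.of_surjective ψ.toRingHom hψ
  have : IsDedekindDomain A := inferInstance
  open scoped IntermediateField.algebraAdjoinAdjoin in
  have hfrac : IsFractionRing A K' := inferInstance
  open scoped IntermediateField.algebraAdjoinAdjoin in
  have htower : IsScalarTower A K' F := inferInstance
  have : CharZero K' := charZero_of_injective_algebraMap (algebraMap K K').injective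
  have hsep : Algebra.IsSeparable K' F := inferInstance
  open scoped IntermediateField.algebraAdjoinAdjoin in
  have hDed : IsDedekindDomain (integralClosure A F) := integralClosure.isDedekindDomain A K' F
  open scoped IntermediateField.algebraAdjoinAdjoin in
  have hfree : Module.Free A (integralClosure A F) := IsIntegralClosure.module_free A K' F _
  open scoped IntermediateField.algebraAdjoinAdjoin in
  have : IsNoetherian A (integralClosure A F) := IsIntegralClosure.isNoetherian A K' F _
  open scoped IntermediateField.algebraAdjoinAdjoin in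
  have hrank : Module.finrank A (integralClosure A F) = Module.finrank K' F :=
    IsIntegralClosure.rank A K' F _
  let b := (Module.finBasisOfFinrankEq A (integralClosure A F) hrank)
  have hint : ∀ z : F, ((aeval x).toRingHom : K[X] →+* F).IsIntegralElem z ↔ IsIntegral A z := by
    intro z
    constructor
    · rintro ⟨Q, hQ, hQz⟩
      exact ⟨Q.map ψ.toRingHom, hQ.map _, by rw [eval₂_map]; exact hQz⟩
    · rintro ⟨Q, hQ, hQz⟩
      obtain ⟨Q', hQ', -, hQ'm⟩ := lifts_and_degree_eq_and_monic
        (Polynomial.map_surjective ψ.toRingHom hψ Q) hQ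
      refine ⟨Q', hQ'm, ?_⟩
      rw [← hQ', eval₂_map] at hQz
      exact hQz
  have hsum : ∀ v : Fin (Module.finrank K' F) → K[X],
      ∑ i, aeval x (v i) * (b i : F) = ((∑ i, ψ (v i) • b i : integralClosure A F) : F) := by
    intro v
    rw [show ((∑ i, ψ (v i) • b i : integralClosure A F) : F)
      = (integralClosure A F).val (∑ i, ψ (v i) • b i) from rfl, map_sum]
    rfl
  refine ⟨_, fun i => (b i : F), ⟨fun v hv => ?_, fun z => ?_⟩,
    fun R hR => ?_, fun z => ?_⟩
  · rw [hsum] at hv
    have h0 : ∑ i, ψ (v i) • b i = 0 := Subtype.ext hv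
    funext i
    refine hψinj ?_
    rw [Pi.zero_apply, map_zero]
    exact Fintype.linearIndependent_iff.1 b.linearIndependent _ h0 i
  · rw [hint]
    constructor
    · intro hz
      choose v hv using fun i => hψ (b.repr ⟨z, hz⟩ i)
      refine ⟨v, ?_⟩
      rw [hsum]
      simp only [hv, b.sum_repr]
    · rintro ⟨v, rfl⟩
      rw [hsum]
      exact (∑ i, ψ (v i) • b i : integralClosure A F).2
  · have hRC : R = (integralClosure A F).toSubring :=
      SetLike.ext fun z => (hR z).trans (hint z)
    subst hRC
    exact hDed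
  · have halg : IsAlgebraic A z := by
      open scoped IntermediateField.algebraAdjoinAdjoin in
      exact (IsFractionRing.isAlgebraic_iff A K' F).2 (Algebra.IsAlgebraic.isAlgebraic z)
    obtain ⟨y, hy, hyint⟩ := halg.exists_integral_multiple
    obtain ⟨p, rfl⟩ := hψ y
    refine ⟨p, fun h => hy (by rw [h, map_zero]), (hint _).2 ?_⟩
    exact hyint

end Basis

end Fermat.Agent.S27
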