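/-
Existence of a normal basis: one basis of the integral closure of `K[x]` which, after scaling by
powers of `1/x`, is a basis of the integral closure of `K[1/x]`.
-/
import Fermat.Agent.S27.Glue
import Fermat.Agent.S27.Lattice
import Fermat.Agent.Curve.BasicInstances

set_option autoImplicit false

namespace Fermat.Agent.S27

open Polynomial AlgebraicCurve
open scoped Polynomial

theorem mem_of_isIntegralElem {S F : Type*} [CommRing S] [Field F] {V : ValuationSubring F}
    (ξ : S →+* F) (hξ : ∀ p, ξ p ∈ V) {z : F} (hz : ξ.IsIntegralElem z) : z ∈ V := by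
  obtain ⟨Q, hQ, hQz⟩ := hz
  have : IsIntegral V z := by
    refine ⟨Q.map (ξ.codRestrict V.toSubring hξ), hQ.map _, ?_⟩
    rw [eval₂_map]
    exact hQz
  obtain ⟨w, rfl⟩ := IsIntegrallyClosed.algebraMap_eq_of_integral this
  exact w.2

theorem aeval_mem_valuationSubring {K F : Type*} [Field K] [Field F] [Algebra K F]
    (v : Place K F) {y : F} (hy : y ∈ v.toValuationSubring) (p : K[X]) :
    aeval y p ∈ v.toValuationSubring := by
  rw [aeval_eq_sum_range]
  refine sum_mem fun i _ => ?_
  rw [Algebra.smul_def]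
  exact mul_mem (v.algebraMap_mem' _) (pow_mem hy _)

/-- integrality over `k[x]` becomes integrality over `k[1/x]` after scaling -/
theorem exists_pow_mul_isIntegralElem {R L : Type*} [CommRing R] [CommRing L] (ι : R →+* L)
    {x xi : L} (hx : x * xi = 1) {z : L}
    (hz : (eval₂RingHom ι x).IsIntegralElem z) :
    ∃ s, (eval₂RingHom ι xi).IsIntegralElem (xi ^ s * z) := by
  classical
  obtain ⟨Q, hQ, hQz⟩ := hz
  obtain ⟨s, hs⟩ : ∃ s, ∀ j, (Q.coeff j).natDegree ≤ s :=
    ⟨∑ j ∈ Q.support, (Q.coeff j).natDegree, fun j => by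
      by_cases hj : j ∈ Q.support
      · exact Finset.single_le_sum (f := fun j => (Q.coeff j).natDegree)
          (fun i _ => Nat.zero_le _) hj
      · simp [notMem_support_iff.1 hj]⟩
  set N := Q.natDegree with hN
  set P : R[X][X] := X ^ N
    + ∑ j ∈ Finset.range N, C ((Q.coeff j).reflect (s * (N - j))) * X ^ j with hP
  refine ⟨s, P, monic_X_pow_add ?_, ?_⟩
  · refine (degree_sum_le _ _).trans_lt
      ((Finset.sup_lt_iff (by exact_mod_cast WithBot.bot_lt_coe N)).2 fun j hj => ?_)
    exact (degree_C_mul_X_pow_le _ _).trans_lt (by exact_mod_cast Finset.mem_range.1 hj)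
  · rw [eval₂_eq_sum_range, Finset.sum_range_succ, hQ.coeff_natDegree, map_one, one_mul] at hQz
    rw [hP, eval₂_add, eval₂_X_pow, eval₂_finsetSum]
    calc (xi ^ s * z) ^ N + ∑ j ∈ Finset.range N,
          eval₂ (eval₂RingHom ι xi) (xi ^ s * z) (C ((Q.coeff j).reflect (s * (N - j))) * X ^ j)
        = (xi ^ s) ^ N * (∑ j ∈ Finset.range N, eval₂RingHom ι x (Q.coeff j) * z ^ j + z ^ N) := by
          rw [mul_add, Finset.mul_sum, mul_pow, add_comm]
          congr 1
          refine Finset.sum_congr rfl fun j hj => ?_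
          have hjN := Finset.mem_range.1 hj
          rw [eval₂_mul, eval₂_C, eval₂_X_pow, coe_eval₂RingHom, eval₂_reflect_mul ι
            (x := xi) (xi := x) (by rw [mul_comm]; exact hx) _ _ ((hs j).trans
            (Nat.le_mul_of_pos_right _ (by omega)))]
          have : (xi ^ s) ^ N = xi ^ (s * (N - j)) * (xi ^ s) ^ j := by
            rw [← pow_mul, ← pow_mul, ← pow_add, ← Nat.mul_add]
            congr 2; omega
          rw [this, coe_eval₂RingHom]; ring
      _ = 0 := by rw [hQz, mul_zero]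

section

variable {K F : Type*} [Field K] [Field F] [Algebra K F]

/-- integral over `K[y]` -/
def IntOn (K : Type*) {F : Type*} [Field K] [Field F] [Algebra K F] (y z : F) : Prop :=
  ((aeval y).toRingHom : K[X] →+* F).IsIntegralElem z

theorem IntOn.add {y z w : F} (hz : IntOn K y z) (hw : IntOn K y w) : IntOn K y (z + w) :=
  RingHom.IsIntegralElem.add _ hz hw

theorem IntOn.sub {y z w : F} (hz : IntOn K y z) (hw : IntOn K y w) : IntOn K y (z - w) :=
  RingHom.IsIntegralElem.sub _ hz hw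

theorem IntOn.mul {y z w : F} (hz : IntOn K y z) (hw : IntOn K y w) : IntOn K y (z * w) :=
  RingHom.IsIntegralElem.mul _ hz hw

theorem intOn_aeval (y : F) (p : K[X]) : IntOn K y (aeval y p) :=
  ((aeval y).toRingHom : K[X] →+* F).isIntegralElem_map

theorem intOn_algebraMap (y : F) (c : K) : IntOn K y (algebraMap K F c) := by
  simpa using intOn_aeval y (C c)

theorem intOn_pow (y : F) (m : ℕ) : IntOn K y (y ^ m) := by
  simpa using intOn_aeval (K := K) y (X ^ m)

theorem intOn_sum {ι : Type*} {y : F} (s : Finset ι) (f : ι → F)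
    (h : ∀ i ∈ s, IntOn K y (f i)) : IntOn K y (∑ i ∈ s, f i) := by
  classical
  induction s using Finset.induction_on with
  | empty => simpa using intOn_algebraMap y (0 : K)
  | insert a t hat ih =>
    rw [Finset.sum_insert hat]
    exact (h a (by simp)).add (ih fun i hi => h i (Finset.mem_insert_of_mem hi))

variable [IsAlgClosed K] [Curve.IsFunctionFieldOne K F]

theorem exists_eq_const {x z : F} (h0 : IntOn K x z) (h1 : IntOn K x⁻¹ z) :
    ∃ c : K, z = algebraMap K F c := by
  have halg : IsAlgebraic K z := by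
    refine Curve.isAlgebraic_of_forall_ord_nonneg fun v => Curve.ord_nonneg_of_mem v ?_
    rcases v.toValuationSubring.mem_or_inv_mem x with h | h
    · exact mem_of_isIntegralElem _ (fun p => aeval_mem_valuationSubring v h p) h0
    · exact mem_of_isIntegralElem _ (fun p => aeval_mem_valuationSubring v h p) h1
  obtain ⟨c, hc⟩ := minpoly.mem_range_of_degree_eq_one K z
    (IsAlgClosed.degree_eq_one_of_irreducible K (minpoly.irreducible halg.isIntegral))
  exact ⟨c, hc.symm⟩

theorem not_intOn_inv {x : F} (hx : Transcendental K x) : ¬ IntOn K x⁻¹ x := fun h => by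
  obtain ⟨c, hc⟩ := exists_eq_const (by simpa using intOn_aeval (K := K) x X) h
  exact hx (hc ▸ isAlgebraic_algebraMap c)

/-- a candidate normal basis -/
structure Candidate (K : Type*) {F : Type*} [Field K] [Field F] [Algebra K F] (x : F) (n : ℕ) where
  ω : Fin n → F
  d : Fin n → ℕ
  basis : IsChartBasis (K := K) x ω
  atInfty : ∀ i, IntOn K x⁻¹ (x⁻¹ ^ d i * ω i)

variable {x : F} {n : ℕ}

omit [IsAlgClosed K] [Curve.IsFunctionFieldOne K F] in
theorem Candidate.intOn_ω (C : Candidate K x n) (i : Fin n) : IntOn K x (C.ω i) := by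
  classical
  refine (C.basis.2 _).2 ⟨Pi.single i 1, ?_⟩
  rw [Finset.sum_eq_single i (fun l _ hl => by simp [Pi.single_eq_of_ne hl])
    (fun h => absurd (Finset.mem_univ i) h)]
  simp

omit [IsAlgClosed K] [Curve.IsFunctionFieldOne K F] in
/-- replace one basis vector by a combination with constant unit coefficient at its place -/
theorem isChartBasis_update {ω : Fin n → F} (hω : IsChartBasis (K := K) x ω) (i : Fin n)
    (a : Fin n → K[X]) {c : K} (hc : c ≠ 0) (hai : a i = C c) :
    IsChartBasis (K := K) x (Function.update ω i (∑ l, aeval x (a l) * ω l)) := by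
  classical
  have key : ∀ v : Fin n → K[X],
      ∑ l, aeval x (v l) * Function.update ω i (∑ l, aeval x (a l) * ω l) l
        = ∑ l, aeval x (Function.update v i 0 l + v i * a l) * ω l := by
    intro v
    simp only [map_add, map_mul, add_mul, Finset.sum_add_distrib, mul_assoc, ← Finset.mul_sum]
    generalize ∑ l, aeval x (a l) * ω l = w
    rw [← Finset.sum_erase_add _ _ (Finset.mem_univ i),
      ← Finset.sum_erase_add _ _ (Finset.mem_univ i), Function.update_self, Function.update_self,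
      map_zero, zero_mul, add_zero]
    refine congrArg (· + _) (Finset.sum_congr rfl fun l hl => ?_)
    rw [Function.update_of_ne (Finset.ne_of_mem_erase hl),
      Function.update_of_ne (Finset.ne_of_mem_erase hl)]
  refine ⟨fun v hv => ?_, fun z => ⟨fun hz => ?_, ?_⟩⟩
  · rw [key] at hv
    have h := congrFun (hω.1 _ hv)
    have hi : v i = 0 := by
      have := h i
      simpa [hai, hc] using this
    funext l
    rcases eq_or_ne l i with rfl | hl
    · exact hi
    · simpa [Function.update_of_ne hl, hi] using h l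
  · obtain ⟨v, rfl⟩ := (hω.2 z).1 hz
    refine ⟨Function.update (fun l => v l - C c⁻¹ * v i * a l) i (C c⁻¹ * v i), ?_⟩
    rw [key]
    refine Finset.sum_congr rfl fun l _ => ?_
    congr 2
    rcases eq_or_ne l i with rfl | hl
    · rw [Function.update_self, Function.update_self, zero_add, hai, mul_assoc, mul_comm (v l),
        ← mul_assoc, ← map_mul, inv_mul_cancel₀ hc, map_one, one_mul]
    · rw [Function.update_of_ne hl, Function.update_self, Function.update_of_ne hl]; ring
  · rintro ⟨v, rfl⟩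
    exact (hω.2 _).2 ⟨_, (key v).symm⟩

/-- minimality gives independence at infinity -/
theorem Candidate.lead_injective (hx : Transcendental K x) (C₀ : Candidate K x n)
    (hmin : ∀ C' : Candidate K x n, ∑ i, C₀.d i ≤ ∑ i, C'.d i) (c : Fin n → K)
    (hc : IntOn K x⁻¹ (x * ∑ j, algebraMap K F (c j) * (x⁻¹ ^ C₀.d j * C₀.ω j))) : c = 0 := by
  classical
  have hx0 : x ≠ 0 := (fun h => hx (h ▸ isAlgebraic_zero))
  by_contra hne
  obtain ⟨i, hi, hmax⟩ := Finset.exists_max_image (Finset.univ.filter fun j => c j ≠ 0) C₀.d (by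
    obtain ⟨j, hj⟩ := Function.ne_iff.1 hne
    exact ⟨j, by simpa using hj⟩)
  rw [Finset.mem_filter] at hi
  set a : Fin n → K[X] := fun j => C (c j) * X ^ (C₀.d i - C₀.d j) with ha
  set w := ∑ j, aeval x (a j) * C₀.ω j with hw
  have hai : a i = C (c i) := by simp [ha]
  have hscale : x⁻¹ ^ C₀.d i * w = ∑ j, algebraMap K F (c j) * (x⁻¹ ^ C₀.d j * C₀.ω j) := by
    rw [hw, Finset.mul_sum]
    refine Finset.sum_congr rfl fun j _ => ?_
    by_cases hj : c j = 0
    · simp [ha, hj]
    · obtain ⟨r, hr⟩ := Nat.exists_eq_add_of_le (hmax j (by simpa using hj))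
      simp only [ha, map_mul, aeval_C, map_pow, aeval_X, hr, Nat.add_sub_cancel_left, pow_add]
      calc x⁻¹ ^ C₀.d j * x⁻¹ ^ r * (algebraMap K F (c j) * x ^ r * C₀.ω j)
          = algebraMap K F (c j) * (x⁻¹ ^ C₀.d j * C₀.ω j) * (x⁻¹ * x) ^ r := by ring
        _ = _ := by rw [inv_mul_cancel₀ hx0, one_pow, mul_one]
  have hwint : IntOn K x w := (C₀.basis.2 w).2 ⟨a, rfl⟩
  rcases Nat.eq_zero_or_pos (C₀.d i) with h0 | hpos
  · rw [h0, pow_zero, one_mul] at hscale
    rw [← hscale] at hc
    have hw1 : IntOn K x⁻¹ w := by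
      have := (intOn_pow (K := K) x⁻¹ 1).mul hc
      rwa [pow_one, ← mul_assoc, inv_mul_cancel₀ hx0, one_mul] at this
    obtain ⟨c₀, hc₀⟩ := exists_eq_const hwint hw1
    have : c₀ = 0 := by
      by_contra hc₀0
      refine not_intOn_inv hx ?_
      have := (intOn_algebraMap x⁻¹ c₀⁻¹).mul hc
      rwa [hc₀, mul_left_comm, ← map_mul, inv_mul_cancel₀ hc₀0, map_one, mul_one] at this
    rw [this, map_zero, hw] at hc₀
    have := congrFun (C₀.basis.1 a hc₀) i
    rw [hai, Pi.zero_apply, C_eq_zero] at this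
    exact hi.2 this
  · let C' : Candidate K x n :=
      { ω := Function.update C₀.ω i w
        d := Function.update C₀.d i (C₀.d i - 1)
        basis := isChartBasis_update C₀.basis i a hi.2 hai
        atInfty := fun j => by
          rcases eq_or_ne j i with rfl | hj
          · rw [Function.update_self, Function.update_self]
            rw [← hscale] at hc
            convert hc using 1
            obtain ⟨m, hm⟩ : ∃ m, C₀.d j = m + 1 := ⟨C₀.d j - 1, by omega⟩
            rw [hm, Nat.add_sub_cancel, pow_succ, mul_assoc, ← mul_assoc x, mul_comm x,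
              mul_assoc (x⁻¹ ^ m), ← mul_assoc x x⁻¹, mul_inv_cancel₀ hx0, one_mul]
          · rw [Function.update_of_ne hj, Function.update_of_ne hj]
            exact C₀.atInfty j }
    have h1 := hmin C'
    have h2 : ∑ j, C'.d j < ∑ j, C₀.d j := by
      refine Finset.sum_lt_sum (fun j _ => ?_) ⟨i, Finset.mem_univ i, ?_⟩
      · rcases eq_or_ne j i with rfl | hj
        · simp [C']
        · simp [C', Function.update_of_ne hj]
      · simp [C']; omega
    omega

variable (K) in
/-- combinations of the scaled basis -/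
def Candidate.SpanInfty (C₀ : Candidate K x n) (z : F) : Prop :=
  ∃ w : Fin n → K[X], ∑ i, aeval x⁻¹ (w i) * (x⁻¹ ^ C₀.d i * C₀.ω i) = z

theorem Candidate.spanInfty (hx : Transcendental K x) (C₀ : Candidate K x n)
    (hmin : ∀ C' : Candidate K x n, ∑ i, C₀.d i ≤ ∑ i, C'.d i) {z : F}
    (hz : IntOn K x⁻¹ z) : C₀.SpanInfty K z := by
  classical
  have hx0 : x ≠ 0 := (fun h => hx (h ▸ isAlgebraic_zero))
  obtain ⟨s, hs⟩ := exists_pow_mul_isIntegralElem (algebraMap K F) (x := x⁻¹) (xi := x)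
    (inv_mul_cancel₀ hx0) hz
  obtain ⟨v, hv⟩ := (C₀.basis.2 _).1 (hs : IntOn K x (x ^ s * z))
  obtain ⟨M, hM⟩ : ∃ M, ∀ i, (v i).natDegree + C₀.d i ≤ M :=
    ⟨∑ i, ((v i).natDegree + C₀.d i), fun i =>
      Finset.single_le_sum (f := fun i => (v i).natDegree + C₀.d i)
        (fun j _ => Nat.zero_le _) (Finset.mem_univ i)⟩
  have hspan : C₀.SpanInfty K (x⁻¹ ^ M * z) := by
    refine ⟨fun i => X ^ s * (v i).reflect (M - C₀.d i), ?_⟩
    have hz' : z = x⁻¹ ^ s * (x ^ s * z) := by
      rw [← mul_assoc, ← mul_pow, inv_mul_cancel₀ hx0, one_pow, one_mul]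
    conv_rhs => rw [hz', ← hv, ← mul_assoc, Finset.mul_sum]
    refine Finset.sum_congr rfl fun i _ => ?_
    rw [map_mul, map_pow, aeval_X, aeval_def, eval₂_reflect_mul (algebraMap K F) (x := x⁻¹) (xi := x)
      (inv_mul_cancel₀ hx0) _ _ (by have := hM i; omega), ← aeval_def]
    obtain ⟨r, hr⟩ := Nat.exists_eq_add_of_le' (show C₀.d i ≤ M by have := hM i; omega)
    rw [hr, Nat.add_sub_cancel, pow_add]
    ring
  clear hv hM hs
  induction M with
  | zero => simpa using hspan
  | succ m ih =>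
    apply ih
    obtain ⟨q, hq⟩ := hspan
    set q₀ : Fin n → K := fun i => (q i).coeff 0
    set q' : Fin n → K[X] := fun i => (q i).divX
    have hsplit : x⁻¹ ^ (m + 1) * z
        = x⁻¹ * ∑ i, aeval x⁻¹ (q' i) * (x⁻¹ ^ C₀.d i * C₀.ω i)
          + ∑ i, algebraMap K F (q₀ i) * (x⁻¹ ^ C₀.d i * C₀.ω i) := by
      rw [← hq, Finset.mul_sum, ← Finset.sum_add_distrib]
      refine Finset.sum_congr rfl fun i _ => ?_
      conv_lhs => rw [← X_mul_divX_add (q i)]
      simp only [map_add, map_mul, aeval_X, aeval_C, q₀, q']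
      ring
    have hzero : q₀ = 0 := by
      refine C₀.lead_injective hx hmin q₀ ?_
      have he : x * ∑ i, algebraMap K F (q₀ i) * (x⁻¹ ^ C₀.d i * C₀.ω i)
          = x⁻¹ ^ m * z - ∑ i, aeval x⁻¹ (q' i) * (x⁻¹ ^ C₀.d i * C₀.ω i) := by
        rw [eq_sub_iff_add_eq]
        calc x * ∑ i, algebraMap K F (q₀ i) * (x⁻¹ ^ C₀.d i * C₀.ω i)
              + ∑ i, aeval x⁻¹ (q' i) * (x⁻¹ ^ C₀.d i * C₀.ω i)
            = x * (x⁻¹ ^ (m + 1) * z) := by
              rw [hsplit, mul_add, ← mul_assoc, mul_inv_cancel₀ hx0, one_mul, add_comm]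
          _ = x⁻¹ ^ m * z := by
              rw [pow_succ]
              calc x * (x⁻¹ ^ m * x⁻¹ * z) = (x * x⁻¹) * (x⁻¹ ^ m * z) := by ring
                _ = _ := by rw [mul_inv_cancel₀ hx0, one_mul]
      rw [he]
      exact ((intOn_pow x⁻¹ m).mul hz).sub
        (intOn_sum _ _ fun i _ => (intOn_aeval _ _).mul (C₀.atInfty i))
    refine ⟨q', ?_⟩
    rw [hzero] at hsplit
    simp only [Pi.zero_apply, map_zero, zero_mul, Finset.sum_const_zero, add_zero] at hsplit
    have := congrArg (x * ·) hsplit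
    rw [← mul_assoc x x⁻¹, mul_inv_cancel₀ hx0, one_mul] at this
    rw [← this, pow_succ]
    calc x * (x⁻¹ ^ m * x⁻¹ * z) = (x * x⁻¹) * (x⁻¹ ^ m * z) := by ring
      _ = _ := by rw [mul_inv_cancel₀ hx0, one_mul]

theorem Candidate.natDegree_add_le (hx : Transcendental K x) (C₀ : Candidate K x n)
    (hmin : ∀ C' : Candidate K x n, ∑ i, C₀.d i ≤ ∑ i, C'.d i) (v : Fin n → K[X]) (m : ℕ)
    (h : IntOn K x⁻¹ (x⁻¹ ^ m * ∑ i, aeval x (v i) * C₀.ω i)) (i : Fin n) (hi : v i ≠ 0) :
    (v i).natDegree + C₀.d i ≤ m := by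
  classical
  have hx0 : x ≠ 0 := (fun h => hx (h ▸ isAlgebraic_zero))
  obtain ⟨w, hw⟩ := C₀.spanInfty hx hmin h
  obtain ⟨M, hM⟩ : ∃ M, ∀ i, (w i).natDegree + C₀.d i ≤ M :=
    ⟨∑ i, ((w i).natDegree + C₀.d i),
      fun i => Finset.single_le_sum (f := fun i => (w i).natDegree + C₀.d i)
        (fun j _ => Nat.zero_le _) (Finset.mem_univ i)⟩
  have h1 : ∑ l, aeval x ((w l).reflect (M - C₀.d l)) * C₀.ω l
      = x ^ M * (x⁻¹ ^ m * ∑ i, aeval x (v i) * C₀.ω i) := by
    rw [← hw, Finset.mul_sum]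
    refine Finset.sum_congr rfl fun l _ => ?_
    rw [aeval_def, eval₂_reflect_mul (algebraMap K F) (x := x) (xi := x⁻¹)
      (mul_inv_cancel₀ hx0) _ _ (by have := hM l; omega), ← aeval_def]
    obtain ⟨r, hr⟩ := Nat.exists_eq_add_of_le' (show C₀.d l ≤ M by have := hM l; omega)
    rw [hr, Nat.add_sub_cancel, pow_add]
    calc x ^ r * aeval x⁻¹ (w l) * C₀.ω l
        = x ^ r * aeval x⁻¹ (w l) * C₀.ω l * (x * x⁻¹) ^ C₀.d l := by
          rw [mul_inv_cancel₀ hx0, one_pow, mul_one]
      _ = _ := by ring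
  have h2 : ∑ l, aeval x (X ^ M * v l - X ^ m * (w l).reflect (M - C₀.d l)) * C₀.ω l = 0 := by
    simp only [map_sub, map_mul, map_pow, aeval_X, sub_mul, Finset.sum_sub_distrib, mul_assoc,
      ← Finset.mul_sum, h1]
    rw [sub_eq_zero]
    calc x ^ M * ∑ i, aeval x (v i) * C₀.ω i
        = (x * x⁻¹) ^ m * (x ^ M * ∑ i, aeval x (v i) * C₀.ω i) := by
          rw [mul_inv_cancel₀ hx0, one_pow, one_mul]
      _ = _ := by ring
  have h3 := congrFun (C₀.basis.1 _ h2) i
  simp only [Pi.zero_apply, sub_eq_zero] at h3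
  have h4 := congrArg natDegree h3
  rw [natDegree_X_pow_mul M hi] at h4
  have h5 : ((w i).reflect (M - C₀.d i)).natDegree ≤ M - C₀.d i :=
    (natDegree_reflect_le).trans (by have := hM i; omega)
  have h6 := h4.le.trans ((natDegree_mul_le).trans (add_le_add (natDegree_X_pow_le m) h5))
  have := hM i
  omega

variable (K F) in
set_option maxHeartbeats 400000 in
/-- a function field over an algebraically closed field of characteristic zero has a regular,
generating realization -/
theorem exists_realization [CharZero K] :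
    ∃ (n : ℕ) (D : SpreadData K n) (ρ : Realization D F), ρ.ι = algebraMap K F ∧
      Transcendental K ρ.x ∧ ρ.Regular ∧ ρ.Generates := by
  classical
  obtain ⟨x, hx, hfin⟩ := Curve.IsFunctionFieldOne.exists_transcendental_finite (K := K) (F := F)
  have hx0 : x ≠ 0 := (fun h => hx (h ▸ isAlgebraic_zero))
  have hxi : Transcendental K x⁻¹ := Curve.transcendental_inv hx
  have := Curve.finite_adjoin_of_transcendental (K := K) hxi
  obtain ⟨n, ω₀, hω₀, hDed₀, hgen⟩ := exists_isChartBasis (K := K) hx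
  obtain ⟨n₁, ω₁, -, hDed₁, -⟩ := exists_isChartBasis (K := K) hxi
  -- choose a minimal candidate
  have hex : ∃ N : ℕ, ∃ C₀ : Candidate K x n, ∑ i, C₀.d i = N := by
    have : ∀ i, ∃ s, IntOn K x⁻¹ (x⁻¹ ^ s * ω₀ i) := fun i => by
      refine exists_pow_mul_isIntegralElem (algebraMap K F) (mul_inv_cancel₀ hx0) ?_
      refine (hω₀.2 _).2 ⟨Pi.single i 1, ?_⟩
      rw [Finset.sum_eq_single i (fun l _ hl => by simp [Pi.single_eq_of_ne hl])
        (fun h => absurd (Finset.mem_univ i) h)]
      simp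
    choose s hs using this
    exact ⟨_, ⟨ω₀, s, hω₀, hs⟩, rfl⟩
  obtain ⟨C₁, hC₁⟩ := Nat.find_spec hex
  have hmin₁ : ∀ C' : Candidate K x n, ∑ i, C₁.d i ≤ ∑ i, C'.d i := fun C' =>
    hC₁.trans_le (Nat.find_le ⟨C', rfl⟩)
  -- the constant member
  obtain ⟨v, hv⟩ := (C₁.basis.2 1).1 (show IntOn K x 1 by simpa using intOn_algebraMap (K := K) x 1)
  have hvdeg : ∀ i, v i ≠ 0 → (v i).natDegree + C₁.d i ≤ 0 :=
    C₁.natDegree_add_le hx hmin₁ v 0 (by
      rw [hv, pow_zero, one_mul]; simpa using intOn_algebraMap (K := K) x⁻¹ 1)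
  obtain ⟨i₀, hi₀⟩ : ∃ i, v i ≠ 0 := by
    by_contra hall
    push Not at hall
    simp [hall] at hv
  have hd₀ : C₁.d i₀ = 0 := by have := hvdeg i₀ hi₀; omega
  have hconst : ∀ i, C₁.d i = 0 → ∃ c : K, C₁.ω i = algebraMap K F c := fun i hi =>
    exists_eq_const (C₁.intOn_ω i) (by simpa [hi] using C₁.atInfty i)
  obtain ⟨a₀, ha₀⟩ := hconst i₀ hd₀
  have hω_ne : ∀ i, C₁.ω i ≠ 0 := fun i hi => by
    have := C₁.basis.1 (Pi.single i 1) (by
      rw [Finset.sum_eq_single i (fun l _ hl => by simp [Pi.single_eq_of_ne hl])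
        (fun h => absurd (Finset.mem_univ i) h)]
      simp [hi])
    simpa using congrFun this i
  have ha₀0 : a₀ ≠ 0 := fun h => hω_ne i₀ (by rw [ha₀, h, map_zero])
  have hpos : ∀ i, i ≠ i₀ → 0 < C₁.d i := by
    intro i hi
    rcases Nat.eq_zero_or_pos (C₁.d i) with h | h
    · exfalso
      obtain ⟨b, hb⟩ := hconst i h
      have := C₁.basis.1 (Pi.single i (C a₀) - Pi.single i₀ (C b)) (by
        simp only [Pi.sub_apply, map_sub, sub_mul, Finset.sum_sub_distrib]
        rw [Finset.sum_eq_single i (fun l _ hl => by simp [Pi.single_eq_of_ne hl])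
          (fun h => absurd (Finset.mem_univ i) h), Finset.sum_eq_single i₀
          (fun l _ hl => by simp [Pi.single_eq_of_ne hl]) (fun h => absurd (Finset.mem_univ i₀) h)]
        simp [hb, ha₀, mul_comm])
      simpa [Pi.single_eq_of_ne hi, ha₀0] using congrFun this i
    · exact h
  set a : Fin n → K[X] := fun l => if l = i₀ then C a₀⁻¹ else 0 with ha
  have hw : ∑ l, aeval x (a l) * C₁.ω l = 1 := by
    rw [Finset.sum_eq_single i₀ (fun l _ hl => by simp [ha, hl])
      (fun h => absurd (Finset.mem_univ i₀) h)]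
    simp [ha, ha₀, ha₀0]
  let C₀ : Candidate K x n :=
    { ω := Function.update C₁.ω i₀ 1
      d := C₁.d
      basis := hw ▸ isChartBasis_update C₁.basis i₀ a (inv_ne_zero ha₀0) (by simp [ha])
      atInfty := fun j => by
        rcases eq_or_ne j i₀ with rfl | hj
        · simpa [Function.update_self, hd₀] using intOn_algebraMap (K := K) x⁻¹ 1
        · rw [Function.update_of_ne hj]; exact C₁.atInfty j }
  have hmin : ∀ C' : Candidate K x n, ∑ i, C₀.d i ≤ ∑ i, C'.d i := hmin₁
  have hone : C₀.ω i₀ = 1 := Function.update_self ..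
  -- structure constants
  have hprod : ∀ i j, ∃ c : Fin n → K[X], ∑ l, aeval x (c l) * C₀.ω l = C₀.ω i * C₀.ω j :=
    fun i j => (C₀.basis.2 _).1 ((C₀.intOn_ω i).mul (C₀.intOn_ω j))
  choose c hc using hprod
  have hcdeg : ∀ i j l, c i j l ≠ 0 → (c i j l).natDegree + C₀.d l ≤ C₀.d i + C₀.d j :=
    fun i j l hl => C₀.natDegree_add_le hx hmin (c i j) _ (by
      rw [hc, pow_add, mul_mul_mul_comm]; exact (C₀.atInfty i).mul (C₀.atInfty j)) l hl
  have hdeg' : ∀ i j l, (X ^ C₀.d l * c i j l).natDegree ≤ C₀.d i + C₀.d j := by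
    intro i j l
    by_cases hl : c i j l = 0
    · simp [hl]
    · rw [natDegree_X_pow_mul _ hl]; have := hcdeg i j l hl; omega
  let D : SpreadData K n :=
    { d := C₀.d
      i₀ := i₀
      d_zero := hd₀
      d_pos := hpos
      c := c
      c' := fun i j l => (X ^ C₀.d l * c i j l).reflect (C₀.d i + C₀.d j)
      natDegree_le := fun i j l => (natDegree_reflect_le).trans (max_le le_rfl (hdeg' i j l))
      reflect_eq := fun i j l => by
        ext m
        simp }
  let ρ : Realization D F :=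
    { ι := algebraMap K F
      x := x
      xi := x⁻¹
      x_mul_xi := mul_inv_cancel₀ hx0
      ω := C₀.ω
      chart₀ :=
        { indep := fun v hv => C₀.basis.1 v hv
          one := hone
          mul := fun i j => (hc i j).symm } }
  have hB₀ : ∀ z, z ∈ ρ.B₀ ↔ ((aeval x).toRingHom : K[X] →+* F).IsIntegralElem z :=
    fun z => (C₀.basis.2 z).symm
  have hB₁ : ∀ z, z ∈ ρ.B₁ ↔ ((aeval x⁻¹).toRingHom : K[X] →+* F).IsIntegralElem z := by
    intro z
    constructor
    · rintro ⟨w, rfl⟩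
      exact intOn_sum _ _ fun i _ => (intOn_aeval _ _).mul (C₀.atInfty i)
    · exact fun hz => C₀.spanInfty hx hmin hz
  have hG : ρ.Generates :=
    { unit := fun p hp => isUnit_aeval_of_transcendental hx hp
      gen := fun z => by
        obtain ⟨p, hp, hpz⟩ := hgen z
        exact ⟨p, hp, (hB₀ _).2 hpz⟩ }
  have : IsDedekindDomain ρ.B₀ := hDed₀ _ hB₀
  have : IsDedekindDomain ρ.B₁ := hDed₁ _ hB₁
  have hD0 : D.disc ≠ 0 := by
    intro hD
    have htm := ChartHyp.traceMatrix_basis ρ.chart₀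
    obtain ⟨u, hu, hTu⟩ := Matrix.exists_mulVec_eq_zero_iff.2
      (show (Algebra.traceMatrix K[X] ρ.chart₀.basis).det = 0 by rw [htm]; exact hD)
    set z : ρ.B₀ := ∑ l, u l • ρ.chart₀.basis l with hz
    have htr : ∀ y : ρ.B₀, Algebra.trace K[X] ρ.B₀ (y * z) = 0 := by
      intro y
      rw [← ρ.chart₀.basis.sum_repr y, Finset.sum_mul, map_sum]
      refine Finset.sum_eq_zero fun i _ => ?_
      rw [smul_mul_assoc, map_smul, hz, Finset.mul_sum, map_sum]
      have := congrFun hTu i
      simp only [Matrix.mulVec, dotProduct, Algebra.traceMatrix_apply, Algebra.traceForm_apply,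
        Pi.zero_apply] at this
      rw [show (∑ l, Algebra.trace K[X] ρ.B₀ (ρ.chart₀.basis i * u l • ρ.chart₀.basis l)) = 0 from ?_,
        smul_zero]
      rw [← this]
      refine Finset.sum_congr rfl fun l _ => ?_
      rw [mul_smul_comm, map_smul, smul_eq_mul, mul_comm]
    have hzne : (z : F) ≠ 0 := fun h => hu (by
      funext l
      have h0 : z = 0 := Subtype.ext h
      simpa [hz] using Fintype.linearIndependent_iff.1 ρ.chart₀.basis.linearIndependent u h0 l)
    obtain ⟨p, hp, hpz⟩ := hG.gen (z : F)⁻¹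
    have h := htr ⟨_, hpz⟩
    rw [show (⟨_, hpz⟩ : ρ.B₀) * z = algebraMap K[X] ρ.B₀ p from Subtype.ext (by
      show ρ.ξ₀ p * (z : F)⁻¹ * z = ρ.ξ₀ p
      rw [mul_assoc, inv_mul_cancel₀ hzne, mul_one]), Algebra.trace_algebraMap_of_basis ρ.chart₀.basis,
      Fintype.card_fin, nsmul_eq_mul] at h
    rcases mul_eq_zero.1 h with h | h
    · have hn : n = 0 := by exact_mod_cast h
      exact absurd i₀.2 (by omega)
    · exact hp h
  refine ⟨n, D, ρ, rfl, hx, ⟨⟨Units.mk0 _ (leadingCoeff_ne_zero.2 hD0), D.disc.roots,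
    (IsAlgClosed.splits D.disc).eq_prod_roots, fun a _ =>
      regAt_of_isDedekindDomain ρ.chart₀.basis a⟩,
    regAt_of_isDedekindDomain ρ.chart₁.basis 0⟩, hG⟩

end

end Fermat.Agent.S27
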