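/-
A regular generating realization is a function field of one variable whose genus is read off
from the exponents of the normal basis.
-/
import Fermat.Agent.S27.Glue
import Fermat.Agent.Curve.RiemannRochDuality
import Fermat.Agent.Curve.BasicInstances
import Mathlib.RingTheory.Polynomial.Basic

set_option autoImplicit false

namespace Fermat.Agent.S27

open Polynomial AlgebraicCurve
open scoped Polynomial IntermediateField

variable {k L : Type*} [Field k] [Field L] [Algebra k L] {n : ℕ} {D : SpreadData k n}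
  {ρ : Realization D L}

theorem Realization.ξ₀_eq_aeval (hι : ρ.ι = algebraMap k L) (p : k[X]) :
    ρ.ξ₀ p = aeval ρ.x p := by
  rw [ξ₀, hι]; rfl

theorem Realization.ξ₁_eq_aeval (hι : ρ.ι = algebraMap k L) (p : k[X]) :
    ρ.ξ₁ p = aeval ρ.xi p := by
  rw [ξ₁, hι]; rfl

omit [Algebra k L] in
theorem Realization.xi_eq (ρ : Realization D L) : ρ.xi = ρ.x⁻¹ :=
  (inv_eq_of_mul_eq_one_right ρ.x_mul_xi).symm

theorem Realization.Generates.transcendental (hG : ρ.Generates) (hι : ρ.ι = algebraMap k L) :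
    Transcendental k ρ.x :=
  transcendental_iff.2 fun p hp => by
    by_contra hne
    exact (hG.unit p hne).ne_zero (by rw [Realization.ξ₀_eq_aeval hι, hp])

theorem Realization.linearIndependent (hι : ρ.ι = algebraMap k L) :
    LinearIndependent k⟮ρ.x⟯ ρ.ω := by
  classical
  rw [Fintype.linearIndependent_iff]
  intro g hg i
  choose r s hrs using fun i => IntermediateField.mem_adjoin_simple_iff k (g i : L) |>.1 (g i).2
  by_contra hne
  -- replace vanishing denominators
  set s' : Fin n → k[X] := fun i => if aeval ρ.x (s i) = 0 then 1 else s i with hs'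
  set r' : Fin n → k[X] := fun i => if aeval ρ.x (s i) = 0 then 0 else r i with hr'
  have hs'0 : ∀ i, aeval ρ.x (s' i) ≠ 0 := fun i => by
    by_cases h : aeval ρ.x (s i) = 0
    · simp [hs', h]
    · simp [hs', h]
  have hg' : ∀ i, (g i : L) * aeval ρ.x (s' i) = aeval ρ.x (r' i) := fun i => by
    by_cases h : aeval ρ.x (s i) = 0
    · simp [hs', hr', h, hrs i]
    · simp [hs', hr', h, hrs i]
  have hv : ∑ i, ρ.ξ₀ (r' i * ∏ j ∈ Finset.univ.erase i, s' j) * ρ.ω i = 0 := by
    calc ∑ i, ρ.ξ₀ (r' i * ∏ j ∈ Finset.univ.erase i, s' j) * ρ.ω i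
        = ∑ i, (∏ j, aeval ρ.x (s' j)) * ((g i : L) * ρ.ω i) := by
          refine Finset.sum_congr rfl fun i _ => ?_
          rw [Realization.ξ₀_eq_aeval hι, map_mul, map_prod, ← hg' i,
            ← Finset.mul_prod_erase _ _ (Finset.mem_univ i)]
          ring
      _ = 0 := by
          rw [← Finset.mul_sum]
          refine mul_eq_zero_of_right _ ?_
          simpa [IntermediateField.smul_def] using hg
  have h0 := congrFun (ρ.chart₀.indep _ hv) i
  rcases mul_eq_zero.1 h0 with h | h
  · have := hg' i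
    rw [h, map_zero, mul_eq_zero] at this
    exact hne (Subtype.ext (this.resolve_right (hs'0 i)))
  · obtain ⟨j, -, hj⟩ := Finset.prod_eq_zero_iff.1 h
    exact hs'0 j (by rw [hj, map_zero])

theorem Realization.Generates.span_eq_top (hG : ρ.Generates) (hι : ρ.ι = algebraMap k L) :
    ⊤ ≤ Submodule.span k⟮ρ.x⟯ (Set.range ρ.ω) := by
  intro z _
  obtain ⟨p, hp, hmem⟩ := hG.gen z
  obtain ⟨v, hv⟩ := ρ.chart₀.mem_ring.1 hmem
  have hp0 : ρ.ξ₀ p ≠ 0 := (hG.unit p hp).ne_zero
  have hin : ∀ q : k[X], ρ.ξ₀ q ∈ k⟮ρ.x⟯ := fun q => by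
    rw [Realization.ξ₀_eq_aeval hι]
    exact IntermediateField.algebra_adjoin_le_adjoin k _ (aeval_mem_adjoin_singleton k ρ.x)
  have hz : z = ∑ i, (⟨(ρ.ξ₀ p)⁻¹ * ρ.ξ₀ (v i),
      mul_mem (inv_mem (hin p)) (hin _)⟩ : k⟮ρ.x⟯) • ρ.ω i := by
    simp only [IntermediateField.smul_def, smul_eq_mul, mul_assoc, ← Finset.mul_sum]
    rw [show ∑ i, ρ.ξ₀ (v i) * ρ.ω i = ρ.ξ₀ p * z from hv, ← mul_assoc, inv_mul_cancel₀ hp0,
      one_mul]
  rw [hz]
  exact Submodule.sum_mem _ fun i _ =>
    Submodule.smul_mem _ _ (Submodule.subset_span (Set.mem_range_self i))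

theorem Realization.Generates.finite (hG : ρ.Generates) (hι : ρ.ι = algebraMap k L) :
    Module.Finite k⟮ρ.x⟯ L :=
  Module.Finite.of_basis (Module.Basis.mk (ρ.linearIndependent hι) (hG.span_eq_top hι))

theorem Realization.Generates.finrank_eq (hG : ρ.Generates) (hι : ρ.ι = algebraMap k L) :
    Module.finrank k⟮ρ.x⟯ L = n :=
  (Module.finrank_eq_card_basis (Module.Basis.mk (ρ.linearIndependent hι)
    (hG.span_eq_top hι))).trans (Fintype.card_fin n)

theorem Realization.Generates.isFunctionFieldOne (hG : ρ.Generates) (hι : ρ.ι = algebraMap k L) :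
    Curve.IsFunctionFieldOne k L :=
  haveI := hG.finite hι
  Curve.IsFunctionFieldOne.of_finite (hG.transcendental hι)

theorem ChartHyp.isIntegralElem_of_mem {S R : Type*} [CommRing S] [CommRing R] {m : ℕ}
    {ξ : S →+* R} {e : Fin m → R} {c : Fin m → Fin m → Fin m → S} {i₀ : Fin m}
    (h : ChartHyp ξ e c i₀) {z : R} (hz : z ∈ h.ring) : ξ.IsIntegralElem z := by
  have : Module.Finite S h.ring := Module.Finite.of_basis h.basis
  obtain ⟨Q, hQ, hQz⟩ := Algebra.IsIntegral.isIntegral (R := S) (⟨z, hz⟩ : h.ring)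
  refine ⟨Q, hQ, ?_⟩
  have := congrArg h.ring.subtype hQz
  rwa [hom_eval₂, map_zero] at this

variable [IsAlgClosed k] [Curve.IsFunctionFieldOne k L]

theorem isIntegralElem_of_forall_ord_nonneg {x f : L}
    (hf : ∀ v : Place k L, 0 ≤ v.ord x → f ∈ v.toValuationSubring) :
    ((aeval x).toRingHom : k[X] →+* L).IsIntegralElem f := by
  set T : Subalgebra k L := Algebra.adjoin k {x}
  set C := (integralClosure T L).toSubring
  by_contra hne
  have hnot : f ∉ C := by
    rintro ⟨Q, hQ, hQf⟩
    let ψ : k[X] →+* T := ((aeval x).codRestrict T fun p => aeval_mem_adjoin_singleton k x).toRingHom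
    have hψ : Function.Surjective ψ := by
      rintro ⟨a, ha⟩
      rw [show T = Algebra.adjoin k ({x} : Set L) from rfl,
        Algebra.adjoin_singleton_eq_range_aeval] at ha
      obtain ⟨p, rfl⟩ := ha
      exact ⟨p, rfl⟩
    obtain ⟨Q', hQ', -, hQ'm⟩ := lifts_and_degree_eq_and_monic (Polynomial.map_surjective ψ hψ Q) hQ
    rw [← hQ', eval₂_map] at hQf
    exact hne ⟨Q', hQ'm, hQf⟩
  have : IsIntegrallyClosedIn C L := by
    rw [Subring.isIntegrallyClosedIn_iff]
    intro y hy
    exact isIntegral_trans (R := T) (A := integralClosure T L) y hy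
  obtain ⟨V, hCV, hfV⟩ := C.exists_le_valuationSubring_of_isIntegrallyClosedIn hnot
  have hV : ∀ a : k, algebraMap k L a ∈ V := fun a =>
    hCV (isIntegral_algebraMap (R := T) (x := ⟨algebraMap k L a, T.algebraMap_mem a⟩))
  have hxV : x ∈ V := hCV (isIntegral_algebraMap (R := T) (A := L)
    (x := ⟨x, Algebra.self_mem_adjoin_singleton k x⟩))
  have hft : Transcendental k f := fun halg => by
    obtain ⟨c, hc⟩ := minpoly.mem_range_of_degree_eq_one k f
      (IsAlgClosed.degree_eq_one_of_irreducible k (minpoly.irreducible halg.isIntegral))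
    exact hfV (hc ▸ hV c)
  have hfn : f⁻¹ ∈ V.nonunits := V.inv_mem_nonunits_iff.2 (Or.inr hfV)
  let v : Place k L :=
    { toValuationSubring := V
      algebraMap_mem' := hV
      ne_top' := fun h => hfV (h ▸ ValuationSubring.mem_top _)
      isPrincipalIdealRing' := Curve.isPrincipalIdealRing_of_mem_nonunits
        (Curve.transcendental_inv hft) V hV hfn }
  exact hfV (hf v (Curve.ord_nonneg_of_mem v hxV))

omit [IsAlgClosed k] [Curve.IsFunctionFieldOne k L] in
theorem mem_of_intOn {v : Place k L} {y z : L} (hy : 0 ≤ v.ord y)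
    (hz : ((aeval y).toRingHom : k[X] →+* L).IsIntegralElem z) : z ∈ v.toValuationSubring := by
  obtain ⟨Q, hQ, hQz⟩ := hz
  have : IsIntegral v.toValuationSubring z := by
    refine ⟨Q.map ((aeval y).toRingHom.codRestrict v.toValuationSubring.toSubring
      fun p => Curve.aeval_mem v hy p), hQ.map _, ?_⟩
    rw [eval₂_map]
    exact hQz
  obtain ⟨w, rfl⟩ := IsIntegrallyClosed.algebraMap_eq_of_integral this
  exact w.2

namespace Realization

variable (ρ) in
/-- the family of bounded coordinates -/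
noncomputable def boundedSum (m : ℕ) :
    ((i : Fin n) → Polynomial.degreeLT k (m + 1 - D.d i)) →ₗ[k] L :=
  ∑ i, (LinearMap.mulRight k (ρ.ω i)).comp
    ((aeval ρ.x).toLinearMap.comp ((Polynomial.degreeLT k (m + 1 - D.d i)).subtype.comp
      (LinearMap.proj i)))

omit [IsAlgClosed k] [Curve.IsFunctionFieldOne k L] in
theorem boundedSum_apply (m : ℕ) (v : (i : Fin n) → Polynomial.degreeLT k (m + 1 - D.d i)) :
    ρ.boundedSum m v = ∑ i, aeval ρ.x (v i : k[X]) * ρ.ω i := by
  simp [boundedSum]

theorem mem_poles_iff (H : ρ.Regular) (hG : ρ.Generates) (hι : ρ.ι = algebraMap k L) (m : ℕ)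
    (f : L) :
    f ∈ riemannRochSpace (m • Curve.poleDivisor k ρ.x) ↔
      f ∈ LinearMap.range (ρ.boundedSum m) := by
  classical
  have hx0 : ρ.x ≠ 0 := fun h => hG.transcendental hι (h ▸ isAlgebraic_zero)
  have hxi : ρ.ξ₁ = ((aeval ρ.xi).toRingHom : k[X] →+* L) := RingHom.ext (ξ₁_eq_aeval hι)
  have hx : ρ.ξ₀ = ((aeval ρ.x).toRingHom : k[X] →+* L) := RingHom.ext (ξ₀_eq_aeval hι)
  have hP : ∀ v : Place k L, (m • Curve.poleDivisor k ρ.x) v = m * max (-(v.ord ρ.x)) 0 :=
    fun v => by simp
  rw [mem_riemannRochSpace_iff]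
  constructor
  · intro hf
    have h0 : ((aeval ρ.x).toRingHom : k[X] →+* L).IsIntegralElem f := by
      refine isIntegralElem_of_forall_ord_nonneg fun v hv => Curve.mem_of_ord_nonneg v ?_
      rcases hf v with h | h
      · simp [h]
      · rw [hP, max_eq_right (by omega), mul_zero] at h; omega
    have h1 : ((aeval ρ.xi).toRingHom : k[X] →+* L).IsIntegralElem (ρ.xi ^ m * f) := by
      refine isIntegralElem_of_forall_ord_nonneg fun v hv => Curve.mem_of_ord_nonneg v ?_
      rw [ρ.xi_eq, v.ord_inv] at hv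
      rcases hf v with h | h
      · simp [h]
      · rcases eq_or_ne f 0 with hf0 | hf0
        · simp [hf0]
        rw [hP, max_eq_left (by omega)] at h
        rw [v.ord_mul (pow_ne_zero _ (by rw [ρ.xi_eq]; exact inv_ne_zero hx0)) hf0, ρ.xi_eq,
          Curve.ord_pow, v.ord_inv]
        linarith
    rw [← hx] at h0
    rw [← hxi] at h1
    obtain ⟨v, hv⟩ := ρ.chart₀.mem_ring.1 (mem_B₀_of_isIntegralElem H hG h0)
    have hmem := mem_B₁_of_isIntegralElem H hG h1
    rw [← hv] at hmem
    have hdeg := fun i => natDegree_add_le_of_mem ρ v m hmem i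
    refine ⟨fun i => ⟨v i, ?_⟩, ?_⟩
    · rw [Polynomial.mem_degreeLT]
      by_cases hvi : v i = 0
      · rw [hvi, degree_zero]; exact WithBot.bot_lt_coe _
      · have := hdeg i hvi
        exact lt_of_le_of_lt degree_le_natDegree (by exact_mod_cast (by omega))
    · rw [boundedSum_apply, ← hv]
      exact Finset.sum_congr rfl fun i _ => by
        rw [hι]; rfl
  · rintro ⟨v, rfl⟩ P
    by_cases hsum : ρ.boundedSum m v = 0
    · exact Or.inl hsum
    refine Or.inr ?_
    rw [hP]
    rcases le_or_gt 0 (P.ord ρ.x) with hP0 | hP0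
    · rw [max_eq_right (by omega), mul_zero, neg_zero]
      refine Curve.ord_nonneg_of_mem P (mem_of_intOn hP0 ?_)
      rw [← hx]
      refine ρ.chart₀.isIntegralElem_of_mem ⟨fun i => (v i : k[X]), ?_⟩
      rw [boundedSum_apply, hι]; rfl
    · rw [max_eq_left (by omega)]
      have hxiP : 0 ≤ P.ord ρ.xi := by rw [ρ.xi_eq, P.ord_inv]; omega
      have hmem : ρ.xi ^ m * ρ.boundedSum m v ∈ P.toValuationSubring := by
        refine mem_of_intOn hxiP ?_
        rw [← hxi]
        refine ρ.chart₁.isIntegralElem_of_mem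
          ⟨fun i => (v i : k[X]).reflect (m - D.d i), ?_⟩
        rw [boundedSum_apply, Finset.mul_sum]
        refine Finset.sum_congr rfl fun i _ => ?_
        by_cases hvi : (v i : k[X]) = 0
        · simp [hvi]
        · have hd := (natDegree_lt_iff_degree_lt hvi).2 (Polynomial.mem_degreeLT.1 (v i).2)
          rw [ρ.ξ₁_reflect _ _ (by omega), e, ξ₀_eq_aeval hι]
          rw [show ρ.xi ^ m = ρ.xi ^ (m - D.d i) * ρ.xi ^ D.d i by
            rw [← pow_add]; congr 1; omega]
          ring
      have := Curve.ord_nonneg_of_mem P hmem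
      rw [P.ord_mul (pow_ne_zero _ (by rw [ρ.xi_eq]; exact inv_ne_zero hx0)) hsum, ρ.xi_eq,
        Curve.ord_pow, P.ord_inv] at this
      linarith

/-- the genus is read off from the exponents -/
theorem genus_eq (H : ρ.Regular) (hG : ρ.Generates) (hι : ρ.ι = algebraMap k L) :
    (genusFF k L : ℤ) = ∑ i, (D.d i : ℤ) - n + 1 := by
  classical
  set P := Curve.poleDivisor k ρ.x with hP
  have hdegP : Divisor.degree P = (n : ℤ) := by
    rw [hP, Curve.degree_poleDivisor (hG.transcendental hι), hG.finrank_eq hι]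
  have hn : 0 < n := Fin.pos D.i₀
  set m := (∑ i, D.d i) + 2 * genusFF k L with hm
  have hdi : ∀ i, D.d i ≤ m := fun i =>
    (Finset.single_le_sum (f := D.d) (fun j _ => Nat.zero_le _) (Finset.mem_univ i)).trans
      (Nat.le_add_right _ _)
  have hinj : Function.Injective (ρ.boundedSum m) := by
    rw [injective_iff_map_eq_zero]
    intro v hv
    rw [boundedSum_apply] at hv
    have := ρ.chart₀.indep (fun i => (v i : k[X])) (by rw [hι]; exact hv)
    funext i
    exact Subtype.ext (congrFun this i)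
  have hspace : riemannRochSpace (m • P) = LinearMap.range (ρ.boundedSum m) :=
    Submodule.ext (mem_poles_iff H hG hι m)
  have hfin : ∀ i : Fin n, Module.Finite k (Polynomial.degreeLT k (m + 1 - D.d i)) := fun i =>
    Module.Finite.equiv (Polynomial.degreeLTEquiv k _).symm
  have hdim : Curve.ellDim (m • P) = ∑ i, (m + 1 - D.d i) := by
    show Module.finrank k (riemannRochSpace (m • P)) = _
    rw [hspace, LinearMap.finrank_range_of_inj hinj, Module.finrank_pi_fintype]
    exact Finset.sum_congr rfl fun i _ => by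
      rw [(Polynomial.degreeLTEquiv k _).finrank_eq, Module.finrank_fin_fun]
  have hdeg : Divisor.degree (m • P) = (m : ℤ) * n := by
    rw [map_nsmul, hdegP, nsmul_eq_mul]
  have hRR := Curve.ellDim_eq_of_degree_ge (K := k) (D := m • P) (by
    rw [hdeg]
    calc 2 * (genusFF k L : ℤ) - 1 ≤ (m : ℤ) * 1 := by rw [hm]; push_cast; linarith [Finset.sum_nonneg (s := Finset.univ) (f := fun i => (D.d i : ℤ)) (fun i _ => by positivity)]
      _ ≤ (m : ℤ) * n := by gcongr; exact_mod_cast hn)
  rw [hdim, hdeg] at hRR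
  have hsum : ((∑ i, (m + 1 - D.d i) : ℕ) : ℤ) = (m + 1 : ℤ) * n - ∑ i, (D.d i : ℤ) := by
    rw [Nat.cast_sum]
    rw [Finset.sum_congr rfl (fun i _ => show ((m + 1 - D.d i : ℕ) : ℤ) = (m + 1 : ℤ) - D.d i by
      have := hdi i; omega), Finset.sum_sub_distrib, Finset.sum_const, Finset.card_univ,
      Fintype.card_fin, nsmul_eq_mul]
    ring
  rw [hsum] at hRR
  linarith

end Realization

end Fermat.Agent.S27
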