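/-
Specialisation of a chart: the ring over the new fraction field.
-/
import Fermat.Agent.S27.Glue
import Mathlib.RingTheory.TensorProduct.Free
import Mathlib.FieldTheory.RatFunc.AsPolynomial

set_option autoImplicit false

namespace Fermat.Agent.S27

open Polynomial TensorProduct
open scoped Polynomial

/-- the type `E`, seen as an algebra along `φ` -/
def Along {S E : Type*} [CommRing S] [Field E] (_φ : S →+* E) : Type _ := E

instance {S E : Type*} [CommRing S] [Field E] (φ : S →+* E) : Field (Along φ) :=
  inferInstanceAs (Field E)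

instance {S E : Type*} [CommRing S] [Field E] (φ : S →+* E) : Algebra S (Along φ) :=
  RingHom.toAlgebra φ

universe uS uE uL

variable {S : Type uS} {E : Type uE} {L : Type uL} [CommRing S] [Field E] [CommRing L] {n : ℕ} {ξ : S →+* L}
  {e : Fin n → L} {c : Fin n → Fin n → Fin n → S} {i₀ : Fin n}

theorem exists_baseChange (h : ChartHyp ξ e c i₀) (φ : S →+* E) :
    ∃ (L' : Type (max uE uL)) (_ : CommRing L') (ψ : E →+* L') (e' : Fin n → L'),
      ChartHyp ψ e' (fun i j l => φ (c i j l)) i₀ ∧
        ∀ z : L', ∃ v : Fin n → E, ∑ i, ψ (v i) * e' i = z := by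
  classical
  let M := Along φ ⊗[S] h.ring
  let bb : Module.Basis (Fin n) (Along φ) M := Algebra.TensorProduct.basis (Along φ) h.basis
  let ψ : E →+* M := (Algebra.TensorProduct.includeLeftRingHom : Along φ →+* M)
  have hbb : ∀ i, bb i = (1 : Along φ) ⊗ₜ[S] h.basis i := fun i =>
    Algebra.TensorProduct.basis_apply h.basis i
  have hψ : ∀ (a : E) (m : M), ψ a * m = (show Along φ from a) • m := fun a m => by
    rw [Algebra.smul_def]; rfl
  refine ⟨M, inferInstance, ψ, fun i => bb i, ⟨fun v hv => ?_, ?_, fun i j => ?_⟩, fun z => ?_⟩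
  · simp only [hψ] at hv
    funext i
    exact Fintype.linearIndependent_iff.1 bb.linearIndependent (fun i => v i) hv i
  · show bb i₀ = 1
    rw [hbb, Algebra.TensorProduct.one_def]
    congr 1
    exact Subtype.ext (by rw [ChartHyp.coe_basis, h.one]; rfl)
  · show bb i * bb j = _
    rw [hbb, hbb, Algebra.TensorProduct.tmul_mul_tmul, one_mul, h.basis_mul, TensorProduct.tmul_sum]
    refine Finset.sum_congr rfl fun l _ => ?_
    rw [hψ, hbb, TensorProduct.tmul_smul, TensorProduct.smul_tmul', TensorProduct.smul_tmul']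
    congr 1
  · refine ⟨fun i => bb.repr z i, ?_⟩
    exact (Finset.sum_congr rfl fun i _ => hψ _ _).trans (bb.sum_repr z)

end Fermat.Agent.S27
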