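/-
A regular realization with coefficients in a valuation subring of the constants gives good
reduction.
-/
import Fermat.Agent.S27.Residual
import Fermat.Agent.S27.Genus
import Fermat.Agent.Curve.Setup
import Mathlib.RingTheory.Valuation.ValuationSubring

set_option autoImplicit false

namespace Fermat.Agent.S27

open Polynomial AlgebraicCurve
open scoped Polynomial IntermediateField

universe uK uF uk uR

theorem exists_primitive_scale {K : Type*} [Field K] (A : ValuationSubring K) {ι : Type*}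
    [Finite ι] (p : ι → K[X]) {i₀ : ι} (hp : p i₀ ≠ 0) :
    ∃ (c : K) (q : ι → A[X]), c ≠ 0 ∧ (∀ i, (q i).map A.subtype = C c * p i) ∧
      ∃ i j, IsUnit ((q i).coeff j) := by
  classical
  have := Fintype.ofFinite ι
  obtain ⟨⟨i, j⟩, hij, hmax⟩ := Finset.exists_max_image
    (Finset.univ.sigma fun i => (p i).support) (fun ij => A.valuation ((p ij.1).coeff ij.2))
    ⟨⟨i₀, (p i₀).natDegree⟩, Finset.mem_sigma.2 ⟨Finset.mem_univ _, natDegree_mem_support_of_nonzero hp⟩⟩
  simp only [Finset.mem_sigma, Finset.mem_univ, true_and, mem_support_iff] at hij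
  set c := ((p i).coeff j)⁻¹ with hc
  have hc0 : c ≠ 0 := inv_ne_zero hij
  have hmem : ∀ i' j', c * (p i').coeff j' ∈ A := by
    intro i' j'
    rw [← A.valuation_le_one_iff, map_mul, hc, map_inv₀]
    by_cases h0 : (p i').coeff j' = 0
    · simp [h0]
    · have h := hmax ⟨i', j'⟩ (by simp [h0])
      exact inv_mul_le_one_of_le₀ h zero_le
  have hlift : ∀ i', ∃ q : A[X], q.map A.subtype = C c * p i' := fun i' =>
    (mem_lifts _).1 ((lifts_iff_coeff_lifts _).2 fun j' => ⟨⟨_, hmem i' j'⟩, by simp⟩)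
  choose q hq using hlift
  refine ⟨c, q, hc0, hq, i, j, ?_⟩
  have h1 : (q i).coeff j = 1 := Subtype.ext (by
    have := congrArg (fun r => coeff r j) (hq i)
    simpa [hc, inv_mul_cancel₀ hij] using this)
  rw [h1]; exact isUnit_one

theorem ker_eq_maximalIdeal {A k : Type*} [CommRing A] [IsLocalRing A] [Field k] (π : A →+* k)
    (hπ : Function.Surjective π) {a : A} : π a = 0 ↔ ¬ IsUnit a := by
  rw [← RingHom.mem_ker, IsLocalRing.eq_maximalIdeal (RingHom.ker_isMaximal_of_surjective π hπ),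
    IsLocalRing.mem_maximalIdeal, mem_nonunits_iff]

variable {K : Type uK} [Field K] [IsAlgClosed K] {F : Type uF} [Field F] [Algebra K F]
  [Curve.IsFunctionFieldOne K F]

set_option maxHeartbeats 1000000 in
/-- good reduction at every valuation subring containing the coefficients -/
theorem exists_goodReduction {n : ℕ} {D : SpreadData K n} {ρ : Realization D F}
    (hι : ρ.ι = algebraMap K F) (H : ρ.Regular) (hG : ρ.Generates)
    {R : Subring K} {D' : SpreadData R n} {ρ' : Realization D' F}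
    (hD : D'.map R.subtype = D) (H' : ρ'.Regular)
    (A : ValuationSubring K) (hRA : R ≤ A.toSubring)
    {k : Type uk} [Field k] [IsAlgClosed k] (π : A →+* k) (hπ : Function.Surjective π) :
    ∃ (Fb : Type (max uk uF)) (_ : Field Fb) (_ : Algebra k Fb)
      (_ : Curve.GoodReduction A F k Fb), Curve.IsFunctionFieldOne k Fb := by
  classical
  set incl : R →+* A := Subring.inclusion hRA with hincl
  set DA := D'.map incl with hDA
  have hcA : ∀ i j l, (DA.c i j l).map A.subtype = D.c i j l := by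
    intro i j l
    rw [← hD]
    show (((D'.c i j l).map incl).map A.subtype) = (D'.c i j l).map R.subtype
    rw [Polynomial.map_map]; rfl
  have hev : ∀ (q : A[X]) (y : F),
      eval₂ (ρ.ι.comp A.subtype) y q = eval₂ ρ.ι y (q.map A.subtype) := fun q y => by
    rw [eval₂_map]
  have hd : D'.d = D.d := by rw [← hD]; rfl
  have hi₀ : D'.i₀ = D.i₀ := by rw [← hD]; rfl
  let ρA : Realization DA F :=
    { ι := ρ.ι.comp A.subtype
      x := ρ.x
      xi := ρ.xi
      x_mul_xi := ρ.x_mul_xi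
      ω := ρ.ω
      chart₀ :=
        { indep := fun v hv => by
            simp only [coe_eval₂RingHom, hev] at hv
            funext i
            exact map_injective A.subtype A.subtype_injective (by
              rw [Pi.zero_apply, Polynomial.map_zero]
              exact congrFun (ρ.chart₀.indep (fun i => (v i).map A.subtype) hv) i)
          one := by
            show ρ.ω D'.i₀ = 1
            rw [hi₀]; exact ρ.chart₀.one
          mul := fun i j => by
            rw [ρ.chart₀.mul]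
            refine Finset.sum_congr rfl fun l _ => ?_
            simp only [coe_eval₂RingHom, hev, hcA] } }
  have HA : ρA.Regular := Realization.Regular.map ρ' H'
  -- the special fibre
  let φ : A[X] →+* RatFunc k := (algebraMap k[X] (RatFunc k)).comp (mapRingHom π)
  obtain ⟨L, iL, ψ, ē, hL, hspan⟩ := exists_baseChange ρA.chart₀ φ
  let ιk : k →+* L := ψ.comp (algebraMap k (RatFunc k))
  have hψeval : ∀ p : k[X], eval₂RingHom ιk (ψ RatFunc.X) p = ψ (algebraMap k[X] (RatFunc k) p) := by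
    intro p
    refine RingHom.congr_fun (g := ψ.comp (algebraMap k[X] (RatFunc k))) ?_ p
    refine Polynomial.ringHom_ext (fun a => ?_) ?_
    · simp [ιk, RatFunc.algebraMap_C]
    · simp [RatFunc.algebraMap_X]
  let ρk : Realization (DA.map π) L :=
    { ι := ιk
      x := ψ RatFunc.X
      xi := ψ RatFunc.X⁻¹
      x_mul_xi := by rw [← map_mul, mul_inv_cancel₀ RatFunc.X_ne_zero, map_one]
      ω := ē
      chart₀ :=
        { indep := fun v hv => by
            simp only [hψeval] at hv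
            funext i
            have := congrFun (hL.indep _ hv) i
            exact RatFunc.algebraMap_injective k (by rw [Pi.zero_apply, map_zero]; exact this)
          one := hL.one
          mul := fun i j => by
            rw [hL.mul]
            exact Finset.sum_congr rfl fun l _ => by rw [hψeval]; rfl } }
  have Hk : ρk.Regular := Realization.Regular.map ρA HA
  have hξk : ∀ p, ρk.ξ₀ p = ψ (algebraMap k[X] (RatFunc k) p) := hψeval
  have hGk : ρk.Generates :=
    { unit := fun p hp => by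
        rw [hξk]
        exact ((isUnit_iff_ne_zero.2 (RatFunc.algebraMap_ne_zero hp)).map ψ)
      gen := fun z => by
        obtain ⟨v, hv⟩ := hspan z
        refine ⟨∏ i, (v i).denom, Finset.prod_ne_zero_iff.2 fun i _ => (v i).denom_ne_zero,
          fun i => (v i).num * ∏ j ∈ Finset.univ.erase i, (v j).denom, ?_⟩
        rw [← hv, Finset.mul_sum]
        refine Finset.sum_congr rfl fun i _ => ?_
        rw [hξk, ← mul_assoc, ← map_mul]
        show ρk.ξ₀ _ * _ = _
        rw [hξk]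
        congr 2
        conv_rhs => rw [← Finset.mul_prod_erase _ _ (Finset.mem_univ i), map_mul]
        conv_rhs => arg 2; rw [← RatFunc.num_div_denom (v i)]
        rw [map_mul]
        have h0 : algebraMap k[X] (RatFunc k) (v i).denom ≠ 0 :=
          RatFunc.algebraMap_ne_zero (v i).denom_ne_zero
        field_simp }
  have : Nontrivial L := by
    refine ⟨⟨0, 1, fun h01 => ?_⟩⟩
    have : ∀ w : L, w = 0 := fun w => by rw [← mul_one w, ← h01, mul_zero]
    have := congrFun (hL.indep (fun _ => 1) (this _)) D'.i₀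
    exact one_ne_zero this
  let : Field L := (Realization.isField Hk hGk).toField
  let : Algebra k L := ρk.ι.toAlgebra
  have hιk : ρk.ι = algebraMap k L := rfl
  -- reduction on the chart
  let Φ : ρA.B₀ →+* L :=
    ρk.B₀.subtype.comp (ρA.chart₀.map ρk.chart₀ (mapRingHom π) fun i j l => rfl)
  have hΦξ : ∀ q : A[X], Φ (algebraMap A[X] ρA.B₀ q) = ρk.ξ₀ (q.map π) := fun q =>
    (congrArg Subtype.val (ρA.chart₀.map_algebraMap ρk.chart₀ (mapRingHom π)
      (fun i j l => rfl) q)).trans rfl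
  have hΦsum : ∀ b : ρA.B₀, Φ b = ∑ i, ρk.ξ₀ ((ρA.chart₀.basis.repr b i).map π) * ρk.ω i :=
    fun b => rfl
  have hξA : ∀ q : A[X], ρA.ξ₀ q = ρ.ξ₀ (q.map A.subtype) := fun q => hev q ρ.x
  have hξA0 : ∀ q : A[X], q.map π ≠ 0 → ρA.ξ₀ q ≠ 0 := by
    intro q hq
    rw [hξA]
    refine (hG.unit _ fun h => hq ?_).ne_zero
    rw [(Polynomial.map_eq_zero_iff Subtype.val_injective).1 h, Polynomial.map_zero]
  -- units
  have hunit : ∀ b : ρA.B₀, Φ b ≠ 0 →
      ∃ q : A[X], q.map π ≠ 0 ∧ ∃ b' : ρA.B₀, b * b' = algebraMap A[X] ρA.B₀ q := by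
    intro b hb
    set P : A[X][X] := (Algebra.leftMulMatrix ρA.chart₀.basis b).charpoly with hP
    have h0 : aeval b P = 0 := by
      apply Algebra.leftMulMatrix_injective ρA.chart₀.basis
      rw [map_zero, ← aeval_algHom_apply, hP, Matrix.aeval_self_charpoly]
    obtain ⟨h, hh⟩ : X ∣ P - C (P.coeff 0) := by
      rw [X_dvd_iff]; simp
    refine ⟨P.coeff 0, ?_, -aeval b h, ?_⟩
    · intro hq
      set Mk := (Algebra.leftMulMatrix ρA.chart₀.basis b).map (mapRingHom π) with hMk
      have hdet : Mk.det = 0 := by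
        rw [hMk, ← RingHom.mapMatrix_apply, ← RingHom.map_det,
          Matrix.det_eq_sign_charpoly_coeff, ← hP, map_mul, coe_mapRingHom, hq, mul_zero]
      obtain ⟨v, hv, hMv⟩ := Matrix.exists_mulVec_eq_zero_iff.2 hdet
      have hzero : Φ b * ∑ j, ρk.ξ₀ (v j) * ρk.ω j = 0 := by
        have hcol : ∀ j, Φ b * ρk.ω j = ∑ l, ρk.ξ₀ (Mk l j) * ρk.ω l := by
          intro j
          have h1 : ρk.ω j = Φ (ρA.chart₀.basis j) := by
            exact ((congrArg Subtype.val (ρA.chart₀.map_basis ρk.chart₀ (mapRingHom π)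
              (fun i j l => rfl) j)).trans (ρk.chart₀.coe_basis j)).symm
          rw [h1, ← map_mul, hΦsum]
          refine Finset.sum_congr rfl fun l _ => ?_
          rw [hMk, Matrix.map_apply, Algebra.leftMulMatrix_eq_repr_mul]
          rfl
        rw [Finset.mul_sum]
        calc ∑ j, Φ b * (ρk.ξ₀ (v j) * ρk.ω j)
            = ∑ l, ρk.ξ₀ (Matrix.mulVec Mk v l) * ρk.ω l := by
              simp only [mul_left_comm (Φ b), hcol, Finset.mul_sum, Matrix.mulVec, dotProduct,
                map_sum, map_mul, Finset.sum_mul]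
              rw [Finset.sum_comm]
              refine Finset.sum_congr rfl fun l _ => Finset.sum_congr rfl fun j _ => ?_
              ring
          _ = 0 := by simp [hMv]
      exact hv (ρk.chart₀.indep v ((mul_eq_zero.1 hzero).resolve_left hb))
    · have hdec : P = C (P.coeff 0) + X * h := by rw [← hh]; ring
      rw [hdec, map_add, map_mul, aeval_C, aeval_X] at h0
      linear_combination -h0
  -- scaling
  have hscale : ∀ f : F, f ≠ 0 → ∃ c : K, c ≠ 0 ∧ ∃ q : A[X], q.map π ≠ 0 ∧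
      ∃ b : ρA.B₀, Φ b ≠ 0 ∧ ρA.ξ₀ q * (c • f) = (b : F) := by
    intro f hf
    obtain ⟨p, hp, hmem⟩ := hG.gen f
    obtain ⟨v, hv⟩ := ρ.chart₀.mem_ring.1 hmem
    have hv0 : ∃ i, v i ≠ 0 := by
      by_contra hall
      push Not at hall
      simp only [hall, map_zero, zero_mul, Finset.sum_const_zero] at hv
      exact mul_ne_zero (hG.unit p hp).ne_zero hf hv.symm
    obtain ⟨i₁, hi₁⟩ := hv0
    obtain ⟨α, qp, hα, hqp, ⟨⟩, jp, hjp⟩ := exists_primitive_scale A (fun _ : Unit => p)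
      (i₀ := ()) hp
    obtain ⟨β, qv, hβ, hqv, iv, jv, hjv⟩ := exists_primitive_scale A v hi₁
    refine ⟨α⁻¹ * β, mul_ne_zero (inv_ne_zero hα) hβ, qp (), fun h => ?_,
      ρA.chart₀.ofVec qv, fun h => ?_, ?_⟩
    · exact (ker_eq_maximalIdeal π hπ).1
        (by simpa [coeff_map] using congrArg (fun r => coeff r jp) h) hjp
    · rw [hΦsum] at h
      have := congrFun (ρk.chart₀.indep _ h) iv
      rw [ρA.chart₀.repr_ofVec] at this
      exact (ker_eq_maximalIdeal π hπ).1
        (by simpa [coeff_map] using congrArg (fun r => coeff r jv) this) hjv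
    · have hC : ∀ c : K, ρ.ξ₀ (C c) = algebraMap K F c := fun c => by
        rw [Realization.ξ₀, coe_eval₂RingHom, eval₂_C, hι]
      show _ = ∑ i, ρA.ξ₀ (qv i) * ρ.ω i
      simp only [hξA, hqv, hqp, map_mul, hC, mul_assoc, ← Finset.mul_sum]
      rw [show ∑ i, ρ.ξ₀ (v i) * ρ.ω i = ρ.ξ₀ p * f from hv, Algebra.smul_def, map_mul, map_inv₀]
      have : algebraMap K F α ≠ 0 := by simpa using hα
      field_simp
  -- the valuation ring
  let V₀ : Subring F :=
    { carrier := {f | ∃ q : A[X], q.map π ≠ 0 ∧ ρA.ξ₀ q * f ∈ ρA.B₀}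
      zero_mem' := ⟨1, by simp, by simp⟩
      one_mem' := ⟨1, by simp, by rw [map_one, one_mul]; exact one_mem _⟩
      add_mem' := by
        rintro f g ⟨q, hq, hf⟩ ⟨r, hr, hg⟩
        refine ⟨q * r, by rw [Polynomial.map_mul]; exact mul_ne_zero hq hr, ?_⟩
        rw [map_mul, show ρA.ξ₀ q * ρA.ξ₀ r * (f + g)
          = ρA.ξ₀ r * (ρA.ξ₀ q * f) + ρA.ξ₀ q * (ρA.ξ₀ r * g) by ring]
        exact add_mem (mul_mem (ρA.chart₀.mem_base r) hf) (mul_mem (ρA.chart₀.mem_base q) hg)
      neg_mem' := by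
        rintro f ⟨q, hq, hf⟩
        exact ⟨q, hq, by rw [mul_neg]; exact neg_mem hf⟩
      mul_mem' := by
        rintro f g ⟨q, hq, hf⟩ ⟨r, hr, hg⟩
        refine ⟨q * r, by rw [Polynomial.map_mul]; exact mul_ne_zero hq hr, ?_⟩
        rw [map_mul, show ρA.ξ₀ q * ρA.ξ₀ r * (f * g)
          = (ρA.ξ₀ q * f) * (ρA.ξ₀ r * g) by ring]
        exact mul_mem hf hg }
  have hinvmem : ∀ (g : F) (q : A[X]) (b : ρA.B₀), q.map π ≠ 0 → Φ b ≠ 0 →
      ρA.ξ₀ q * g = b → g⁻¹ ∈ V₀ := by
    intro g q b hq hb hgb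
    obtain ⟨q', hq', b', hbb⟩ := hunit b hb
    refine ⟨q', hq', ?_⟩
    have hbb' : (b : F) * b' = ρA.ξ₀ q' := congrArg Subtype.val hbb
    have hg0 : g ≠ 0 := by
      rintro rfl
      rw [mul_zero] at hgb
      exact hb (by rw [show b = 0 from Subtype.ext hgb.symm, map_zero])
    rw [← hbb', ← hgb, show ρA.ξ₀ q * g * (b' : F) * g⁻¹ = ρA.ξ₀ q * b' * (g * g⁻¹) by ring,
      mul_inv_cancel₀ hg0, mul_one]
    exact mul_mem (ρA.chart₀.mem_base q) b'.2
  have hAV : ∀ a : A, algebraMap K F a ∈ V₀ := fun a => ⟨1, by simp, by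
    rw [map_one, one_mul]
    refine ⟨Pi.single DA.i₀ (C a), ?_⟩
    rw [ChartHyp.sum_single, ρA.chart₀.one, mul_one]
    simp [ρA, hι]⟩
  let V : ValuationSubring F := ValuationSubring.ofSubring V₀ fun f => by
    rcases eq_or_ne f 0 with rfl | hf
    · exact Or.inl (zero_mem _)
    obtain ⟨c, hc, q, hq, b, hb, hcb⟩ := hscale f hf
    have h1 : c • f ∈ V₀ := ⟨q, hq, hcb ▸ b.2⟩
    have h2 : (c • f)⁻¹ ∈ V₀ := hinvmem _ q b hq hb hcb
    have hcF : algebraMap K F c ≠ 0 := by simpa using hc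
    rcases A.mem_or_inv_mem c with hcA' | hcA'
    · right
      have := V₀.mul_mem (hAV ⟨c, hcA'⟩) h2
      rwa [Algebra.smul_def, mul_inv, ← mul_assoc, mul_inv_cancel₀ hcF, one_mul] at this
    · left
      have := V₀.mul_mem (hAV ⟨_, hcA'⟩) h1
      rwa [Algebra.smul_def, map_inv₀, ← mul_assoc, inv_mul_cancel₀ hcF, one_mul] at this
  have hVmem : ∀ f, f ∈ V ↔ ∃ q : A[X], q.map π ≠ 0 ∧ ρA.ξ₀ q * f ∈ ρA.B₀ := fun f => Iff.rfl
  choose qV hqV hbV using fun f : V => (hVmem f).1 f.2
  have hk0 : ∀ q : A[X], q.map π ≠ 0 → ρk.ξ₀ (q.map π) ≠ 0 := fun q hq =>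
    (hGk.unit _ hq).ne_zero
  let φV : V → L := fun f => (ρk.ξ₀ ((qV f).map π))⁻¹ * Φ ⟨_, hbV f⟩
  have hφV : ∀ (f : V) (q : A[X]) (b : ρA.B₀), q.map π ≠ 0 → ρA.ξ₀ q * f = b →
      φV f = (ρk.ξ₀ (q.map π))⁻¹ * Φ b := by
    intro f q b hq hb
    have heq : algebraMap A[X] ρA.B₀ q * ⟨_, hbV f⟩ = algebraMap A[X] ρA.B₀ (qV f) * b :=
      Subtype.ext (by
        show ρA.ξ₀ q * (ρA.ξ₀ (qV f) * f) = ρA.ξ₀ (qV f) * b
        rw [← hb]; ring)
    have h := congrArg Φ heq
    rw [map_mul, map_mul, hΦξ, hΦξ] at h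
    have h1 := hk0 _ (hqV f)
    have h2 := hk0 _ hq
    simp only [φV]
    field_simp
    linear_combination h
  let φ' : V →+* L :=
    { toFun := φV
      map_one' := by
        rw [hφV 1 1 1 (by simp) (by simp)]
        simp
      map_zero' := by
        rw [hφV 0 1 0 (by simp) (by simp)]
        simp
      map_add' := fun f g => by
        rw [hφV (f + g) (qV f * qV g)
          (algebraMap A[X] ρA.B₀ (qV g) * ⟨_, hbV f⟩ + algebraMap A[X] ρA.B₀ (qV f) * ⟨_, hbV g⟩)
          (by rw [Polynomial.map_mul]; exact mul_ne_zero (hqV f) (hqV g))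
          (by
            show _ = ρA.ξ₀ (qV g) * (ρA.ξ₀ (qV f) * f) + ρA.ξ₀ (qV f) * (ρA.ξ₀ (qV g) * g)
            rw [map_mul]
            show _ * ((f : F) + g) = _
            ring)]
        have h1 := hk0 _ (hqV f)
        have h2 := hk0 _ (hqV g)
        simp only [φV, map_add, map_mul, hΦξ, Polynomial.map_mul]
        field_simp
      map_mul' := fun f g => by
        rw [hφV (f * g) (qV f * qV g) (⟨_, hbV f⟩ * ⟨_, hbV g⟩)
          (by rw [Polynomial.map_mul]; exact mul_ne_zero (hqV f) (hqV g))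
          (by
            show _ = (ρA.ξ₀ (qV f) * f) * (ρA.ξ₀ (qV g) * g)
            rw [map_mul]
            show _ * ((f : F) * g) = _
            ring)]
        simp only [φV, map_mul, Polynomial.map_mul]
        rw [mul_inv]
        ring }
  have hxmem : ρ.x ∈ V := (hVmem _).2 ⟨1, by simp, by
    rw [map_one, one_mul]
    refine ⟨Pi.single DA.i₀ X, ?_⟩
    rw [ChartHyp.sum_single, ρA.chart₀.one, mul_one]
    simp [ρA]⟩
  have hφx : φ' ⟨ρ.x, hxmem⟩ = ρk.x := by
    show φV _ = _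
    rw [hφV ⟨ρ.x, hxmem⟩ 1 (algebraMap A[X] ρA.B₀ X) (by simp) (by
      show _ = ρA.ξ₀ X
      simp [Realization.ξ₀, ρA])]
    rw [hΦξ]
    simp [Realization.ξ₀]
  have hff : Curve.IsFunctionFieldOne k L := hGk.isFunctionFieldOne hιk
  refine ⟨L, inferInstance, inferInstance,
    { π := π
      π_surjective := hπ
      V := V
      mem_V_iff := fun a => ⟨fun ha => ?_, fun ha => hAV ⟨a, ha⟩⟩
      φ := φ'
      φ_surjective := fun z => ?_
      φ_algebraMap := fun a => ?_
      exists_scale := fun f hf => ?_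
      x := ⟨ρ.x, hxmem⟩
      x_transcendental := by rw [hφx]; exact hGk.transcendental hιk
      degree_eq := by
        rw [hφx, hGk.finrank_eq hιk]
        exact hG.finrank_eq hι
      degree_pos := by
        rw [hφx, hGk.finrank_eq hιk]
        exact Fin.pos D.i₀
      genus_eq := ?_ }, hff⟩
  · by_contra hn
    have hai : a⁻¹ ∈ A := (A.mem_or_inv_mem a).resolve_left hn
    obtain ⟨q, hq, hb⟩ := (hVmem _).1 ha
    have ha0 : a ≠ 0 := fun h => hn (h ▸ A.zero_mem)
    have heq : algebraMap A[X] ρA.B₀ q = algebraMap A[X] ρA.B₀ (C ⟨a⁻¹, hai⟩) * ⟨_, hb⟩ :=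
      Subtype.ext (by
        show ρA.ξ₀ q = ρA.ξ₀ (C ⟨a⁻¹, hai⟩) * (ρA.ξ₀ q * algebraMap K F a)
        have hCa : ρA.ξ₀ (C ⟨a⁻¹, hai⟩) = algebraMap K F a⁻¹ := by
          simp [Realization.ξ₀, ρA, hι]
        rw [hCa, mul_comm (ρA.ξ₀ q), ← mul_assoc, ← map_mul, inv_mul_cancel₀ ha0, map_one,
          one_mul])
    have h := congrArg Φ heq
    have hπ0 : π ⟨a⁻¹, hai⟩ = 0 := (ker_eq_maximalIdeal π hπ).2 fun hu => hn (by
      obtain ⟨w, hw⟩ := hu
      have h1 : ((w : A) : K) * ((w⁻¹ : Aˣ) : A) = 1 := congrArg Subtype.val w.mul_inv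
      rw [hw] at h1
      have h2 : a = ((w⁻¹ : Aˣ) : A) := by
        rw [← inv_eq_of_mul_eq_one_right h1, inv_inv]
      rw [h2]; exact Subtype.coe_prop _)
    rw [map_mul, hΦξ, hΦξ, Polynomial.map_C, hπ0, map_zero, map_zero, zero_mul] at h
    exact hk0 q hq h
  · obtain ⟨p, hp, hmem⟩ := hGk.gen z
    obtain ⟨v, hv⟩ := ρk.chart₀.mem_ring.1 hmem
    obtain ⟨P, hP⟩ := Polynomial.map_surjective π hπ p
    choose w hw using fun i => Polynomial.map_surjective π hπ (v i)
    have hP0 : P.map π ≠ 0 := hP ▸ hp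
    have hfV : (ρA.ξ₀ P)⁻¹ * (ρA.chart₀.ofVec w : ρA.B₀) ∈ V := (hVmem _).2 ⟨P, hP0, by
      rw [← mul_assoc, mul_inv_cancel₀ (hξA0 P hP0), one_mul]
      exact Subtype.coe_prop _⟩
    refine ⟨⟨_, hfV⟩, ?_⟩
    show φV _ = z
    rw [hφV _ P (ρA.chart₀.ofVec w) hP0 (by
      show ρA.ξ₀ P * ((ρA.ξ₀ P)⁻¹ * _) = _
      rw [← mul_assoc, mul_inv_cancel₀ (hξA0 P hP0), one_mul]), hΦsum]
    simp only [ρA.chart₀.repr_ofVec, hw, hP]
    rw [show ∑ i, ρk.ξ₀ (v i) * ρk.ω i = ρk.ξ₀ p * z from hv, ← mul_assoc,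
      inv_mul_cancel₀ (hGk.unit p hp).ne_zero, one_mul]
  · show φV _ = _
    rw [hφV _ 1 (algebraMap A[X] ρA.B₀ (C a)) (by simp) (by
      show _ = ρA.ξ₀ (C a)
      simp [Realization.ξ₀, ρA, hι]), hΦξ]
    simp [Realization.ξ₀, ← hιk]
  · obtain ⟨c, hc, q, hq, b, hb, hcb⟩ := hscale f hf
    refine ⟨c, (hVmem _).2 ⟨q, hq, hcb ▸ b.2⟩, ?_⟩
    show φV _ ≠ 0
    rw [hφV _ q b hq hcb]
    exact mul_ne_zero (inv_ne_zero (hk0 q hq)) hb
  · have h1 := Realization.genus_eq H hG hι
    have h2 := Realization.genus_eq Hk hGk hιk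
    have hdd : (DA.map π).d = D.d := hd
    rw [hdd] at h2
    omega

end Fermat.Agent.S27
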