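/-
A finitely generated subring of an algebraically closed field of characteristic zero lies in a
valuation subring whose residue field is an algebraic closure of a prime field `𝔽_p`, `p` avoiding
a given prime.
-/
import Mathlib.RingTheory.Jacobson.Ring
import Mathlib.RingTheory.Valuation.LocalSubring
import Mathlib.RingTheory.Valuation.ValuationSubring
import Mathlib.FieldTheory.IsAlgClosed.Basic
import Mathlib.FieldTheory.Finite.Basic
import Mathlib.Algebra.Algebra.ZMod
import Mathlib.RingTheory.PrincipalIdealDomain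
import Mathlib.RingTheory.IntegralClosure.IntegrallyClosed

set_option autoImplicit false

namespace Fermat.Agent.S27

open Polynomial

theorem isJacobsonRing_int : IsJacobsonRing ℤ := by
  rw [isJacobsonRing_iff_prime_eq]
  intro P hP
  rcases eq_or_ne P ⊥ with rfl | hne
  · refine eq_bot_iff.2 fun x hx => ?_
    rw [Ideal.mem_bot]
    have h := Ideal.mem_jacobson_bot.1 hx (3 * x)
    rcases Int.isUnit_iff.1 h with h1 | h1
    · nlinarith [mul_self_nonneg x]
    · nlinarith [mul_self_nonneg x]
  · have : P.IsMaximal := IsPrime.to_maximal_ideal hne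
    exact Ideal.jacobson_eq_self_of_isMaximal

variable {K : Type*} [Field K]

theorem isAlgClosed_residueField [IsAlgClosed K] (A : ValuationSubring K) :
    IsAlgClosed (IsLocalRing.ResidueField A) := by
  refine IsAlgClosed.of_exists_root _ fun p hp hirr => ?_
  obtain ⟨P, hP, hdeg, hPm⟩ := Polynomial.lifts_and_degree_eq_and_monic
    (Polynomial.map_surjective _ IsLocalRing.residue_surjective p) hp
  obtain ⟨z, hz⟩ := IsAlgClosed.exists_root (P.map A.subtype) (by
    rw [hPm.degree_map, hdeg]; exact hirr.degree_pos.ne')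
  have hzint : IsIntegral A z := ⟨P, hPm, by
    rw [IsRoot, eval_map] at hz; exact hz⟩
  obtain ⟨w, hw⟩ := IsIntegrallyClosed.algebraMap_eq_of_integral hzint
  refine ⟨IsLocalRing.residue A w, ?_⟩
  rw [← hP, eval_map, eval₂_hom]
  have : P.eval w = 0 := by
    apply A.subtype_injective
    rw [map_zero, ← Polynomial.eval₂_hom, ← eval_map]
    rw [show A.subtype w = z from hw]
    exact hz
  rw [this, map_zero]

theorem exists_minimal_le (S : Subring K) (B : ValuationSubring K) (hS : S ≤ B.toSubring) :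
    ∃ A : ValuationSubring K, S ≤ A.toSubring ∧ A ≤ B ∧
      ∀ A' : ValuationSubring K, S ≤ A'.toSubring → A' ≤ A → A ≤ A' := by
  obtain ⟨A, hAB, hA⟩ := zorn_le_nonempty_Ici₀
    (α := ({A : ValuationSubring K // S ≤ A.toSubring})ᵒᵈ)
    (OrderDual.toDual ⟨B, hS⟩) (fun s _ hs y hy => by
      let R : Subring K := ⨅ i : s, (OrderDual.ofDual i.1).1.toSubring
      have hR : ∀ x : K, x ∈ R ∨ x⁻¹ ∈ R := by
        intro x
        by_contra hcon
        simp only [R, Subring.mem_iInf, not_or, not_forall] at hcon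
        obtain ⟨⟨i, hi⟩, j, hj⟩ := hcon
        rcases hs.total i.2 j.2 with h | h
        · exact hi (h (((OrderDual.ofDual j.1).1.mem_or_inv_mem x).resolve_right hj))
        · exact hj (h (((OrderDual.ofDual i.1).1.mem_or_inv_mem x).resolve_left hi))
      refine ⟨OrderDual.toDual ⟨ValuationSubring.ofSubring R hR, fun a ha => ?_⟩, fun z hz => ?_⟩
      · exact Subring.mem_iInf.2 fun i => (OrderDual.ofDual i.1).2 ha
      · intro x hx
        exact Subring.mem_iInf.1 hx ⟨z, hz⟩)
    _ le_rfl
  exact ⟨(OrderDual.ofDual A).1, (OrderDual.ofDual A).2, hAB, fun A' h1 h2 =>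
    hA (b := OrderDual.toDual ⟨A', h1⟩) h2⟩

/-- over a minimal valuation subring the residues are integral over the given subring -/
theorem isIntegralElem_residue_of_minimal {S : Subring K} {A : ValuationSubring K}
    (hS : S ≤ A.toSubring)
    (hmin : ∀ A' : ValuationSubring K, S ≤ A'.toSubring → A' ≤ A → A ≤ A')
    (z : IsLocalRing.ResidueField A) :
    ((IsLocalRing.residue A).comp (Subring.inclusion hS)).IsIntegralElem z := by
  set φ : S →+* IsLocalRing.ResidueField A := (IsLocalRing.residue A).comp (Subring.inclusion hS)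
  let : Algebra S (IsLocalRing.ResidueField A) := φ.toAlgebra
  show IsIntegral S z
  by_contra hz
  set T := (integralClosure S (IsLocalRing.ResidueField A)).toSubring
  have hT : IsIntegrallyClosedIn T (IsLocalRing.ResidueField A) := by
    rw [Subring.isIntegrallyClosedIn_iff]
    intro y hy
    exact isIntegral_trans (R := S) (A := integralClosure S (IsLocalRing.ResidueField A)) y hy
  obtain ⟨C, hTC, hzC⟩ := T.exists_le_valuationSubring_of_isIntegrallyClosedIn hz
  have hsub : ∀ x : K, x ∈ (C.toSubring.comap (IsLocalRing.residue A)).map A.subtype ↔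
      ∃ h : x ∈ A, IsLocalRing.residue A ⟨x, h⟩ ∈ C := by
    intro x
    constructor
    · rintro ⟨y, hy, rfl⟩; exact ⟨y.2, hy⟩
    · rintro ⟨h, hy⟩; exact ⟨⟨x, h⟩, hy, rfl⟩
  let A' : ValuationSubring K :=
    ValuationSubring.ofSubring ((C.toSubring.comap (IsLocalRing.residue A)).map A.subtype) fun x => by
      rw [hsub, hsub]
      by_cases hx : x ∈ A
      · by_cases hu : IsLocalRing.residue A ⟨x, hx⟩ = 0
        · exact Or.inl ⟨hx, hu ▸ C.zero_mem⟩
        · have hunit : IsUnit (⟨x, hx⟩ : A) :=
            IsLocalRing.notMem_maximalIdeal.1 fun h => hu ((IsLocalRing.residue_eq_zero_iff _).2 h)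
          obtain ⟨u, hu'⟩ := hunit
          have hxinv : x⁻¹ = ((u⁻¹ : Aˣ) : A) := by
            refine inv_eq_of_mul_eq_one_right ?_
            have := congrArg Subtype.val u.mul_inv
            rwa [hu'] at this
          refine (C.mem_or_inv_mem _).imp (fun h => ⟨hx, h⟩) fun h => ⟨hxinv ▸ Subtype.coe_prop _, ?_⟩
          convert h using 1
          symm
          refine inv_eq_of_mul_eq_one_right ?_
          rw [← map_mul]
          convert map_one (IsLocalRing.residue A)
          exact Subtype.ext (mul_inv_cancel₀ (fun h0 => hu (by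
            rw [show (⟨x, hx⟩ : A) = 0 from Subtype.ext h0, map_zero])))
      · right
        have hx' : x⁻¹ ∈ A := (A.mem_or_inv_mem x).resolve_left hx
        refine ⟨hx', ?_⟩
        rw [(IsLocalRing.residue_eq_zero_iff _).2 (A.coe_mem_nonunits_iff.1
          (A.inv_mem_nonunits_iff.2 (Or.inr hx)))]
        exact C.zero_mem
  have hA' : A ≤ A' := hmin A'
    (fun s hs => (hsub s).2 ⟨hS hs, hTC (isIntegral_algebraMap (R := S)
      (A := IsLocalRing.ResidueField A) (x := ⟨s, hs⟩))⟩)
    (fun x hx => ((hsub x).1 hx).1)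
  obtain ⟨w, rfl⟩ := IsLocalRing.residue_surjective z
  exact hzC ((hsub _).1 (hA' w.2)).2

/-- specialisation to positive characteristic -/
theorem exists_specialization [IsAlgClosed K] [CharZero K] {S : Finset K} (ℓ : ℕ)
    (hℓ : ℓ.Prime) :
    ∃ (A : ValuationSubring K) (p : ℕ), p.Prime ∧ p ≠ ℓ ∧ (↑S : Set K) ⊆ A ∧
      CharP (IsLocalRing.ResidueField A) p ∧ IsAlgClosed (IsLocalRing.ResidueField A) ∧
      ∀ c : IsLocalRing.ResidueField A, ∃ n : ℕ, 0 < n ∧ c ^ (p ^ n) = c := by
  classical
  have := isJacobsonRing_int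
  set R₀ : Subalgebra ℤ K := Algebra.adjoin ℤ (insert (ℓ : K)⁻¹ (↑S : Set K)) with hR₀
  have hfg : Algebra.FiniteType ℤ R₀ := by
    refine ⟨(Subalgebra.fg_top R₀).2 ?_⟩
    rw [hR₀, ← Finset.coe_insert]
    exact Subalgebra.fg_adjoin_finset _
  obtain ⟨m, hm⟩ := Ideal.exists_maximal R₀
  obtain ⟨B, hRB, hB⟩ := IsLocalRing.exists_factor_valuationRing
    (R := Localization.AtPrime m) (IsLocalization.lift (M := m.primeCompl)
      (g := (R₀.val : R₀ →+* K)) (S := Localization.AtPrime m) fun y => by
      refine isUnit_iff_ne_zero.2 fun h0 => y.2 ?_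
      rw [show (y : R₀) = 0 from Subtype.ext h0]
      exact m.zero_mem)
  have hR₀B : R₀.toSubring ≤ B.toSubring := fun r hr => by
    have h := hRB (algebraMap R₀ (Localization.AtPrime m) ⟨r, hr⟩)
    rw [IsLocalization.lift_eq] at h
    exact h
  have hmB : ∀ r : R₀, r ∈ m → (r : K) ∈ B.nonunits := fun r hr => by
    rw [show (r : K) = ((⟨r, hR₀B r.2⟩ : B) : K) from rfl, ValuationSubring.coe_mem_nonunits_iff]
    have h1 : algebraMap R₀ (Localization.AtPrime m) r ∈ IsLocalRing.maximalIdeal _ :=
      (IsLocalization.AtPrime.to_map_mem_maximal_iff (Localization.AtPrime m) m r).2 hr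
    intro hu
    refine h1 (hB.map_nonunit _ ?_)
    generalize hy : (RingHom.codRestrict (IsLocalization.lift (M := m.primeCompl) _) B.toSubring _)
        (algebraMap R₀ (Localization.AtPrime m) r) = y
    have hval : (y : K) = r := by
      rw [← hy]; exact IsLocalization.lift_eq _ _
    rw [show y = (⟨r, hR₀B r.2⟩ : B) from Subtype.ext hval]
    exact hu
  obtain ⟨A, hSA, hAB, hmin⟩ := exists_minimal_le R₀.toSubring B hR₀B
  have hmA : ∀ r : R₀, r ∈ m → (⟨r, hSA r.2⟩ : A) ∈ IsLocalRing.maximalIdeal A := fun r hr => by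
    by_contra h
    obtain ⟨u, hu⟩ := IsLocalRing.notMem_maximalIdeal.1 h
    have hBu : IsUnit (⟨r, hR₀B r.2⟩ : B) := by
      refine ⟨⟨⟨r, hR₀B r.2⟩, ⟨((u⁻¹ : Aˣ) : A), hAB (Subtype.coe_prop _)⟩, ?_, ?_⟩, rfl⟩
      · have := congrArg Subtype.val u.mul_inv
        rw [hu] at this
        exact Subtype.ext this
      · have := congrArg Subtype.val u.inv_mul
        rw [hu] at this
        exact Subtype.ext this
    exact (B.coe_mem_nonunits_iff.1 (hmB r hr)) hBu
  -- the residues of `R₀` form a finite field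
  have : m.IsMaximal := hm
  let : Field (R₀ ⧸ m) := Ideal.Quotient.field m
  have hft : Algebra.FiniteType ℤ (R₀ ⧸ m) := by infer_instance
  have hfin : Module.Finite ℤ (R₀ ⧸ m) := finite_of_finite_type_of_isJacobsonRing ℤ _
  have hnz : ∃ p : ℕ, p.Prime ∧ CharP (R₀ ⧸ m) p := by
    obtain ⟨p, hp⟩ := CharP.exists (R₀ ⧸ m)
    rcases CharP.char_is_prime_or_zero (R₀ ⧸ m) p with h | h
    · exact ⟨p, h, hp⟩
    · exfalso
      subst h
      have : CharZero (R₀ ⧸ m) := CharP.charP_to_charZero _
      have hint : Algebra.IsIntegral ℤ (R₀ ⧸ m) := Algebra.IsIntegral.of_finite ℤ _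
      exact Int.not_isField (isField_of_isIntegral_of_isField
        (show Function.Injective (algebraMap ℤ (R₀ ⧸ m)) from Int.cast_injective)
        (Field.toIsField _))
  obtain ⟨p, hp, hchar⟩ := hnz
  have : Fact p.Prime := ⟨hp⟩
  have hfinite : Finite (R₀ ⧸ m) := by
    let : Algebra (ZMod p) (R₀ ⧸ m) := ZMod.algebra _ p
    have : Module.Finite (ZMod p) (R₀ ⧸ m) := Module.Finite.of_restrictScalars_finite ℤ _ _
    exact Module.finite_of_finite (ZMod p)
  set φ : R₀ →+* IsLocalRing.ResidueField A :=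
    (IsLocalRing.residue A).comp (Subring.inclusion hSA) with hφ
  have hφm : ∀ r ∈ m, φ r = 0 := fun r hr => (IsLocalRing.residue_eq_zero_iff _).2 (hmA r hr)
  set ψ : R₀ ⧸ m →+* IsLocalRing.ResidueField A := Ideal.Quotient.lift m φ hφm
  have hchar' : CharP (IsLocalRing.ResidueField A) p :=
    (RingHom.charP_iff ψ ψ.injective p).1 hchar
  refine ⟨A, p, hp, ?_, fun s hs => hSA (Algebra.subset_adjoin (Set.mem_insert_of_mem _ hs)),
    hchar', isAlgClosed_residueField A, fun c => ?_⟩
  · rintro rfl
    have h1 : φ ((p : R₀) * ⟨(p : K)⁻¹, Algebra.subset_adjoin (Set.mem_insert _ _)⟩) = 1 := by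
      convert map_one φ
      exact Subtype.ext (by simp [hp.ne_zero])
    rw [map_mul, map_natCast, CharP.cast_eq_zero, zero_mul] at h1
    exact zero_ne_one h1
  · have hint : φ.IsIntegralElem c := isIntegralElem_residue_of_minimal hSA hmin c
    obtain ⟨Q, hQ, hQc⟩ := hint
    let : Algebra (R₀ ⧸ m) (IsLocalRing.ResidueField A) := ψ.toAlgebra
    have hic : IsIntegral (R₀ ⧸ m) c := ⟨Q.map (Ideal.Quotient.mk m), hQ.map _, by
      rw [eval₂_map]; exact hQc⟩
    let E := IntermediateField.adjoin (R₀ ⧸ m) ({c} : Set (IsLocalRing.ResidueField A))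
    have : FiniteDimensional (R₀ ⧸ m) E := IntermediateField.adjoin.finiteDimensional hic
    have : Finite E := Module.finite_of_finite (R₀ ⧸ m)
    have : Fintype E := Fintype.ofFinite E
    have : CharP E p := (RingHom.charP_iff E.val.toRingHom E.val.injective p).2 hchar'
    obtain ⟨n, -, hn⟩ := FiniteField.card E p
    refine ⟨n, n.pos, ?_⟩
    have := congrArg (E.val) (FiniteField.pow_card
      (⟨c, IntermediateField.mem_adjoin_simple_self _ c⟩ : E))
    rw [map_pow, hn] at this
    exact this

end Fermat.Agent.S27
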