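/-
Torsion of the divisor class group of a function field in characteristic zero.
-/
import Fermat.Agent.S27.NormalBasis
import Fermat.Agent.S27.Descend
import Fermat.Agent.S27.Specialize
import Fermat.Agent.S27.Reduction
import Fermat.Agent.Curve.Divisible
import Fermat.Agent.Curve.Zeta

set_option autoImplicit false

namespace Fermat.Agent.S27

open AlgebraicCurve

/-- the `ℓ^k`-torsion and its finiteness, by specialisation to an algebraic closure of a prime
field -/
theorem finite_and_natCard_torsion_pow (K F : Type*) [Field K] [Field F] [Algebra K F]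
    [IsAlgClosed K] [CharZero K] [IsCurveOver K F] [Algebra.EssFiniteType K F]
    (ℓ : ℕ) [hℓ : Fact ℓ.Prime] (k : ℕ) :
    Finite (Pic0.torsion K F (ℓ ^ k)) ∧
      Nat.card (Pic0.torsion K F (ℓ ^ k)) = ℓ ^ (2 * genusFF K F * k) := by
  have hFF : Curve.IsFunctionFieldOne K F := Curve.isFunctionFieldOne_of_isCurveOver
  obtain ⟨n, D, ρ, hι, -, H, hG⟩ := exists_realization K F
  obtain ⟨S, hS⟩ := H.descend
  obtain ⟨A, p, hp, hpl, hSA, hchar, hclosed, hfin⟩ :=
    exists_specialization (K := K) (S := S) ℓ hℓ.out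
  obtain ⟨D', ρ', hD, -, -, -, H'⟩ := hS (Subring.closure (S : Set K)) Subring.subset_closure
  obtain ⟨Fb, _, _, G, hFb⟩ := exists_goodReduction hι H hG hD H' A
    (Subring.closure_le.2 hSA) (IsLocalRing.residue A) IsLocalRing.residue_surjective
  have : Fact p.Prime := ⟨hp⟩
  set κ := IsLocalRing.ResidueField A
  have : PerfectField κ := inferInstance
  have hℓκ : (ℓ : κ) ≠ 0 := by
    rw [Ne, CharP.cast_eq_zero_iff κ p, Nat.prime_dvd_prime_iff_eq hp hℓ.out]
    exact hpl
  have hpowκ : ((ℓ ^ k : ℕ) : κ) ≠ 0 := by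
    rw [Nat.cast_pow]; exact pow_ne_zero _ hℓκ
  have hfinκ := Curve.finite_torsion_of_algClosure_finite (K := κ) (F := Fb) p hfin (ℓ ^ k) hpowκ
  have hdiv : ∀ x : Pic0 κ Fb, ∃ y : Pic0 κ Fb, ℓ • y = x := fun x =>
    Curve.pic0_exists_nsmul_eq hℓκ
      (Curve.finite_torsion_of_algClosure_finite (K := κ) (F := Fb) p hfin ℓ hℓκ) x
  refine ⟨G.finite_torsion hpowκ hfinκ, ?_⟩
  rw [G.natCard_torsion_eq hpowκ hfinκ,
    Curve.natCard_torsion_pow_of_algClosure_finite p hfin ℓ hpl.symm hdiv k, G.genus_eq]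

/-- the number of `ℓ^k`-torsion classes -/
theorem natCard_torsion_pow (K F : Type*) [Field K] [Field F] [Algebra K F]
    [IsAlgClosed K] [CharZero K] [IsCurveOver K F] [Algebra.EssFiniteType K F]
    (ℓ : ℕ) [Fact ℓ.Prime] (k : ℕ) :
    Nat.card (Pic0.torsion K F (ℓ ^ k)) = ℓ ^ (2 * genusFF K F * k) :=
  (finite_and_natCard_torsion_pow K F ℓ k).2

end Fermat.Agent.S27
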